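import Fermat.Agent.ALCoh.EigenChar
import Fermat.Agent.HeckeHom.Faithful

/-!
# Lifting characters of quotients of Hecke algebras to characteristic zero
-/

set_option autoImplicit false

open ModularFormClass CuspForm Fermat.Agent.HeckeHom CongruenceSubgroup

namespace Fermat.Agent.LevelRaise

/-- A maximal ideal of a finite `ℤ`-algebra containing an ideal with torsion free quotient is the
reduction of a character to `ℤbar` killing the ideal. -/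
theorem exists_char_of_quot {T : Type*} [CommRing T] [Module.Finite ℤ T] (I : Ideal T)
    (htf : ∀ (n : ℤ) (t : T), n ≠ 0 → (n : T) * t ∈ I → t ∈ I) (𝔑 : Ideal T) [h𝔑 : 𝔑.IsMaximal]
    (hI : I ≤ 𝔑) :
    ∃ (χ : T →+* integralClosure ℤ ℂ) (𝔐 : Ideal (integralClosure ℤ ℂ)),
      (∀ t ∈ I, χ t = 0) ∧ 𝔐.IsMaximal ∧ 𝔐.comap χ = 𝔑 := by
  obtain ⟨𝔭, h𝔭min, h𝔭𝔑⟩ := Ideal.exists_minimalPrimes_le (I := I) (J := 𝔑) hI
  haveI : 𝔭.IsPrime := h𝔭min.1.1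
  have hI𝔭 : I ≤ 𝔭 := h𝔭min.1.2
  have hint0 : ∀ n : ℤ, n ≠ 0 → (n : T) ∉ 𝔭 := by
    intro n hn hmem
    obtain ⟨y, hy, hny⟩ := Ideal.exists_mul_mem_of_mem_minimalPrimes h𝔭min hmem
    exact hy (htf n y hn hny)
  haveI hintT : Algebra.IsIntegral ℤ T := Algebra.IsIntegral.of_finite ℤ T
  haveI : Module.Finite ℤ (T ⧸ 𝔭) :=
    Module.Finite.of_surjective (Ideal.Quotient.mk 𝔭).toAddMonoidHom.toIntLinearMap
      Ideal.Quotient.mk_surjective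
  haveI : Algebra.IsIntegral ℤ (T ⧸ 𝔭) := Algebra.IsIntegral.of_finite ℤ _
  have hinj : Function.Injective (algebraMap ℤ (T ⧸ 𝔭)) := by
    rw [injective_iff_map_eq_zero]
    intro n hn
    by_contra hn0
    apply hint0 n hn0
    rw [← Ideal.Quotient.eq_zero_iff_mem, map_intCast]
    simpa using hn
  haveI : FaithfulSMul ℤ (T ⧸ 𝔭) := (faithfulSMul_iff_algebraMap_injective ℤ _).mpr hinj
  haveI : Algebra.IsAlgebraic ℤ (T ⧸ 𝔭) := Algebra.IsIntegral.isAlgebraic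
  let ψ : (T ⧸ 𝔭) →ₐ[ℤ] ℂ := IsAlgClosed.lift
  have hψ : ∀ x : T ⧸ 𝔭, ψ x = 0 → x = 0 := by
    intro x hx
    by_contra hne
    have h1 := Ideal.comap_ne_bot_of_integral_mem (R := ℤ) hne
      (Ideal.mem_span_singleton_self x) (Algebra.IsIntegral.isIntegral (R := ℤ) _)
    obtain ⟨n, hn, hn0⟩ := Submodule.exists_mem_ne_zero_of_ne_bot h1
    rw [Ideal.mem_comap, Ideal.mem_span_singleton] at hn
    obtain ⟨s, hs⟩ := hn
    have h2 := congrArg ψ hs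
    rw [map_mul, hx, zero_mul, AlgHom.commutes] at h2
    exact hn0 (by simpa using h2)
  let χ₀ : T →+* ℂ := (ψ : (T ⧸ 𝔭) →+* ℂ).comp (Ideal.Quotient.mk 𝔭)
  have hχ₀ : ∀ t, χ₀ t = ψ (Ideal.Quotient.mk 𝔭 t) := fun t => rfl
  have hint : ∀ t : T, IsIntegral ℤ (χ₀ t) := fun t =>
    (Algebra.IsIntegral.isIntegral (R := ℤ) (Ideal.Quotient.mk 𝔭 t)).map ψ
  let χ : T →+* integralClosure ℤ ℂ := χ₀.codRestrict (integralClosure ℤ ℂ) hint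
  have hχ : ∀ t, ((χ t : integralClosure ℤ ℂ) : ℂ) = χ₀ t := fun t => rfl
  have hker : ∀ t, χ t = 0 ↔ t ∈ 𝔭 := by
    intro t
    rw [← Ideal.Quotient.eq_zero_iff_mem]
    constructor
    · intro h
      apply hψ
      rw [← hχ₀, ← hχ, h]; rfl
    · intro h
      apply Subtype.ext
      rw [hχ, hχ₀, h, map_zero]; rfl
  letI : Algebra T (integralClosure ℤ ℂ) := χ.toAlgebra
  haveI : Algebra.IsIntegral T (integralClosure ℤ ℂ) := by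
    constructor
    intro z
    obtain ⟨P, hPm, hP⟩ := integralClosure.isIntegral (R := ℤ) (A := ℂ) z
    refine ⟨P.map (algebraMap ℤ T), hPm.map _, ?_⟩
    rw [Polynomial.eval₂_map]
    rw [← hP]
    congr 1
    exact Subsingleton.elim _ _
  obtain ⟨𝔐, h𝔐max, h𝔐⟩ := Ideal.exists_ideal_over_maximal_of_isIntegral
    (S := integralClosure ℤ ℂ) 𝔑 (fun t ht => h𝔭𝔑 ((hker t).mp ht))
  exact ⟨χ, 𝔐, fun t ht => (hker t).mpr (hI𝔭 ht), h𝔐max, h𝔐⟩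

variable {N : ℕ} [NeZero N]

/-- the normalised eigenform of a character of the full Hecke algebra -/
theorem exists_form_of_char (χ : heckeAlgebra N 2 ∅ →+* ℂ) :
    ∃ g : CuspForm (Gamma0 N) 2, g.IsNormalizedEigenform ∧
      (∀ (ℓ : ℕ) (hℓ : ℓ.Prime) (hℓN : ¬ ℓ ∣ N),
        qCoeff g ℓ = χ (heckeAlgebra.T hℓ hℓN (Set.notMem_empty _))) ∧
      (∀ (ℓ : ℕ) (hℓ : ℓ.Prime) (hℓN : ℓ ∣ N),
        qCoeff g ℓ = χ (heckeAlgebra.U hℓ hℓN (Set.notMem_empty _))) := by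
  obtain ⟨y, hy0, hy⟩ := Fermat.Agent.ALCoh.exists_eigenform_of_char χ
  have hTy : ∀ (ℓ : ℕ) (hℓ : ℓ.Prime) (hℓN : ¬ ℓ ∣ N),
      CuspForm.heckeTLin 2 hℓ hℓN y = χ (heckeAlgebra.T hℓ hℓN (Set.notMem_empty _)) • y :=
    fun ℓ hℓ hℓN => hy (heckeAlgebra.T hℓ hℓN (Set.notMem_empty _))
  have hUy : ∀ (q : ℕ) (hq : q.Prime) (hqN : q ∣ N),
      CuspForm.heckeULin 2 hqN y = χ (heckeAlgebra.U hq hqN (Set.notMem_empty _)) • y :=
    fun q hq hqN => hy (heckeAlgebra.U hq hqN (Set.notMem_empty _))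
  have ha1 : qCoeff y 1 ≠ 0 := fun h => hy0 (Eigen.eq_zero_of_eigen_of_qCoeff_one_eq_zero h
    (fun ℓ h1 h2 => ⟨_, hTy ℓ h1 h2⟩) (fun q h1 h2 => ⟨_, hUy q h1 h2⟩))
  obtain ⟨g, hg⟩ : ∃ g : CuspForm (Gamma0 N) 2, g = (qCoeff y 1)⁻¹ • y := ⟨_, rfl⟩
  have h1 : qCoeff g 1 = 1 := by
    rw [hg, Eigen.qCoeff_smul, inv_mul_cancel₀ ha1]
  have hT : ∀ (ℓ : ℕ) (hℓ : ℓ.Prime) (hℓN : ¬ ℓ ∣ N),
      CuspForm.heckeTLin 2 hℓ hℓN g = χ (heckeAlgebra.T hℓ hℓN (Set.notMem_empty _)) • g :=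
    fun ℓ hℓ hℓN => by rw [hg, map_smul, hTy, smul_comm]
  have hU : ∀ (q : ℕ) (hq : q.Prime) (hqN : q ∣ N),
      CuspForm.heckeULin 2 hqN g = χ (heckeAlgebra.U hq hqN (Set.notMem_empty _)) • g :=
    fun q hq hqN => by rw [hg, map_smul, hUy q hq hqN, smul_comm]
  refine ⟨g, Eigen.isNormalizedEigenform_of_eigen h1
    (fun ℓ h1 h2 => ⟨_, hT ℓ h1 h2⟩) (fun q h1 h2 => ⟨_, hU q h1 h2⟩), ?_, ?_⟩
  · intro ℓ hℓ hℓN
    have h2 := Eigen.qCoeff_heckeTLin hℓ hℓN g 1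
    rw [hT, Eigen.qCoeff_smul, h1, mul_one, one_mul,
      if_neg (fun h => hℓ.one_lt.ne' (Nat.dvd_one.mp h)), add_zero] at h2
    exact h2.symm
  · intro ℓ hℓ hℓN
    have h2 := Eigen.qCoeff_heckeULin hℓ hℓN g 1
    rw [hU ℓ hℓ hℓN, Eigen.qCoeff_smul, h1, mul_one, one_mul] at h2
    exact h2.symm

end Fermat.Agent.LevelRaise
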