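import Mathlib

/-!
# Eigenvectors mod `p` from characters mod `p`
-/

set_option autoImplicit false

namespace Fermat.Agent.LevelRaise

theorem exists_mod_eigenvector {T M : Type*} [CommRing T] [AddCommGroup M] [Module T M]
    [Module.Finite ℤ T] [Module.Finite ℤ M] (hfaith : ∀ t : T, (∀ m : M, t • m = 0) → t = 0)
    {p : ℕ} [hp : Fact p.Prime] (ψ : T →+* ZMod p) :
    ∃ x : M, (∀ y : M, x ≠ (p : ℤ) • y) ∧
      ∀ (t : T) (n : ℤ), (n : ZMod p) = ψ t → ∃ y : M, t • x - n • x = (p : ℤ) • y := by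
  haveI : IsNoetherianRing T :=
    isNoetherian_of_tower ℤ (isNoetherian_of_isNoetherianRing_of_finite ℤ T)
  haveI : Module.Finite T M := Module.Finite.of_restrictScalars_finite ℤ T M
  have hpn : ((p : ℤ) : T) ∈ RingHom.ker ψ := by
    rw [RingHom.mem_ker, map_intCast]; simp
  haveI hmax : (RingHom.ker ψ).IsMaximal := RingHom.ker_isMaximal_of_surjective ψ
    (fun y => by
      obtain ⟨n, rfl⟩ := ZMod.intCast_surjective y
      exact ⟨n, by simp⟩)
  have hM : (RingHom.ker ψ) • (⊤ : Submodule T M) ≠ ⊤ := by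
    intro h
    obtain ⟨r, hr1, hr⟩ := Submodule.exists_sub_one_mem_and_smul_eq_zero_of_fg_of_le_smul
      (RingHom.ker ψ) (⊤ : Submodule T M) Module.Finite.fg_top h.ge
    have h0 : r = 0 := hfaith r fun m => hr m trivial
    rw [h0, zero_sub, RingHom.mem_ker, map_neg, map_one, neg_eq_zero] at hr1
    exact one_ne_zero hr1
  let pM : Submodule T M := LinearMap.range (LinearMap.lsmul T M ((p : ℤ) : T))
  have hpM : ∀ m : M, m ∈ pM ↔ ∃ y : M, m = (p : ℤ) • y := by
    intro m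
    constructor
    · rintro ⟨y, rfl⟩
      exact ⟨y, Int.cast_smul_eq_zsmul T (p : ℤ) y⟩
    · rintro ⟨y, rfl⟩
      exact ⟨y, Int.cast_smul_eq_zsmul T (p : ℤ) y⟩
  have hann : Module.annihilator T (M ⧸ pM) ≤ RingHom.ker ψ := by
    intro t ht
    by_contra hcon
    apply hM
    rw [eq_top_iff]
    rintro m -
    have hne : ψ t ≠ 0 := hcon
    obtain ⟨n, hn⟩ := ZMod.intCast_surjective (ψ t)⁻¹
    have h1 : (1 - (n : T) * t) ∈ RingHom.ker ψ := by
      rw [RingHom.mem_ker, map_sub, map_mul, map_one, map_intCast, hn, inv_mul_cancel₀ hne,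
        sub_self]
    rw [Module.mem_annihilator] at ht
    have h2 := ht (Submodule.Quotient.mk ((n : T) • m))
    rw [← Submodule.Quotient.mk_smul, Submodule.Quotient.mk_eq_zero, hpM] at h2
    obtain ⟨y, hy⟩ := h2
    have h3 : m = (1 - (n : T) * t) • m + ((p : ℤ) : T) • y := by
      rw [Int.cast_smul_eq_zsmul T (p : ℤ) y, ← hy, sub_smul, one_smul, mul_comm, mul_smul]
      abel
    rw [h3]
    exact Submodule.add_mem _ (Submodule.smul_mem_smul h1 trivial)
      (Submodule.smul_mem_smul hpn trivial)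
  obtain ⟨𝔭, h𝔭min, h𝔭⟩ := Ideal.exists_minimalPrimes_le hann
  haveI : 𝔭.IsPrime := h𝔭min.1.1
  have hp𝔭 : ((p : ℤ) : T) ∈ 𝔭 := by
    apply h𝔭min.1.2
    rw [Module.mem_annihilator]
    intro m
    obtain ⟨m, rfl⟩ := Submodule.Quotient.mk_surjective _ m
    rw [← Submodule.Quotient.mk_smul, Submodule.Quotient.mk_eq_zero]
    exact ⟨m, rfl⟩
  haveI : Algebra.IsIntegral ℤ T := Algebra.IsIntegral.of_finite ℤ T
  have h𝔭max : 𝔭.IsMaximal := by
    refine Ideal.isMaximal_of_isIntegral_of_isMaximal_comap (R := ℤ) 𝔭 ?_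
    have hpm : (Ideal.span {(p : ℤ)}).IsMaximal :=
      PrincipalIdealRing.isMaximal_of_irreducible (Nat.prime_iff_prime_int.mp hp.out).irreducible
    have hle : Ideal.span {(p : ℤ)} ≤ 𝔭.comap (algebraMap ℤ T) := by
      rw [Ideal.span_singleton_le_iff_mem, Ideal.mem_comap]
      simpa using hp𝔭
    have hprime : (𝔭.comap (algebraMap ℤ T)).IsPrime := inferInstance
    rw [← hpm.eq_of_le hprime.ne_top hle]
    exact hpm
  have heq : 𝔭 = RingHom.ker ψ := h𝔭max.eq_of_le hmax.ne_top h𝔭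
  subst heq
  have hass := Module.associatedPrimes.minimalPrimes_annihilator_subset_associatedPrimes
    T (M ⧸ pM) h𝔭min
  rw [AssociatedPrimes.mem_iff, isAssociatedPrime_iff] at hass
  obtain ⟨-, x, hx⟩ := hass
  have hx' : ∀ t : T, t ∈ RingHom.ker ψ ↔ t • x = 0 := by
    intro t
    rw [hx, Submodule.mem_colon_singleton, Submodule.mem_bot]
  obtain ⟨x, rfl⟩ := Submodule.Quotient.mk_surjective _ x
  refine ⟨x, ?_, ?_⟩
  · intro y hy
    have h1 : (1 : T) ∈ RingHom.ker ψ := by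
      rw [hx', one_smul, Submodule.Quotient.mk_eq_zero, hpM]
      exact ⟨y, hy⟩
    rw [RingHom.mem_ker, map_one] at h1
    exact one_ne_zero h1
  · intro t n hn
    have h1 : t - (n : T) ∈ RingHom.ker ψ := by
      rw [RingHom.mem_ker, map_sub, map_intCast, hn, sub_self]
    rw [hx', ← Submodule.Quotient.mk_smul, Submodule.Quotient.mk_eq_zero, hpM] at h1
    obtain ⟨y, hy⟩ := h1
    refine ⟨y, ?_⟩
    rw [← hy, sub_smul, Int.cast_smul_eq_zsmul T n x]

end Fermat.Agent.LevelRaise
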