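import Fermat.Agent.LevelRaise.Lattice
import Fermat.Agent.LevelRaise.Lift
import Fermat.Agent.LevelRaise.ModEig

/-!
# Level raising for Hecke characters mod `p`
-/

set_option autoImplicit false

open Matrix.SpecialLinearGroup
open scoped MatrixGroups
open Fermat.Agent.AL ModularCurve CongruenceSubgroup Fermat.Agent.HeckeHom Fermat.Agent.ALCoh
open ModularCurve.Period CuspForm

namespace Fermat.Agent.LevelRaise

noncomputable section

variable {N : ℕ} [NeZero N] {S S' : Set ℕ}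

/-- inclusion of Hecke algebras -/
def inclH (h : S ⊆ S') : heckeAlgebra N 2 S' →+* heckeAlgebra N 2 S where
  toFun t := ⟨t.1, heckeAlgebra_mono h t.2⟩
  map_one' := Subtype.ext rfl
  map_mul' _ _ := Subtype.ext rfl
  map_zero' := Subtype.ext rfl
  map_add' _ _ := Subtype.ext rfl

lemma inclH_apply (h : S ⊆ S') (t : heckeAlgebra N 2 S') :
    inclH h t = ⟨t.1, heckeAlgebra_mono h t.2⟩ := rfl

lemma coe_inclH (h : S ⊆ S') (t : heckeAlgebra N 2 S') : (inclH h t).1 = t.1 := by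
  rw [inclH_apply]

lemma inclH_T (h : S ⊆ S') {l : ℕ} (hl : l.Prime) (hlN : ¬ l ∣ N) (hlS : l ∉ S') :
    inclH h (heckeAlgebra.T hl hlN hlS) = heckeAlgebra.T hl hlN (fun h' => hlS (h h')) :=
  Subtype.ext rfl

lemma actL_inclH (h : S ⊆ S') (t : heckeAlgebra N 2 S') (φ : LZ N) :
    actL N S (inclH h t) φ = actL N S' t φ := by
  apply castP_injective
  rw [castP_actL, castP_actL, actC_apply, actC_apply, coe_inclH]

lemma actL_T' {l : ℕ} (hl : l.Prime) (hlN : ¬ l ∣ N) (hlS : l ∉ S) (φ : LZ N) :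
    (actL N S (heckeAlgebra.T hl hlN hlS) φ).1 = (famT hl hlN).op ℤ φ.1 := by
  rw [actL_T, opT_eq]

/-- Hecke operators are self-adjoint. -/
lemma QL_actL (hNS : ∀ q : ℕ, q.Prime → q ∣ N → q ∈ S) (P : MvPolynomial (sg S) ℤ)
    (φ ψ : LZ N) : QL N (actL N S (evT hNS P) φ) ψ = QL N φ (actL N S (evT hNS P) ψ) := by
  induction P using MvPolynomial.induction_on generalizing φ ψ with
  | C a =>
    have h1 : (MvPolynomial.C a : MvPolynomial (sg S) ℤ) = (a : MvPolynomial (sg S) ℤ) := by simp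
    rw [h1, map_intCast, map_intCast, ← zsmul_one, LinearMap.smul_apply, LinearMap.smul_apply,
      Module.End.one_apply, Module.End.one_apply, map_zsmul, map_zsmul, AddMonoidHom.smul_apply]
  | add P P' ih ih' =>
    rw [map_add, map_add, LinearMap.add_apply, LinearMap.add_apply, map_add, map_add,
      AddMonoidHom.add_apply, ih, ih']
  | mul_X P l ih =>
    have hlN : ¬ (l : ℕ) ∣ N := fun h => l.2.2 (hNS l l.2.1 h)
    have h1 : ∀ φ ψ : LZ N, QL N (actL N S (evT hNS (MvPolynomial.X l)) φ) ψ =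
        QL N φ (actL N S (evT hNS (MvPolynomial.X l)) ψ) := by
      intro φ ψ
      rw [evT_X, QL_apply, QL_apply, actL_T' l.2.1 hlN l.2.2, actL_T' l.2.1 hlN l.2.2]
      exact QP_T l.2.1 hlN φ.2 ψ.2
    rw [map_mul, map_mul, Module.End.mul_apply, ih, h1, ← Module.End.mul_apply, ← map_mul,
      ← map_mul, mul_comm, map_mul, map_mul]

/-- the action of abstract Hecke operators on the lattice -/
abbrev modR (hNS : ∀ q : ℕ, q.Prime → q ∣ N → q ∈ S) : Module (MvPolynomial (sg S) ℤ) (LZ N) :=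
  Module.compHom (LZ N) ((actL N S).comp (evT hNS))

/-- the set of good primes together with `q` -/
lemma notMem_diff {q l : ℕ} (h : l ∉ S) : l ∉ S \ {q} := fun h' => h h'.1

section main

variable {q p r r₀ : ℕ} [NeZero (N * q)]

/-- **Level raising**, integral form: the eigencharacter `ψ` with `ψ(T_q) = ± (q + 1)` occurs in
the kernel of the two traces from level `Nq` to level `N`. -/
theorem kill_imp (hp : p.Prime) (hp2 : p ≠ 2) (hqp : q ≠ p) (h : Aux q N r r₀)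
    (hMS : ∀ l : ℕ, l.Prime → l ∣ N * q → l ∈ S) (hNS : ∀ l : ℕ, l.Prime → l ∣ N → l ∈ S)
    (ψ : haveI : Fact p.Prime := ⟨hp⟩; heckeAlgebra N 2 (S \ {q}) →+* ZMod p)
    (ε : ℤ) (hε : ε ^ 2 = 1)
    (hψq : ψ (heckeAlgebra.T h.hq h.hqN (fun h' => h'.2 rfl)) = (ε : ZMod p) * (q + 1))
    (hrS : r ∉ S) (hψr : ψ (heckeAlgebra.T h.hr h.hrN (notMem_diff hrS)) ^ 2 ≠ ((r : ZMod p) + 1) ^ 2)
    {B : M2} (hB : B ∈ WS (N * q) q) (P : MvPolynomial (sg S) ℤ)
    (hP : ∀ b : LZ (N * q), trL (dvd_mul_right N q) b = 0 →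
      trL (dvd_mul_right N q) (wL h.hq hB b) = 0 → actL (N * q) S (evT hMS P) b = 0) :
    ψ (inclH Set.sdiff_subset (evT hNS P)) = 0 := by
  haveI : Fact p.Prime := ⟨hp⟩
  have hqN := h.hqN
  letI : Module (MvPolynomial (sg S) ℤ) (LZ N) := modR hNS
  letI : Module (MvPolynomial (sg S) ℤ) (LZ (N * q)) := modR hMS
  have smN : ∀ (P : MvPolynomial (sg S) ℤ) (x : LZ N), P • x = actL N S (evT hNS P) x :=
    fun _ _ => rfl
  have smM : ∀ (P : MvPolynomial (sg S) ℤ) (x : LZ (N * q)),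
      P • x = actL (N * q) S (evT hMS P) x := fun _ _ => rfl
  have hlNS : ∀ l : ℕ, l.Prime → l ∉ S → ¬ l ∣ N := fun l hl hlS hh => hlS (hNS l hl hh)
  have hlMS : ∀ l : ℕ, l.Prime → l ∉ S → ¬ l ∣ N * q := fun l hl hlS hh => hlS (hMS l hl hh)
  -- equivariance
  have eres : ∀ (P : MvPolynomial (sg S) ℤ) (x : LZ N),
      resL (dvd_mul_right N q) (P • x) = P • resL (dvd_mul_right N q) x := by
    intro P x
    rw [smN, smM]
    refine equivariant hNS hMS (resL (dvd_mul_right N q)) (fun l hl hlN hlM φ => ?_) P x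
    apply Subtype.ext
    rw [coe_resL]
    change (famRes (dvd_mul_right N q)).op ℤ (opT N hl hlN ℤ φ.1) = opT (N * q) hl hlM ℤ _
    rw [opT_eq hl hlN, opT_eq hl hlM, res_T_comm hl (dvd_mul_right N q) hlN hlM, coe_resL]
  have ew : ∀ (P : MvPolynomial (sg S) ℤ) (x : LZ (N * q)),
      wL h.hq hB (P • x) = P • wL h.hq hB x := by
    intro P x
    rw [smM, smM]
    refine equivariant hMS hMS (wL h.hq hB) (fun l hl hlN hlM φ => ?_) P x
    apply Subtype.ext
    rw [coe_wL]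
    change (famW (dvd_mul_left q N) h.hq.ne_zero hB).op ℤ (opT (N * q) hl hlN ℤ φ.1) =
      opT (N * q) hl hlM ℤ _
    rw [opT_eq hl hlN, W_T_comm hl (dvd_mul_left q N) h.hq.ne_zero hB hlN, coe_wL]
  have etr : ∀ (P : MvPolynomial (sg S) ℤ) (x : LZ (N * q)),
      trL (dvd_mul_right N q) (P • x) = P • trL (dvd_mul_right N q) x := by
    intro P x
    rw [smN, smM]
    refine equivariant hMS hNS (trL (dvd_mul_right N q)) (fun l hl hlN hlM φ => ?_) P x
    apply Subtype.ext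
    rw [coe_trL]
    change tr (dvd_mul_right N q) ℤ (opT (N * q) hl hlN ℤ φ.1) = opT N hl hlM ℤ _
    rw [opT_eq hl hlN, opT_eq hl hlM, tr_T_comm' (dvd_mul_right N q) hl hlN hlM, coe_trL]
  let α : LZ N × LZ N →ₗ[MvPolynomial (sg S) ℤ] LZ (N * q) :=
    { toFun := fun x => resL (dvd_mul_right N q) x.1 + wL h.hq hB (resL (dvd_mul_right N q) x.2)
      map_add' := fun x y => by
        rw [Prod.fst_add, Prod.snd_add, map_add, map_add, map_add]; abel
      map_smul' := fun P x => by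
        rw [Prod.smul_fst, Prod.smul_snd, eres, eres, ew, RingHom.id_apply, smul_add] }
  let β : LZ (N * q) →ₗ[MvPolynomial (sg S) ℤ] LZ N × LZ N :=
    { toFun := fun b => (trL (dvd_mul_right N q) b, trL (dvd_mul_right N q) (wL h.hq hB b))
      map_add' := fun x y => by rw [map_add, map_add, map_add]; rfl
      map_smul' := fun P x => by rw [ew, etr, etr, RingHom.id_apply]; rfl }
  have hα : ∀ x : LZ N × LZ N, α x =
      resL (dvd_mul_right N q) x.1 + wL h.hq hB (resL (dvd_mul_right N q) x.2) := fun _ => rfl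
  have hβ : ∀ b : LZ (N * q), β b =
      (trL (dvd_mul_right N q) b, trL (dvd_mul_right N q) (wL h.hq hB b)) := fun _ => rfl
  let QV : (LZ N × LZ N) →+ (LZ N × LZ N) →+ ℤ :=
    AddMonoidHom.mk' (fun x => AddMonoidHom.mk' (fun y => QL N x.1 y.1 + QL N x.2 y.2)
      (fun y y' => by rw [Prod.fst_add, Prod.snd_add, map_add, map_add]; ring))
      (fun x x' => AddMonoidHom.ext fun y => by
        change QL N (x + x').1 y.1 + QL N (x + x').2 y.2 =
          (QL N x.1 y.1 + QL N x.2 y.2) + (QL N x'.1 y.1 + QL N x'.2 y.2)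
        rw [Prod.fst_add, Prod.snd_add, map_add, map_add, AddMonoidHom.add_apply,
          AddMonoidHom.add_apply]; ring)
  have hQV : ∀ x y, QV x y = QL N x.1 y.1 + QL N x.2 y.2 := fun _ _ => rfl
  let θ : MvPolynomial (sg S) ℤ →+* ZMod p := (ψ.comp (inclH Set.sdiff_subset)).comp (evT hNS)
  have hθ : ∀ P, θ P = ψ (inclH Set.sdiff_subset (evT hNS P)) := fun _ => rfl
  let Xr : MvPolynomial (sg S) ℤ := MvPolynomial.X ⟨r, h.hr, hrS⟩
  let τ : MvPolynomial (sg S) ℤ := Xr ^ 2 - ((((r : ℤ) + 1) ^ 2 : ℤ) : MvPolynomial (sg S) ℤ)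
  have hτx : ∀ x : LZ N, (τ • x).1 =
      opT N h.hr h.hrN ℤ (opT N h.hr h.hrN ℤ x.1) - ((r : ℤ) + 1) ^ 2 • x.1 := by
    intro x
    have h1 : ∀ y : LZ N, (Xr • y).1 = opT N h.hr h.hrN ℤ y.1 := by
      intro y
      rw [smN, evT_X]
      exact actL_T _ _ _ _
    rw [sub_smul, sq, mul_smul, Int.cast_smul_eq_zsmul]
    change (Xr • (Xr • x)).1 - ((r : ℤ) + 1) ^ 2 • x.1 = _
    rw [h1, h1]
  have hdvd : ∀ x : LZ N, (∀ γ, (p : ℤ) ∣ (τ • x).1 γ) → ∃ y : LZ N, τ • x = (p : ℤ) • y :=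
    fun x hx => exists_smul_of_dvd hp.ne_zero _ hx
  have hI : ∀ v b, α v = (p : ℤ) • b → ∃ v' : LZ N × LZ N, τ • v = (p : ℤ) • v' := by
    intro v b hb
    rw [hα] at hb
    have hb' : resL (dvd_mul_right N q) v.2 + wL h.hq hB (resL (dvd_mul_right N q) v.1) =
        (p : ℤ) • wL h.hq hB b := by
      rw [← map_zsmul, ← hb, map_add, wL_wL, add_comm]
    obtain ⟨y1, hy1⟩ := hdvd v.1 (fun γ => by
      rw [hτx]; exact ihara_mod h hp hqp hB v.1 v.2 b hb γ)
    obtain ⟨y2, hy2⟩ := hdvd v.2 (fun γ => by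
      rw [hτx]; exact ihara_mod h hp hqp hB v.2 v.1 _ hb' γ)
    exact ⟨(y1, y2), Prod.ext hy1 hy2⟩
  have hθτ : θ τ ≠ 0 := by
    have h1 : θ τ = ψ (heckeAlgebra.T h.hr h.hrN (notMem_diff hrS)) ^ 2 - ((r : ZMod p) + 1) ^ 2 := by
      rw [map_sub, map_pow, map_intCast, hθ, evT_X, inclH_T]
      push_cast
      rfl
    rw [h1]
    exact sub_ne_zero.mpr hψr
  -- the mod `p` eigenvector
  letI : Module (heckeAlgebra N 2 (S \ {q})) (LZ N) := Module.compHom (LZ N) (actL N (S \ {q}))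
  haveI : Module.Finite ℤ (heckeAlgebra N 2 (S \ {q})) := Fermat.Agent.S22.result N 2 _
  obtain ⟨x, hx, hxT⟩ := exists_mod_eigenvector (T := heckeAlgebra N 2 (S \ {q})) (M := LZ N)
    (fun t ht => actL_injective N ((LinearMap.ext ht).trans (map_zero _).symm)) ψ
  have hxR : ∀ (P : MvPolynomial (sg S) ℤ) (n : ℤ), (n : ZMod p) = θ P →
      ∃ y : LZ N, P • x - n • x = (p : ℤ) • y := by
    intro P n hn
    obtain ⟨y, hy⟩ := hxT (inclH Set.sdiff_subset (evT hNS P)) n hn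
    refine ⟨y, ?_⟩
    rw [← hy, smN, ← actL_inclH Set.sdiff_subset]
    rfl
  obtain ⟨y, hy⟩ := hxT (heckeAlgebra.T h.hq h.hqN (fun h' => h'.2 rfl)) (ε * (q + 1))
    (by rw [hψq]; push_cast; rfl)
  obtain ⟨Tx, hTx⟩ : ∃ Tx : LZ N, Tx = actL N (S \ {q})
    (heckeAlgebra.T h.hq h.hqN (fun h' => h'.2 rfl)) x := ⟨_, rfl⟩
  have hTx1 : Tx.1 = (famT h.hq h.hqN).op ℤ x.1 := by
    rw [hTx]; exact actL_T' _ _ _ _
  have hTx2 : Tx = (ε * ((q : ℤ) + 1)) • x + (p : ℤ) • y := by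
    rw [← hy, hTx]
    change _ = _ + (actL N (S \ {q}) (heckeAlgebra.T h.hq h.hqN (fun h' => h'.2 rfl)) x - _)
    abel
  have htw : trL (dvd_mul_right N q) (wL h.hq hB (resL (dvd_mul_right N q) x)) = Tx :=
    Subtype.ext (by rw [trL_wL_resL h.hq hB h.hqN, hTx1])
  have htr : trL (dvd_mul_right N q) (resL (dvd_mul_right N q) x) = ((q : ℤ) + 1) • x :=
    trL_resL h.hq h.hqN x
  let v₀ : LZ N × LZ N := (x, -ε • x)
  have hz1 : ∀ b, α v₀ ≠ (p : ℤ) • b := by
    intro b hb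
    obtain ⟨v', hv'⟩ := hI v₀ b hb
    have h1 : τ • x = (p : ℤ) • v'.1 := congrArg Prod.fst hv'
    obtain ⟨n, hn⟩ := ZMod.intCast_surjective (θ τ)
    obtain ⟨y', hy'⟩ := hxR τ n hn
    rw [h1] at hy'
    have hnp : ¬ (p : ℤ) ∣ n := by
      intro hh
      rw [← ZMod.intCast_zmod_eq_zero_iff_dvd, hn] at hh
      exact hθτ hh
    have hcop : IsCoprime (p : ℤ) n :=
      (Nat.prime_iff_prime_int.mp hp).coprime_iff_not_dvd.mpr hnp
    obtain ⟨u, w, huw⟩ := hcop
    have h2 : n • x = (p : ℤ) • (v'.1 - y') := by rw [smul_sub, ← hy']; abel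
    apply hx (u • x + w • (v'.1 - y'))
    calc x = (u * p + w * n) • x := by rw [huw, one_smul]
      _ = _ := by
        rw [add_smul, mul_smul, mul_smul, h2, smul_add, smul_comm u, smul_comm w]
  have hβz : ∃ v, β (α v₀) = (p : ℤ) • v := by
    refine ⟨(-ε • y, y), ?_⟩
    rw [hβ, hα]
    refine Prod.ext ?_ ?_
    · change trL _ (_ + wL h.hq hB (resL _ (-ε • x))) = (p : ℤ) • (-ε • y)
      rw [map_add, map_zsmul, map_zsmul, map_zsmul, htr, htw, hTx2]
      have : ((q : ℤ) + 1) • x + -ε • ((ε * ((q : ℤ) + 1)) • x + (p : ℤ) • y) =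
          (((q : ℤ) + 1) - ε ^ 2 * ((q : ℤ) + 1)) • x + (p : ℤ) • (-ε • y) := by module
      rw [this, hε]
      module
    · change trL _ (wL h.hq hB (_ + wL h.hq hB (resL _ (-ε • x)))) = (p : ℤ) • y
      rw [map_add, wL_wL, map_add, map_zsmul, map_zsmul, htr, htw, hTx2]
      module
  have hez : ∀ (P : MvPolynomial (sg S) ℤ) (n : ℤ), (n : ZMod p) = θ P →
      ∃ b, P • α v₀ - n • α v₀ = (p : ℤ) • b := by
    intro P n hn
    obtain ⟨y', hy'⟩ := hxR P n hn
    refine ⟨α (y', -ε • y'), ?_⟩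
    rw [← map_smul, ← map_zsmul α, ← map_zsmul α, ← map_sub]
    congr 1
    refine Prod.ext hy' ?_
    change P • (-ε • x) - n • (-ε • x) = (p : ℤ) • (-ε • y')
    rw [smN, map_zsmul, ← smN]
    have h1 : P • x = n • x + (p : ℤ) • y' := by rw [← hy']; abel
    rw [h1]
    module
  have hadj : ∀ v b, QL (N * q) (α v) b = QV v (β b) := by
    intro v b
    rw [hα, hQV, hβ, map_add, AddMonoidHom.add_apply, QL_wL_left, QL_resL, QL_resL]
  have hQV' : ∀ v, (∀ u, (p : ℤ) ∣ QV v u) → ∃ v' : LZ N × LZ N, v = (p : ℤ) • v' := by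
    intro v hv
    obtain ⟨y1, hy1⟩ := QL_nondeg hp hp2 v.1 (fun u => by
      have := hv (u, 0)
      rwa [hQV, map_zero, add_zero] at this)
    obtain ⟨y2, hy2⟩ := QL_nondeg hp hp2 v.2 (fun u => by
      have := hv (0, u)
      rwa [hQV, map_zero, zero_add] at this)
    exact ⟨(y1, y2), Prod.ext hy1 hy2⟩
  refine theta_eq_zero_of_kill θ α β QV (QL (N * q)) hQV' (QL_nondeg hp hp2) hadj τ
    (fun u v => ?_) hI hθτ (α v₀) hz1 hβz hez P (fun b hb => ?_)
  · rw [hQV, hQV]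
    change QL N (τ • u.1) v.1 + QL N (τ • u.2) v.2 = QL N u.1 (τ • v.1) + QL N u.2 (τ • v.2)
    rw [smN, smN, smN, smN, QL_actL, QL_actL]
  · rw [hβ] at hb
    exact hP b (congrArg Prod.fst hb) (congrArg Prod.snd hb)

end main

end

end Fermat.Agent.LevelRaise
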