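import Fermat.Agent.LevelRaise.Extend

set_option autoImplicit false

/-!
# Ihara's lemma, step two: congruence subgroups of `SL₂(ℤ[1/q])`
-/

open Matrix.SpecialLinearGroup CongruenceSubgroup
open scoped MatrixGroups

namespace Fermat.Agent.LevelRaise

variable {A : Type*} [AddCommGroup A] {q N r : ℕ}

/-- homomorphisms on `KO` vanishing on unipotent elements -/
structure IsV (q N r : ℕ) (ψ : SQ → A) : Prop where
  mul : ∀ g ∈ KO q N r, ∀ h ∈ KO q N r, ψ (g * h) = ψ g + ψ h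
  par : ∀ g ∈ KO q N r, g.1.trace = 2 → ψ g = 0

lemma trace_conj' (e g : SQ) : (e * g * e⁻¹).1.trace = g.1.trace := by
  rw [Matrix.SpecialLinearGroup.coe_mul, Matrix.trace_mul_comm,
    ← Matrix.SpecialLinearGroup.coe_mul]
  congr 2
  group

lemma IsV.conj {ψ : SQ → A} (hψ : IsV q N r ψ) {e : SQ} (he : e ∈ GO q N) :
    IsV q N r (fun g => ψ (e * g * e⁻¹)) := by
  refine ⟨fun g hg h hh => ?_, fun g hg ht => ?_⟩
  · have : e * (g * h) * e⁻¹ = (e * g * e⁻¹) * (e * h * e⁻¹) := by group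
    change ψ (e * (g * h) * e⁻¹) = _
    rw [this, hψ.mul _ (conj_mem_KO he hg) _ (conj_mem_KO he hh)]
  · exact hψ.par _ (conj_mem_KO he hg) (by rw [trace_conj', ht])

variable (A q N r) in
/-- `e` stabilises the class of `g` -/
def SB (g e : SQ) : Prop :=
  e ∈ GO q N ∧ ∀ ψ : SQ → A, IsV q N r ψ → ψ (e * g * e⁻¹) = ψ g

lemma SB.mul {g e e' : SQ} (h : SB A q N r g e) (h' : SB A q N r g e') :
    SB A q N r g (e * e') := by
  refine ⟨mul_mem h.1 h'.1, fun ψ hψ => ?_⟩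
  have e1 : e * e' * g * (e * e')⁻¹ = e * (e' * g * e'⁻¹) * e⁻¹ := by group
  rw [e1]
  exact (h'.2 _ (hψ.conj h.1)).trans (h.2 ψ hψ)

lemma SB.inv {g e : SQ} (h : SB A q N r g e) : SB A q N r g e⁻¹ := by
  refine ⟨inv_mem h.1, fun ψ hψ => ?_⟩
  have := h.2 _ (hψ.conj (inv_mem h.1))
  have e1 : e⁻¹ * (e * g * e⁻¹) * e⁻¹⁻¹ = g := by group
  simp only [e1] at this
  exact this.symm

lemma SB.pow {g e : SQ} (h : SB A q N r g e) (n : ℕ) : SB A q N r g (e ^ n) := by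
  induction n with
  | zero => exact ⟨by rw [pow_zero]; exact one_mem _, fun ψ _ => by simp⟩
  | succ n ih => rw [pow_succ]; exact ih.mul h

lemma SB_of_KO {g e : SQ} (hg : g ∈ KO q N r) (he : e ∈ KO q N r) : SB A q N r g e :=
  ⟨he.1, fun _ hψ => hom_conj hψ.mul hg he⟩

lemma SB_conj {g e u : SQ} (hu : u ∈ GO q N) (h : SB A q N r (u * g * u⁻¹) e) :
    SB A q N r g (u⁻¹ * e * u) := by
  refine ⟨mul_mem (mul_mem (inv_mem hu) h.1) hu, fun ψ hψ => ?_⟩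
  have := h.2 _ (hψ.conj (inv_mem hu))
  have e1 : u⁻¹ * e * u * g * (u⁻¹ * e * u)⁻¹ = u⁻¹ * (e * (u * g * u⁻¹) * e⁻¹) * u⁻¹⁻¹ := by
    group
  have e2 : u⁻¹ * (u * g * u⁻¹) * u⁻¹⁻¹ = g := by group
  rw [e1]
  simp only [e2] at this
  exact this

lemma SB_of_unip {g e t : SQ} (hg : g ∈ KO q N r) (ht : t ∈ KO q N r) (htr : t.1.trace = 2)
    (h : SB A q N r (t * g) e) : SB A q N r g e := by
  refine ⟨h.1, fun ψ hψ => ?_⟩
  have h1 := h.2 ψ hψ
  have e1 : e * (t * g) * e⁻¹ = (e * t * e⁻¹) * (e * g * e⁻¹) := by group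
  rw [e1, hψ.mul _ (conj_mem_KO h.1 ht) _ (conj_mem_KO h.1 hg), hψ.mul _ ht _ hg,
    hψ.par _ ht htr, hψ.par _ (conj_mem_KO h.1 ht) (by rw [trace_conj', htr]), zero_add,
    zero_add] at h1
  exact h1

lemma uu_trace (x : ℚ) : (uu x).1.trace = 2 := by
  rw [Matrix.trace_fin_two]; simp [uu]; norm_num

lemma ll_trace (x : ℚ) : (ll x).1.trace = 2 := by
  rw [Matrix.trace_fin_two]; simp [ll]; norm_num

/-- entries of elements of `KO` -/
lemma KO_entries {g : SQ} (hg : g ∈ KO q N r) :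
    D q r (g.1 0 0 - 1) ∧ D q r (g.1 0 1) ∧ D q r (g.1 1 0) ∧ D q r (g.1 1 1 - 1) := by
  refine ⟨?_, ?_, ?_, ?_⟩
  · simpa using hg.2 0 0
  · simpa using hg.2 0 1
  · simpa using hg.2 1 0
  · simpa using hg.2 1 1

/-- the case of a prime upper left entry -/
lemma SB_prime (hq : q.Prime) {g : SQ} (hg : g ∈ KO q N r) {ℓ : ℕ} (hℓ : ℓ.Prime) (hℓq : ℓ ≠ q)
    (h00 : g.1 0 0 = ℓ) : SB A q N r g (hh q hq.ne_zero ((ℓ - 1 : ℕ) : ℤ)) := by
  have hq0 : (q : ℚ) ≠ 0 := by exact_mod_cast hq.ne_zero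
  refine ⟨hh_mem_GO _ _, fun ψ hψ => ?_⟩
  -- `ε² = 1 + ℓ t`
  have hflt : (ℓ : ℤ) ∣ (q : ℤ) ^ (2 * (ℓ - 1)) - 1 := by
    have h1 : (ℓ : ℤ) ∣ (q : ℤ) ^ (ℓ - 1) - 1 := by
      have : Fact ℓ.Prime := ⟨hℓ⟩
      rw [← ZMod.intCast_zmod_eq_zero_iff_dvd]
      push_cast
      have hne : (q : ZMod ℓ) ≠ 0 := by
        rw [Ne, ZMod.natCast_eq_zero_iff]
        exact fun h => hℓq ((Nat.prime_dvd_prime_iff_eq hℓ hq).mp h)
      rw [ZMod.pow_card_sub_one_eq_one hne, sub_self]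
    have h2 : (q : ℤ) ^ (2 * (ℓ - 1)) - 1 = ((q : ℤ) ^ (ℓ - 1) - 1) * ((q : ℤ) ^ (ℓ - 1) + 1) := by
      rw [mul_comm 2, pow_mul]; ring
    rw [h2]
    exact h1.mul_right _
  obtain ⟨t, ht⟩ := hflt
  set ε : ℚ := (q : ℚ) ^ (((ℓ - 1 : ℕ) : ℤ)) with hε
  have hε0 : ε ≠ 0 := zpow_ne_zero _ hq0
  have hε2 : ε ^ 2 = 1 + ℓ * t := by
    have : ((q : ℚ)) ^ (2 * (ℓ - 1)) - 1 = ℓ * t := by exact_mod_cast ht
    rw [hε, zpow_natCast, ← pow_mul, mul_comm (ℓ - 1) 2]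
    linarith
  obtain ⟨d00, d01, d10, d11⟩ := KO_entries hg
  have hDε : D q 1 (ε⁻¹) := by
    rw [hε, ← zpow_neg]; exact D.zpow hq.ne_zero _
  set z : ℚ := -(ε⁻¹) ^ 2 * t * g.1 1 0 with hz
  set w : ℚ := t * g.1 0 1 with hw
  have e1 : hh q hq.ne_zero ((ℓ - 1 : ℕ) : ℤ) * g * (hh q hq.ne_zero ((ℓ - 1 : ℕ) : ℤ))⁻¹ =
      ll z * g * uu w := by
    rw [mul_inv_eq_iff_eq_mul]
    apply SQ_ext
    · simp only [(mul_entries _ _).1, (mul_entries _ _).2.1]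
      simp [hh, dg, uu, ll]
      ring
    · simp only [(mul_entries _ _).1, (mul_entries _ _).2.1]
      simp only [hh, dg, uu, ll, ← hε]
      simp
      rw [h00, hw]
      field_simp
      linear_combination (g.1 0 1) * hε2
    · simp only [(mul_entries _ _).2.2.1, (mul_entries _ _).2.2.2]
      simp only [hh, dg, uu, ll, ← hε]
      simp
      rw [h00, hz]
      field_simp
      linear_combination (-(g.1 1 0)) * hε2
    · simp only [(mul_entries _ _).2.2.1, (mul_entries _ _).2.2.2]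
      simp only [hh, dg, uu, ll, ← hε]
      simp
      rw [h00, hz, hw]
      field_simp
      linear_combination (-(t : ℚ) * g.1 1 0 * g.1 0 1) * hε2
  have hDt : D q 1 (-(ε⁻¹) ^ 2 * t) := by
    have := ((hDε.one_mul' hDε).mul_one' (D.one_int (q := q) t)).neg
    convert this using 1
    ring
  have hzK : ll z ∈ KO q N r := ll_mem_KO (hDt.one_mul' hg.1.2) (hDt.one_mul' d10)
  have hwK : uu w ∈ KO q N r := uu_mem_KO ((D.one_int t).one_mul' d01)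
  rw [e1, hψ.mul _ (mul_mem hzK hg) _ hwK, hψ.mul _ hzK _ hg, hψ.par _ hzK (ll_trace _),
    hψ.par _ hwK (uu_trace _), zero_add, add_zero]

/-- the arithmetic hypotheses on the auxiliary primes -/
structure Aux (q N r r₀ : ℕ) : Prop where
  hq : q.Prime
  hqN : ¬ q ∣ N
  hr : r.Prime
  hrN : ¬ r ∣ N
  hrq : r ≠ q
  hr0 : r₀.Prime
  hr02 : r₀ ≠ 2
  hr0N : ¬ r₀ ∣ N
  hr0q : r₀ ≠ q
  hr0r : r₀ ≠ r
  hord : ∀ k : ℕ, (r : ℤ) ∣ (q : ℤ) ^ (2 * k) - 1 → r₀ ∣ k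

namespace Aux

variable {r₀ : ℕ}

lemma cop_rq (h : Aux q N r r₀) : IsCoprime (r : ℤ) (q : ℤ) := by
  rw [Nat.isCoprime_iff_coprime]
  exact (Nat.coprime_primes h.hr h.hq).mpr h.hrq

lemma cop_r0q (h : Aux q N r r₀) : IsCoprime (r₀ : ℤ) (q : ℤ) := by
  rw [Nat.isCoprime_iff_coprime]
  exact (Nat.coprime_primes h.hr0 h.hq).mpr h.hr0q

lemma cop_r0r (h : Aux q N r r₀) : IsCoprime (r₀ : ℤ) (r : ℤ) := by
  rw [Nat.isCoprime_iff_coprime]
  exact (Nat.coprime_primes h.hr0 h.hr).mpr h.hr0r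

lemma cop_r0N (h : Aux q N r r₀) : IsCoprime (r₀ : ℤ) (N : ℤ) := by
  rw [Nat.isCoprime_iff_coprime]
  exact (Nat.Prime.coprime_iff_not_dvd h.hr0).mpr h.hr0N

lemma cop_Nr (h : Aux q N r r₀) : IsCoprime (N : ℤ) (r : ℤ) := by
  rw [Nat.isCoprime_iff_coprime]
  exact ((Nat.Prime.coprime_iff_not_dvd h.hr).mpr h.hrN).symm

end Aux

lemma D.of_mul_coprime {m : ℤ} {k : ℤ} {x : ℚ} (hx : D q 1 x) (h : D q m (k * x))
    (hc : IsCoprime m k) : D q m x := by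
  obtain ⟨u, v, huv⟩ := hc
  have e : x = m * u * x + v * (k * x) := by
    have : (u : ℚ) * m + v * k = 1 := by exact_mod_cast huv
    linear_combination (-x) * this
  rw [e]
  exact ((D.int u).mul_one' hx).add ((D.one_int v).one_mul' h)

/-- **Claim 1** -/
lemma exists_SB_hh {r₀ : ℕ} (h : Aux q N r r₀) {g : SQ} (hg : g ∈ KO q N r) :
    ∃ k : ℕ, ¬ r₀ ∣ k ∧ SB A q N r g (hh q h.hq.ne_zero k) := by
  have hq0 : (q : ℚ) ≠ 0 := by exact_mod_cast h.hq.ne_zero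
  have hqz : (q : ℤ) ≠ 0 := by exact_mod_cast h.hq.ne_zero
  have hqp : Prime (q : ℤ) := Nat.prime_iff_prime_int.mp h.hq
  -- step 1
  obtain ⟨y, hy⟩ : ∃ y : ℤ, ¬ D q r₀ (g.1 1 0 + ((N * r : ℤ) : ℚ) * y * g.1 0 0) := by
    by_contra hcon
    push_neg at hcon
    have h0 := hcon 0
    have h1 := hcon 1
    rw [Int.cast_zero, mul_zero, zero_mul, add_zero] at h0
    rw [Int.cast_one, mul_one] at h1
    have h2 : D q r₀ (((N * r : ℤ) : ℚ) * g.1 0 0) := by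
      have := h1.sub h0
      rwa [add_sub_cancel_left] at this
    have h3 : D q r₀ (g.1 0 0) :=
      D.of_mul_coprime (hg.1.1 0 0) h2 (h.cop_r0N.mul_right h.cop_r0r)
    have h4 : D q r₀ ((1 : ℤ) : ℚ) := by
      rw [Int.cast_one, ← det_eq g]
      exact (h3.mul_one' (hg.1.1 1 1)).sub ((hg.1.1 0 1).one_mul' h0)
    have h5 := D.dvd h.cop_r0q h.hq.ne_zero h4
    exact (Nat.prime_iff_prime_int.mp h.hr0).not_unit (isUnit_of_dvd_one h5)
  set s1 : ℚ := ((N * r : ℤ) : ℚ) * y with hs1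
  have hs1K : ll s1 ∈ KO q N r := by
    refine ll_mem_KO ?_ ?_
    · refine (D.of_dvd (q := q) (m := (N : ℤ)) (z := N * r) ⟨r, rfl⟩).mul_one' (D.one_int y)
    · refine (D.of_dvd (q := q) (m := (r : ℤ)) (z := N * r) ⟨N, mul_comm _ _⟩).mul_one'
        (D.one_int y)
  set g1 : SQ := ll s1 * g with hg1
  have hg1K : g1 ∈ KO q N r := mul_mem hs1K hg
  have hc1 : g1.1 1 0 = g.1 1 0 + s1 * g.1 0 0 := by
    rw [hg1, (mul_entries _ _).2.2.1]; simp [ll]; ring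
  have hy' : ¬ D q r₀ (g1.1 1 0) := by rw [hc1]; exact hy
  obtain ⟨d00, d01, d10, d11⟩ := KO_entries hg1K
  -- step 2
  obtain ⟨n, C, hC⟩ := hg1K.1.1 1 0
  rw [Int.cast_one, one_mul] at hC
  have hC0 : C ≠ 0 := by
    rintro rfl
    apply hy'
    rw [Int.cast_zero] at hC
    rcases mul_eq_zero.mp hC with h1 | h1
    · rw [h1]; exact D.zero
    · exact absurd h1 (pow_ne_zero _ hq0)
  obtain ⟨s, c2, hc2q, hc2⟩ : ∃ (s : ℕ) (c2 : ℤ), ¬ (q : ℤ) ∣ c2 ∧ C = (q : ℤ) ^ s * c2 := by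
    have hfin : FiniteMultiplicity (q : ℤ) C := by
      rw [Int.finiteMultiplicity_iff]
      refine ⟨?_, hC0⟩
      rw [Int.natAbs_natCast]
      exact h.hq.one_lt.ne'
    obtain ⟨c, hc, hc'⟩ := hfin.exists_eq_pow_mul_and_not_dvd
    exact ⟨_, c, hc', hc⟩
  have hc20 : c2 ≠ 0 := by rintro rfl; exact hc2q (dvd_zero _)
  have hcopc2 : IsCoprime c2 (q : ℤ) := ((Prime.coprime_iff_not_dvd hqp).mpr hc2q).symm
  have hc1' : g1.1 1 0 * (q : ℚ) ^ n = (q : ℚ) ^ s * c2 := by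
    rw [hC, hc2]; push_cast; rfl
  have hDc2 : D q c2 (g1.1 1 0) := ⟨n, (q : ℤ) ^ s, by rw [hc1']; push_cast; ring⟩
  have hr0c2 : ¬ (r₀ : ℤ) ∣ c2 := fun hd => hy' (hDc2.mono hd)
  have hcopr0c2 : IsCoprime (r₀ : ℤ) c2 :=
    (Prime.coprime_iff_not_dvd (Nat.prime_iff_prime_int.mp h.hr0)).mpr hr0c2
  -- step 3
  have hcopM : IsCoprime ((r : ℤ) * c2) (q : ℤ) := IsCoprime.mul_left h.cop_rq hcopc2
  obtain ⟨a', ha'⟩ := D.approx hcopM h.hq.ne_zero (hg1K.1.1 0 0)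
  obtain ⟨d', hd'⟩ := D.approx hcopc2 h.hq.ne_zero (hg1K.1.1 1 1)
  have hcopar : IsCoprime a' (r : ℤ) := by
    have h1 : D q r (((a' - 1 : ℤ)) : ℚ) := by
      have := d00.sub (ha'.mono (dvd_mul_right _ _))
      push_cast
      convert this using 1
      ring
    obtain ⟨w, hw⟩ := D.dvd h.cop_rq h.hq.ne_zero h1
    exact ⟨1, -w, by linear_combination hw⟩
  have hcopac : IsCoprime a' c2 := by
    have h1 : D q c2 (((a' * d' - 1 : ℤ)) : ℚ) := by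
      have e : ((a' * d' - 1 : ℤ) : ℚ) = g1.1 0 1 * g1.1 1 0 - (g1.1 0 0 - a') * g1.1 1 1 -
          a' * (g1.1 1 1 - d') := by
        push_cast
        linear_combination (det_eq g1)
      rw [e]
      refine D.sub (D.sub ?_ ?_) ?_
      · exact (hg1K.1.1 0 1).one_mul' hDc2
      · exact (ha'.mono (dvd_mul_left _ _)).mul_one' (hg1K.1.1 1 1)
      · exact (D.one_int a').one_mul' hd'
    obtain ⟨w, hw⟩ := D.dvd hcopc2 h.hq.ne_zero h1
    exact ⟨d', -w, by linear_combination hw⟩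
  have hcopaM : IsCoprime a' ((r : ℤ) * c2) := hcopar.mul_right hcopac
  have hcopMr0 : IsCoprime ((r : ℤ) * c2) (r₀ : ℤ) :=
    IsCoprime.mul_left h.cop_r0r.symm hcopr0c2.symm
  obtain ⟨u, v, huv⟩ := hcopMr0
  set b' : ℤ := 2 * (u * (r * c2)) + a' * (v * r₀) with hb'
  have hb1 : b' = a' + (2 - a') * u * (r * c2) := by
    rw [hb']; linear_combination a' * huv
  have hb2 : b' = 2 + (a' - 2) * v * r₀ := by
    rw [hb']; linear_combination 2 * huv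
  have hcopbM : IsCoprime b' (((r : ℤ) * c2) * r₀) := by
    refine IsCoprime.mul_right ?_ ?_
    · rw [hb1]
      exact (IsCoprime.add_mul_right_left_iff).mpr hcopaM
    · rw [hb2]
      refine (IsCoprime.add_mul_right_left_iff).mpr ?_
      have : IsCoprime ((2 : ℕ) : ℤ) (r₀ : ℤ) := by
        rw [Nat.isCoprime_iff_coprime]
        exact (Nat.coprime_primes Nat.prime_two h.hr0).mpr (Ne.symm h.hr02)
      exact_mod_cast this
  set M : ℤ := ((r : ℤ) * c2) * r₀ with hM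
  have hM0 : M ≠ 0 := by
    rw [hM]
    refine mul_ne_zero (mul_ne_zero ?_ hc20) ?_
    · exact_mod_cast h.hr.ne_zero
    · exact_mod_cast h.hr0.ne_zero
  have : NeZero M.natAbs := ⟨Int.natAbs_ne_zero.mpr hM0⟩
  have hunit : IsUnit ((b' : ℤ) : ZMod M.natAbs) := by
    rw [ZMod.coe_int_isUnit_iff_isCoprime]
    rcases Int.natAbs_eq M with e | e
    · rw [← e]; exact hcopbM.symm
    · have : ((M.natAbs : ℕ) : ℤ) = -M := by omega
      rw [this]; exact hcopbM.symm.neg_left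
  obtain ⟨ℓ, hℓq, hℓ, hℓM⟩ := Nat.forall_exists_prime_gt_and_eq_mod hunit q
  have hMdvd : M ∣ (ℓ : ℤ) - b' := by
    rw [← Int.natAbs_dvd, ← ZMod.intCast_zmod_eq_zero_iff_dvd]
    push_cast
    rw [hℓM, sub_self]
  have hdvd1 : ((r : ℤ) * c2) ∣ (ℓ : ℤ) - a' := by
    have h1 : ((r : ℤ) * c2) ∣ (ℓ : ℤ) - b' := (Dvd.intro _ rfl).trans hMdvd
    have h2 : (ℓ : ℤ) - a' = ((ℓ : ℤ) - b') + (2 - a') * u * (r * c2) := by rw [hb1]; ring
    rw [h2]
    exact dvd_add h1 (dvd_mul_left _ _)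
  have hdvd2 : (r₀ : ℤ) ∣ (ℓ : ℤ) - 2 := by
    have h1 : (r₀ : ℤ) ∣ (ℓ : ℤ) - b' := (Dvd.intro_left _ rfl).trans hMdvd
    have h2 : (ℓ : ℤ) - 2 = ((ℓ : ℤ) - b') + (a' - 2) * v * r₀ := by rw [hb2]; ring
    rw [h2]
    exact dvd_add h1 (dvd_mul_left _ _)
  have hX : D q ((r : ℤ) * c2) ((ℓ : ℚ) - g1.1 0 0) := by
    have e : (ℓ : ℚ) - g1.1 0 0 = (((ℓ : ℤ) - a' : ℤ) : ℚ) - (g1.1 0 0 - a') := by
      push_cast; ring
    rw [e]
    exact (D.of_dvd hdvd1).sub ha'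
  have hc10 : g1.1 1 0 ≠ 0 := by
    intro h0
    rw [h0, zero_mul] at hC
    exact hC0 (by exact_mod_cast hC.symm)
  set x : ℚ := ((ℓ : ℚ) - g1.1 0 0) / g1.1 1 0 with hx
  have hDx : D q r x := by
    obtain ⟨m, z, hz⟩ := hX
    refine ⟨m + s, z * q ^ n, ?_⟩
    rw [hx, div_mul_eq_mul_div, div_eq_iff hc10, pow_add]
    push_cast at hz ⊢
    linear_combination (q : ℚ) ^ s * hz - (r : ℚ) * z * hc1'
  have hxK : uu x ∈ KO q N r := uu_mem_KO hDx
  set g2 : SQ := uu x * g1 with hg2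
  have hg2K : g2 ∈ KO q N r := mul_mem hxK hg1K
  have h200 : g2.1 0 0 = ℓ := by
    rw [hg2, (mul_entries _ _).1]
    simp [uu]
    rw [hx, div_mul_cancel₀ _ hc10]
    ring
  refine ⟨ℓ - 1, ?_, ?_⟩
  · intro hd
    have h1 : (r₀ : ℤ) ∣ (ℓ : ℤ) - 1 := by
      have h2 : ((r₀ : ℕ) : ℤ) ∣ ((ℓ - 1 : ℕ) : ℤ) := by exact_mod_cast hd
      rwa [Nat.cast_sub hℓ.one_le, Nat.cast_one] at h2
    have h3 : (r₀ : ℤ) ∣ 1 := by
      have h4 := dvd_sub h1 hdvd2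
      have e4 : (ℓ : ℤ) - 1 - ((ℓ : ℤ) - 2) = 1 := by ring
      rwa [e4] at h4
    exact (Nat.prime_iff_prime_int.mp h.hr0).not_unit (isUnit_of_dvd_one h3)
  · have h1 := SB_prime (A := A) h.hq hg2K hℓ (by omega) h200
    exact SB_of_unip hg hs1K (ll_trace _) (SB_of_unip hg1K hxK (uu_trace _) h1)

/-- additive subgroups of `ℤ[1/q]` containing `r` and something prime to `r` -/
lemma D_all {r₀ : ℕ} (h : Aux q N r r₀) (S : ℚ → Prop) (hadd : ∀ x y, S x → S y → S (x + y))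
    (hneg : ∀ x, S x → S (-x)) (hr : ∀ x, D q r x → S x) {x₁ : ℚ} (h₁ : S x₁) (hD : D q 1 x₁)
    (hnD : ¬ D q r x₁) {x : ℚ} (hx : D q 1 x) : S x := by
  have hnat : ∀ n : ℕ, S (n * x₁) := by
    intro n
    induction n with
    | zero => rw [Nat.cast_zero, zero_mul]; exact hr _ D.zero
    | succ n ih => rw [Nat.cast_succ, add_mul, one_mul]; exact hadd _ _ ih h₁
  have hint : ∀ n : ℤ, S (n * x₁) := by
    intro n
    obtain ⟨m, rfl | rfl⟩ := n.eq_nat_or_neg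
    · exact_mod_cast hnat m
    · have := hneg _ (hnat m)
      convert this using 1
      push_cast; ring
  obtain ⟨y₁, hy₁⟩ := D.approx h.cop_rq h.hq.ne_zero hD
  obtain ⟨y, hy⟩ := D.approx h.cop_rq h.hq.ne_zero hx
  have hry : ¬ (r : ℤ) ∣ y₁ := by
    intro hd
    apply hnD
    have := hy₁.add (D.of_dvd (q := q) hd)
    rwa [sub_add_cancel] at this
  obtain ⟨u, v, huv⟩ := (Prime.coprime_iff_not_dvd (Nat.prime_iff_prime_int.mp h.hr)).mpr hry
  have e : x = ((y * v : ℤ) : ℚ) * x₁ + ((x - y) - ((y * v : ℤ) : ℚ) * (x₁ - y₁) +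
      r * ((y * u : ℤ) : ℚ)) := by
    have : (u : ℚ) * r + v * y₁ = 1 := by exact_mod_cast huv
    push_cast
    linear_combination (-(y : ℚ)) * this
  rw [e]
  refine hadd _ _ (hint _) (hr _ ?_)
  exact (hy.sub ((D.one_int _).one_mul' hy₁)).add (D.int _)

lemma not_D_eps {r₀ : ℕ} (h : Aux q N r r₀) {K : ℕ} (hK : ¬ r₀ ∣ K) :
    ¬ D q r (((q : ℚ) ^ (K : ℤ)) ^ 2 - 1) := by
  intro hd
  have e : ((q : ℚ) ^ (K : ℤ)) ^ 2 - 1 = (((q : ℤ) ^ (2 * K) - 1 : ℤ) : ℚ) := by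
    push_cast
    rw [zpow_natCast, ← pow_mul, mul_comm K 2]
  rw [e] at hd
  exact hK (h.hord K (D.dvd h.cop_rq h.hq.ne_zero hd))

lemma exists_common_hh {r₀ : ℕ} (h : Aux q N r r₀) {g u : SQ} (hg : g ∈ KO q N r)
    (hu : u ∈ GO q N) : ∃ K : ℕ, ¬ r₀ ∣ K ∧ SB A q N r g (hh q h.hq.ne_zero K) ∧
      SB A q N r g (u⁻¹ * hh q h.hq.ne_zero K * u) := by
  obtain ⟨k, hk, h1⟩ := exists_SB_hh (A := A) h hg
  obtain ⟨k', hk', h2⟩ := exists_SB_hh (A := A) h (conj_mem_KO hu hg)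
  have hpow : ∀ a b : ℕ, (hh q h.hq.ne_zero (a : ℤ)) ^ b = hh q h.hq.ne_zero ((a * b : ℕ) : ℤ) := by
    intro a b
    induction b with
    | zero => rw [pow_zero, mul_zero, Nat.cast_zero, hh_zero]
    | succ b ih => rw [pow_succ, ih, mul_add, mul_one, Nat.cast_add, hh_add]
  refine ⟨k * k', fun hd => (h.hr0.dvd_mul.mp hd).elim hk hk', ?_, ?_⟩
  · rw [← hpow]; exact h1.pow _
  · apply SB_conj hu
    rw [mul_comm k k', ← hpow]
    exact h2.pow _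

/-- **Claim 2** -/
lemma SB_uu {r₀ : ℕ} (h : Aux q N r r₀) {g : SQ} (hg : g ∈ KO q N r) {x : ℚ} (hx : D q 1 x) :
    SB A q N r g (uu x) := by
  have hq0 : (q : ℚ) ≠ 0 := by exact_mod_cast h.hq.ne_zero
  obtain ⟨K, hK, h1, h2⟩ := exists_common_hh (A := A) h hg (uu_mem_GO (N := N) (D.one_one (q := q)))
  set ε : ℚ := (q : ℚ) ^ (K : ℤ) with hε
  have hε0 : ε ≠ 0 := zpow_ne_zero _ hq0
  have h3 := h1.inv.mul h2
  have e1 : (hh q h.hq.ne_zero K)⁻¹ * ((uu 1)⁻¹ * hh q h.hq.ne_zero K * uu 1) =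
      uu (1 - (ε⁻¹) ^ 2) := by
    have e2 : (hh q h.hq.ne_zero K)⁻¹ * (uu 1)⁻¹ * hh q h.hq.ne_zero K = uu (-(ε⁻¹) ^ 2) := by
      rw [← hh_neg, uu_inv]
      have e3 := dg_conj_uu ((q : ℚ) ^ (-(K : ℤ))) (zpow_ne_zero _ hq0) (-1)
      have e4 : hh q h.hq.ne_zero (K : ℤ) = (hh q h.hq.ne_zero (-(K : ℤ)))⁻¹ := by
        rw [← hh_neg, neg_neg]
      rw [e4]
      refine e3.trans ?_
      congr 1
      rw [zpow_neg]
      ring
    have e5 : (hh q h.hq.ne_zero K)⁻¹ * ((uu 1)⁻¹ * hh q h.hq.ne_zero K * uu 1) =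
        ((hh q h.hq.ne_zero K)⁻¹ * (uu 1)⁻¹ * hh q h.hq.ne_zero K) * uu 1 := by group
    rw [e5, e2, ← uu_add]
    congr 1
    ring
  rw [e1] at h3
  have hDε : D q 1 (ε⁻¹) := by
    rw [hε, ← zpow_neg]; exact D.zpow h.hq.ne_zero _
  have hDε' : D q 1 ε := D.zpow h.hq.ne_zero _
  refine D_all h (fun x => SB A q N r g (uu x)) (fun x y h1 h2 => ?_) (fun x h1 => ?_)
    (fun x h1 => SB_of_KO hg (uu_mem_KO h1)) h3 ?_ ?_ hx
  · simp only [uu_add]; exact h1.mul h2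
  · simp only [← uu_inv]; exact h1.inv
  · rw [sq]; exact D.one_one.sub (hDε.one_mul' hDε)
  · intro hd
    apply not_D_eps h hK
    have : ((q : ℚ) ^ (K : ℤ)) ^ 2 - 1 = ε * ε * (1 - (ε⁻¹) ^ 2) := by
      rw [← hε]; field_simp
    rw [this]
    exact (hDε'.one_mul' hDε').one_mul' hd

/-- **Claim 3** -/
lemma SB_ll {r₀ : ℕ} (h : Aux q N r r₀) {g : SQ} (hg : g ∈ KO q N r) {x : ℚ} (hx : D q 1 x) :
    SB A q N r g (ll (N * x)) := by
  have hq0 : (q : ℚ) ≠ 0 := by exact_mod_cast h.hq.ne_zero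
  have hllN : ll (N : ℚ) ∈ GO q N := ll_mem_GO (by
    have := D.int (q := q) (m := (N : ℤ)) 1
    simpa using this)
  obtain ⟨K, hK, h1, h2⟩ := exists_common_hh (A := A) h hg hllN
  set ε : ℚ := (q : ℚ) ^ (K : ℤ) with hε
  have hε0 : ε ≠ 0 := zpow_ne_zero _ hq0
  have h3 := h1.inv.mul h2
  have e1 : (hh q h.hq.ne_zero K)⁻¹ * ((ll (N : ℚ))⁻¹ * hh q h.hq.ne_zero K * ll (N : ℚ)) =
      ll (N * (1 - ε ^ 2)) := by
    have e2 : (hh q h.hq.ne_zero K)⁻¹ * (ll (N : ℚ))⁻¹ * hh q h.hq.ne_zero K =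
        ll (-(N : ℚ) * ε ^ 2) := by
      rw [← hh_neg, ll_inv]
      have e3 := dg_conj_ll ((q : ℚ) ^ (-(K : ℤ))) (zpow_ne_zero _ hq0) (-(N : ℚ))
      have e4 : hh q h.hq.ne_zero (K : ℤ) = (hh q h.hq.ne_zero (-(K : ℤ)))⁻¹ := by
        rw [← hh_neg, neg_neg]
      rw [e4]
      refine e3.trans ?_
      congr 1
      rw [zpow_neg, inv_inv]
      ring
    have e5 : (hh q h.hq.ne_zero K)⁻¹ * ((ll (N : ℚ))⁻¹ * hh q h.hq.ne_zero K * ll (N : ℚ)) =
        ((hh q h.hq.ne_zero K)⁻¹ * (ll (N : ℚ))⁻¹ * hh q h.hq.ne_zero K) * ll (N : ℚ) := by group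
    rw [e5, e2, ← ll_add]
    congr 1
    ring
  rw [e1] at h3
  have hDε' : D q 1 ε := D.zpow h.hq.ne_zero _
  refine D_all h (fun x => SB A q N r g (ll (N * x))) (fun x y h1 h2 => ?_) (fun x h1 => ?_)
    (fun x h1 => SB_of_KO hg (ll_mem_KO ?_ ?_)) h3 ?_ ?_ hx
  · simp only [mul_add, ll_add]; exact h1.mul h2
  · simp only [mul_neg, ← ll_inv]; exact h1.inv
  · have := (D.int (q := q) (m := (N : ℤ)) 1).mul_one' h1.one_of
    simpa using this
  · exact (D.one_nat N).one_mul' h1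
  · rw [sq]; exact D.one_one.sub (hDε'.one_mul' hDε')
  · intro hd
    apply not_D_eps h hK
    have : ((q : ℚ) ^ (K : ℤ)) ^ 2 - 1 = -(1 - ε ^ 2) := by
      rw [← hε]; ring
    rw [this]
    exact hd.neg

/-! ### the two conjugations -/

/-- `ρ g ρ⁻¹`, `ρ = diag(1, r)` -/
def rc (r : ℕ) (hr : (r : ℚ) ≠ 0) (g : SQ) : SQ :=
  ⟨!![g.1 0 0, g.1 0 1 / r; r * g.1 1 0, g.1 1 1], by
    rw [Matrix.det_fin_two_of]
    have := det_eq g
    field_simp
    linear_combination this⟩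

/-- `ρ⁻¹ g ρ`, `ρ = diag(1, r)` -/
def rci (r : ℕ) (hr : (r : ℚ) ≠ 0) (g : SQ) : SQ :=
  ⟨!![g.1 0 0, r * g.1 0 1; g.1 1 0 / r, g.1 1 1], by
    rw [Matrix.det_fin_two_of]
    have := det_eq g
    field_simp
    linear_combination this⟩

lemma rc_mul (hr : (r : ℚ) ≠ 0) (g h : SQ) : rc r hr (g * h) = rc r hr g * rc r hr h := by
  apply SQ_ext
  · simp only [rc, mul_entries]; simp; field_simp
  · simp only [rc, mul_entries]; simp; field_simp
  · simp only [rc, mul_entries]; simp; field_simp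
  · simp only [rc, mul_entries]; simp; field_simp

lemma rci_mul (hr : (r : ℚ) ≠ 0) (g h : SQ) : rci r hr (g * h) = rci r hr g * rci r hr h := by
  apply SQ_ext
  · simp only [rci, mul_entries]; simp; field_simp
  · simp only [rci, mul_entries]; simp; field_simp
  · simp only [rci, mul_entries]; simp; field_simp
  · simp only [rci, mul_entries]; simp; field_simp

lemma rc_rci (hr : (r : ℚ) ≠ 0) (g : SQ) : rc r hr (rci r hr g) = g := by
  apply SQ_ext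
  · simp [rc, rci]
  · simp [rc, rci]; field_simp
  · simp [rc, rci]; field_simp
  · simp [rc, rci]

lemma rci_rc (hr : (r : ℚ) ≠ 0) (g : SQ) : rci r hr (rc r hr g) = g := by
  apply SQ_ext
  · simp [rc, rci]
  · simp [rc, rci]; field_simp
  · simp [rc, rci]; field_simp
  · simp [rc, rci]

lemma rc_mem (hr : (r : ℚ) ≠ 0) {g : SQ} (hg : g ∈ KO q N r) : rc r hr g ∈ GO q N := by
  obtain ⟨d00, d01, d10, d11⟩ := KO_entries hg
  refine ⟨?_, ?_⟩
  · intro i j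
    fin_cases i <;> fin_cases j
    · exact hg.1.1 0 0
    · exact D.div_of_dvd (k := (r : ℤ)) (by exact_mod_cast hr) (by rw [mul_one]; exact d01)
    · exact (D.one_nat r).one_mul' (hg.1.1 1 0)
    · exact hg.1.1 1 1
  · exact (D.one_nat r).one_mul' hg.1.2

lemma rci_mem (hr : (r : ℚ) ≠ 0) (hNr : IsCoprime (r : ℤ) (N : ℤ)) (hq : q ≠ 0) {g : SQ}
    (hg : g ∈ KO q N r) : rci r hr g ∈ GO q N := by
  obtain ⟨d00, d01, d10, d11⟩ := KO_entries hg
  have h10 : D q N (g.1 1 0 / r) :=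
    D.div_of_dvd (k := (r : ℤ)) (by exact_mod_cast hr) (D.coprime hNr hq d10 hg.1.2)
  refine ⟨?_, h10⟩
  intro i j
  fin_cases i <;> fin_cases j
  · exact hg.1.1 0 0
  · exact (D.one_nat r).one_mul' (hg.1.1 0 1)
  · exact h10.one_of
  · exact hg.1.1 1 1

lemma isV_rc (hr : (r : ℚ) ≠ 0) {χ : SQ → A}
    (hχ : ∀ g ∈ GO q N, ∀ h ∈ GO q N, χ (g * h) = χ g + χ h)
    (hχ0 : ∀ g ∈ GO q N, g.1.trace = 2 → χ g = 0) : IsV q N r (fun g => χ (rc r hr g)) := by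
  refine ⟨fun g hg h hh => ?_, fun g hg ht => hχ0 _ (rc_mem hr hg) ?_⟩
  · change χ (rc r hr (g * h)) = _
    rw [rc_mul, hχ _ (rc_mem hr hg) _ (rc_mem hr hh)]
  · rw [← ht, Matrix.trace_fin_two, Matrix.trace_fin_two]; simp [rc]

lemma isV_rci (hr : (r : ℚ) ≠ 0) (hNr : IsCoprime (r : ℤ) (N : ℤ)) (hq : q ≠ 0) {χ : SQ → A}
    (hχ : ∀ g ∈ GO q N, ∀ h ∈ GO q N, χ (g * h) = χ g + χ h)
    (hχ0 : ∀ g ∈ GO q N, g.1.trace = 2 → χ g = 0) : IsV q N r (fun g => χ (rci r hr g)) := by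
  refine ⟨fun g hg h hh => ?_, fun g hg ht => hχ0 _ (rci_mem hr hNr hq hg) ?_⟩
  · change χ (rci r hr (g * h)) = _
    rw [rci_mul, hχ _ (rci_mem hr hNr hq hg) _ (rci_mem hr hNr hq hh)]
  · rw [← ht, Matrix.trace_fin_two, Matrix.trace_fin_two]; simp [rci]

/-- **Claim 4** -/
theorem rc_eq_rci {r₀ : ℕ} (h : Aux q N r r₀) (hr : (r : ℚ) ≠ 0) {χ : SQ → A}
    (hχ : ∀ g ∈ GO q N, ∀ h ∈ GO q N, χ (g * h) = χ g + χ h)
    (hχ0 : ∀ g ∈ GO q N, g.1.trace = 2 → χ g = 0) {g : SQ} (hg : g ∈ KO q N r) :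
    χ (rci r hr g) = χ (rc r hr g) := by
  obtain ⟨u, v, huv⟩ := h.cop_Nr
  -- N (-u) + 1 = r v
  set e : SQ := ll (N * ((-u : ℤ) : ℚ)) * uu 1 with he
  have hSB : SB A q N r g e := (SB_ll h hg (D.one_int _)).mul (SB_uu h hg D.one_one)
  let E0 : SL(2, ℤ) := ⟨!![(r : ℤ), 1; -(N * u), v], by
    rw [Matrix.det_fin_two_of]; linear_combination huv⟩
  have hE0 : E0 ∈ Gamma0 N := by
    rw [mem_Gamma0_iff_dvd]
    change (N : ℤ) ∣ -(N * u)
    exact ⟨-u, by ring⟩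
  have key : rci r hr (e * g * e⁻¹) = io E0 * rc r hr g * (io E0)⁻¹ := by
    rw [eq_mul_inv_iff_mul_eq]
    have hv : (N : ℚ) * u + v * r = 1 := by
      have : (u : ℚ) * N + v * r = 1 := by exact_mod_cast huv
      linarith
    have e00 : e.1 0 0 = 1 := by rw [he, (mul_entries _ _).1]; simp [ll, uu]
    have e01 : e.1 0 1 = 1 := by rw [he, (mul_entries _ _).2.1]; simp [ll, uu]
    have e10 : e.1 1 0 = -(N * u) := by rw [he, (mul_entries _ _).2.2.1]; simp [ll, uu]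
    have e11 : e.1 1 1 = r * v := by
      rw [he, (mul_entries _ _).2.2.2]; simp [ll, uu]; linear_combination -hv
    have E00 : (io E0).1 0 0 = r := by rw [io_apply]; simp [E0]
    have E01 : (io E0).1 0 1 = 1 := by rw [io_apply]; simp [E0]
    have E10 : (io E0).1 1 0 = -(N * u) := by rw [io_apply]; simp [E0]
    have E11 : (io E0).1 1 1 = v := by rw [io_apply]; simp [E0]
    have hd := det_eq g
    apply SQ_ext
    · simp only [(mul_entries _ _).1, E00, E01, E10, E11]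
      simp only [rci, rc]
      simp only [mul_entries, inv_00, inv_01, inv_10, inv_11, e00, e01, e10, e11,
        Matrix.of_apply, Matrix.cons_val', Matrix.cons_val_zero, Matrix.cons_val_one,
        Matrix.cons_val_fin_one]
      field_simp
      linear_combination (g.1 0 0 + g.1 1 0) * hv
    · simp only [(mul_entries _ _).2.1, E00, E01, E10, E11]
      simp only [rci, rc]
      simp only [mul_entries, inv_00, inv_01, inv_10, inv_11, e00, e01, e10, e11,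
        Matrix.of_apply, Matrix.cons_val', Matrix.cons_val_zero, Matrix.cons_val_one,
        Matrix.cons_val_fin_one]
      field_simp
      linear_combination (g.1 0 1 + g.1 1 1) * hv
    · simp only [(mul_entries _ _).2.2.1, E00, E01, E10, E11]
      simp only [rci, rc]
      simp only [mul_entries, inv_00, inv_01, inv_10, inv_11, e00, e01, e10, e11,
        Matrix.of_apply, Matrix.cons_val', Matrix.cons_val_zero, Matrix.cons_val_one,
        Matrix.cons_val_fin_one]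
      field_simp
      linear_combination (-(N * u : ℚ) * g.1 0 0 + r * v * g.1 1 0) * hv
    · simp only [(mul_entries _ _).2.2.2, E00, E01, E10, E11]
      simp only [rci, rc]
      simp only [mul_entries, inv_00, inv_01, inv_10, inv_11, e00, e01, e10, e11,
        Matrix.of_apply, Matrix.cons_val', Matrix.cons_val_zero, Matrix.cons_val_one,
        Matrix.cons_val_fin_one]
      field_simp
      linear_combination (-(N * u : ℚ) * g.1 0 1 + r * v * g.1 1 1) * hv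
  have h1 := hSB.2 _ (isV_rci hr h.cop_Nr.symm h.hq.ne_zero hχ hχ0)
  simp only [key] at h1
  rw [← h1, hom_conj hχ (rc_mem hr hg) (io_mem_GO hE0)]

end Fermat.Agent.LevelRaise
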