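import Fermat.Agent.LevelRaise.CycKum
import Fermat.Agent.LevelRaise.Stab

/-!
# Frobenius elements on roots of unity and on `q^{1/l}`
-/

set_option autoImplicit false

namespace Fermat.Agent.LevelRaise

open Fermat.Agent.Places

variable {K : Type*} [Field K] [CharZero K] [inst : Algebra ℚ K]

lemma int_dvd_of_mem {A : ValuationSubring K} {ℓ : ℕ} (hℓ : ℓ.Prime) (hA : A.LiesOverPrime ℓ)
    {n : ℤ} (hn : (n : K) ∈ A.nonunits) : (ℓ : ℤ) ∣ n := by
  by_contra h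
  have hcop : IsCoprime (ℓ : ℤ) n := (Nat.prime_iff_prime_int.mp hℓ).coprime_iff_not_dvd.mpr h
  obtain ⟨u, w, huw⟩ := hcop
  apply one_notMem_intCenter A
  rw [← huw]
  refine (intCenter A).add_mem ((intCenter A).mul_mem_left _ ?_) ((intCenter A).mul_mem_left _ ?_)
  · rw [mem_intCenter]; simpa [ValuationSubring.LiesOverPrime] using hA
  · rw [mem_intCenter]; exact hn

lemma mem_of_pow_eq_one (A : ValuationSubring K) {ω : K} {n : ℕ} (hn : 0 < n) (hω : ω ^ n = 1) :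
    ω ∈ A := by
  refine mem_of_isIntegral_int A ?_
  refine IsIntegral.of_pow hn ?_
  rw [hω]
  exact isIntegral_one

lemma root_sub_one_notMem {A : ValuationSubring K} {ℓ n : ℕ} (hℓ : ℓ.Prime)
    (hA : A.LiesOverPrime ℓ) (hn : 0 < n) (hnℓ : ¬ ℓ ∣ n) {ω : K} (hω : ω ^ n = 1) (h1 : ω ≠ 1) :
    ω - 1 ∉ A.nonunits := by
  intro hmem
  have hωA : ω ∈ A := mem_of_pow_eq_one A hn hω
  have hg : ∑ i ∈ Finset.range n, ω ^ i = 0 := by
    have h2 := geom_sum_mul ω n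
    rw [hω, sub_self, mul_eq_zero] at h2
    exact h2.resolve_right (sub_ne_zero.mpr h1)
  have hsum : ∀ m : ℕ, (∑ i ∈ Finset.range m, (ω ^ i - 1)) ∈ A.nonunits := by
    intro m
    induction m with
    | zero => simpa using zero_mem_nonunits A
    | succ m ih =>
      rw [Finset.sum_range_succ]
      refine add_mem_nonunits A ih ?_
      rw [← geom_sum_mul ω m, mul_comm]
      exact mul_mem_nonunits A hmem (sum_mem fun i _ => pow_mem hωA i)
  have h3 := hsum n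
  rw [Finset.sum_sub_distrib, hg] at h3
  have h4 : ((-(n : ℤ) : ℤ) : K) ∈ A.nonunits := by simpa using h3
  have h5 := int_dvd_of_mem hℓ hA h4
  rw [dvd_neg, Int.natCast_dvd_natCast] at h5
  exact hnℓ h5

/-- Frobenius on roots of unity -/
lemma frob_root {A : ValuationSubring K} {ℓ n : ℕ} (hℓ : ℓ.Prime)
    (hA : A.LiesOverPrime ℓ) (hn : 0 < n) (hnℓ : ¬ ℓ ∣ n) {τ : K ≃ₐ[ℚ] K}
    (hτ : A.IsFrobeniusAt τ ℓ) {ζ : K} (hζ : ζ ^ n = 1) : τ ζ = ζ ^ ℓ := by
  have hζ0 : ζ ≠ 0 := by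
    rintro rfl
    rw [zero_pow hn.ne'] at hζ
    exact zero_ne_one hζ
  have hζA : ζ ∈ A := mem_of_pow_eq_one A hn hζ
  have hinvA : ζ⁻¹ ∈ A := mem_of_pow_eq_one A hn (by rw [inv_pow, hζ, inv_one])
  have h1 := Cheb.sub_pow_mem_nonunits hτ hζA
  by_contra hne
  refine root_sub_one_notMem (ω := τ ζ * ζ⁻¹ ^ ℓ) hℓ hA hn hnℓ ?_ ?_ ?_
  · rw [mul_pow, ← map_pow, hζ, map_one, ← pow_mul, mul_comm ℓ n, pow_mul, inv_pow, hζ, inv_one,
      one_pow, one_mul]
  · intro h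
    apply hne
    rw [inv_pow] at h
    exact (mul_inv_eq_one₀ (pow_ne_zero _ hζ0)).mp h
  · have h2 : τ ζ * ζ⁻¹ ^ ℓ - 1 = (τ ζ - ζ ^ ℓ) * ζ⁻¹ ^ ℓ := by
      rw [sub_mul, ← mul_pow, mul_inv_cancel₀ hζ0, one_pow]
    rw [h2]
    exact mul_mem_nonunits A h1 (pow_mem hinvA ℓ)

/-- The order of `q` modulo `r` when a Frobenius element at `r` acts nontrivially on `q^{1/l}` and
trivially on `ζ_l`. -/
lemma dvd_of_frob {A : ValuationSubring K} {r q l : ℕ} (hr : r.Prime) (hq : q.Prime) (hl : l.Prime)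
    (hl2 : l ≠ 2) (hrq : r ≠ q) (hrl : r ≠ l) (hA : A.LiesOverPrime r) {τ : K ≃ₐ[ℚ] K}
    (hτ : A.IsFrobeniusAt τ r) {ζ α : K} (hζ : IsPrimitiveRoot ζ l) (hα : α ^ l = q)
    (hτζ : τ ζ = ζ) (hτα : τ α ≠ α) (k : ℕ) (hk : (r : ℤ) ∣ (q : ℤ) ^ (2 * k) - 1) : l ∣ k := by
  have hrl' : ¬ r ∣ l := fun h => hrl ((Nat.prime_dvd_prime_iff_eq hr hl).mp h)
  have hrq' : ¬ (r : ℤ) ∣ (q : ℤ) := fun h =>
    hrq ((Nat.prime_dvd_prime_iff_eq hr hq).mp (Int.natCast_dvd_natCast.mp h))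
  have hα0 : α ≠ 0 := by
    rintro rfl
    rw [zero_pow hl.ne_zero] at hα
    exact (Nat.cast_ne_zero.mpr hq.ne_zero : (q : K) ≠ 0) hα.symm
  have hαA : α ∈ A := by
    refine mem_of_isIntegral_int A (IsIntegral.of_pow hl.pos ?_)
    rw [hα]
    exact isIntegral_natCast _
  have hαu : α ∉ A.nonunits := by
    intro h
    have h1 : ((q : ℤ) : K) ∈ A.nonunits := by
      have h2 : ((q : ℤ) : K) = α * α ^ (l - 1) := by
        rw [← pow_succ', Nat.sub_add_cancel hl.pos, hα]; simp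
      rw [h2]
      exact mul_mem_nonunits A h (pow_mem hαA _)
    exact hrq' (int_dvd_of_mem hr hA h1)
  -- `r ≡ 1 mod l`
  have hr1 : l ∣ r - 1 := by
    have h1 := frob_root hr hA hl.pos hrl' hτ hζ.pow_eq_one
    rw [hτζ] at h1
    have h2 : ζ ^ (r - 1) = 1 := by
      apply mul_left_cancel₀ (hζ.ne_zero hl.ne_zero)
      rw [← pow_succ', Nat.sub_add_cancel hr.pos, ← h1, mul_one]
    exact hζ.dvd_of_pow_eq_one _ h2
  obtain ⟨m, hm⟩ := hr1
  set c := τ α / α with hc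
  have hσc : τ α = c * α := by rw [hc, div_mul_cancel₀ _ hα0]
  have hcl : c ^ l = 1 := by
    rw [hc, div_pow, ← map_pow, hα, map_natCast, div_self]
    exact Nat.cast_ne_zero.mpr hq.ne_zero
  have hc1 : c ≠ 1 := fun h => hτα (by rw [hσc, h, one_mul])
  -- `c ≡ q^m`
  have hcq : c - (q : K) ^ m ∈ A.nonunits := by
    have h1 := Cheb.sub_pow_mem_nonunits hτ hαA
    have h2 : τ α - α ^ r = (c - (q : K) ^ m) * α := by
      have h3 : α ^ r = (q : K) ^ m * α := by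
        rw [← hα, ← pow_mul, ← hm, ← pow_succ, Nat.sub_add_cancel hr.pos]
      rw [hσc, h3]; ring
    rw [h2] at h1
    exact mem_nonunits_of_mul_mem_nonunits hαu h1
  have hqm : ¬ (r : ℤ) ∣ (q : ℤ) ^ m - 1 := by
    intro ⟨w, hw⟩
    have h1 : (q : K) ^ m - 1 ∈ A.nonunits := by
      have h2 : (q : K) ^ m - 1 = (r : K) * ((w : ℤ) : K) := by exact_mod_cast congrArg (Int.cast : ℤ → K) hw
      rw [h2]
      exact mul_mem_nonunits A hA (mem_of_isIntegral_int A (by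
        simpa using isIntegral_algebraMap (R := ℤ) (A := K) (x := w)))
    have h3 := add_mem_nonunits A hcq h1
    rw [sub_add_sub_cancel] at h3
    exact root_sub_one_notMem hr hA hl.pos hrl' hcl hc1 h3
  -- orders in `ZMod r`
  haveI : Fact r.Prime := ⟨hr⟩
  have hq0 : (q : ZMod r) ≠ 0 := by
    intro h
    rw [ZMod.natCast_eq_zero_iff] at h
    exact hrq ((Nat.prime_dvd_prime_iff_eq hr hq).mp h)
  have e1 : (q : ZMod r) ^ (2 * k) = 1 := by
    rw [← sub_eq_zero]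
    have := (ZMod.intCast_zmod_eq_zero_iff_dvd _ r).mpr hk
    push_cast at this
    exact this
  have e2 : (q : ZMod r) ^ (l * m) = 1 := by
    rw [← hm]; exact ZMod.pow_card_sub_one_eq_one hq0
  have e3 : (q : ZMod r) ^ m ≠ 1 := by
    intro h
    apply hqm
    rw [← ZMod.intCast_zmod_eq_zero_iff_dvd]
    push_cast
    rw [h, sub_self]
  by_contra hlk
  have hl2k : ¬ l ∣ 2 * k := by
    intro h
    rcases hl.dvd_mul.mp h with h | h
    · exact hl2 ((Nat.prime_dvd_prime_iff_eq hl Nat.prime_two).mp h)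
    · exact hlk h
  have d1 := orderOf_dvd_of_pow_eq_one e1
  have d2 := orderOf_dvd_of_pow_eq_one e2
  have hlo : ¬ l ∣ orderOf (q : ZMod r) := fun h => hl2k (h.trans d1)
  have hcop : (orderOf (q : ZMod r)).Coprime l :=
    ((Nat.Prime.coprime_iff_not_dvd hl).mpr hlo).symm
  exact e3 (orderOf_dvd_iff_pow_eq_one.mp (hcop.dvd_of_dvd_mul_left d2))

end Fermat.Agent.LevelRaise
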