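import Fermat.Agent.LevelRaise.Split
import Fermat.Agent.LevelRaise.FrobRoot
import Fermat.Agent.EC.ModelFrob

/-!
# Existence of auxiliary primes
-/

set_option autoImplicit false

namespace Fermat.Agent.LevelRaise

open WeierstrassCurve WeierstrassCurve.Affine WeierstrassCurve.Affine.Point

local notation "Qb" => AlgebraicClosure ℚ

/-- approximating an automorphism by Frobenius elements on a finite set and on torsion points -/
lemma exists_frob (E : WeierstrassCurve ℚ) (V : Set (E⁄Qb).Point) (hV : V.Finite)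
    (T : Set Qb) (hT : T.Finite) (S : Set ℕ) (hS : S.Finite) (g : Qb ≃ₐ[ℚ] Qb) :
    ∃ r : ℕ, r.Prime ∧ r ∉ S ∧ ∃ A : ValuationSubring Qb, A.LiesOverPrime r ∧
      ∃ τ : Qb ≃ₐ[ℚ] Qb, A.IsFrobeniusAt τ r ∧ ∃ n m : ℕ,
        (∀ x ∈ T, g x = (τ ^ n) x ∧ τ x = (g ^ m) x) ∧
        (∀ v ∈ V, g • v = (τ ^ n) • v ∧ τ • v = (g ^ m) • v) := by
  classical
  let cx : (E⁄Qb).Point → Qb := fun P => match P with
    | .zero => 0
    | .some x _ _ => x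
  let cy : (E⁄Qb).Point → Qb := fun P => match P with
    | .zero => 0
    | .some _ y _ => y
  set T' : Set Qb := T ∪ (cx '' V ∪ cy '' V) with hT'
  have hT'f : T'.Finite := hT.union ((hV.image _).union (hV.image _))
  haveI : Finite T' := hT'f
  set F : IntermediateField ℚ Qb := IntermediateField.adjoin ℚ T' with hF
  haveI : FiniteDimensional ℚ F :=
    IntermediateField.finiteDimensional_adjoin fun x _ => Algebra.IsIntegral.isIntegral x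
  obtain ⟨r, hr, hrS, A, hA, τ, hτ, n, m, h1, h2⟩ := Cheb.exists_isFrobeniusAt_pow_mem S hS
    F.fixingSubgroup (IntermediateField.fixingSubgroup_isOpen F) g
  have hfix : ∀ u : Qb ≃ₐ[ℚ] Qb, u ∈ F.fixingSubgroup → ∀ x ∈ T', u x = x := fun u hu x hx =>
    (IntermediateField.mem_fixingSubgroup_iff F u).mp hu x (IntermediateField.subset_adjoin _ _ hx)
  have hfixV : ∀ u : Qb ≃ₐ[ℚ] Qb, u ∈ F.fixingSubgroup → ∀ v ∈ V, u • v = v := by
    intro u hu v hv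
    have hx := hfix u hu (cx v) (Or.inr (Or.inl ⟨v, hv, rfl⟩))
    have hy := hfix u hu (cy v) (Or.inr (Or.inr ⟨v, hv, rfl⟩))
    rcases v with _ | ⟨x, y, e⟩
    · rfl
    · rw [algEquiv_smul_def, map_some]
      exact EC.some_eq_some hx hy _ _
  refine ⟨r, hr, hrS, A, hA, τ, hτ, n, m, fun x hx => ⟨?_, ?_⟩, fun v hv => ⟨?_, ?_⟩⟩
  · have h3 := hfix _ h1 x (Or.inl hx)
    have h4 : g ((g⁻¹ * τ ^ n) x) = g x := by rw [h3]
    rw [← h4, ← AlgEquiv.mul_apply, mul_inv_cancel_left]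
  · have h3 := hfix _ h2 x (Or.inl hx)
    have h4 : τ ((τ⁻¹ * g ^ m) x) = τ x := by rw [h3]
    rw [← h4, ← AlgEquiv.mul_apply, mul_inv_cancel_left]
  · have h3 := hfixV _ h1 v hv
    have h4 : g • ((g⁻¹ * τ ^ n) • v) = g • v := by rw [h3]
    rw [← h4, smul_smul, mul_inv_cancel_left]
  · have h3 := hfixV _ h2 v hv
    have h4 : τ • ((τ⁻¹ * g ^ m) • v) = τ • v := by rw [h3]
    rw [← h4, smul_smul, mul_inv_cancel_left]

lemma good_finite {W : WeierstrassCurve ℤ} (hΔ : W.Δ ≠ 0) :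
    {r : ℕ | ¬ W.IsGoodPrimeFor r}.Finite := by
  refine (Finset.finite_toSet (Nat.divisors W.Δ.natAbs)).subset fun r hr => ?_
  have h1 : (r : ℤ) ∣ W.Δ := not_not.mp hr
  have h2 : r ∣ W.Δ.natAbs := Int.natCast_dvd.mp h1
  simpa [Int.natAbs_ne_zero.mpr hΔ] using h2

/-- **Existence of auxiliary primes.** -/
theorem exists_aux {p q N : ℕ} (hp : p.Prime) (hp2 : p ≠ 2) (hq : q.Prime) (hN : 0 < N)
    (hqN : ¬ q ∣ N) (E : WeierstrassCurve ℚ) [E.IsElliptic] {W : WeierstrassCurve ℤ}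
    (hW : W.IsIntegralModelOf E)
    (hirr : GaloisRepIsIrreducible (K := AlgebraicClosure ℚ) ℚ E p)
    (S : Set ℕ) (hS : S.Finite) :
    ∃ r r₀ : ℕ, r ∉ S ∧ W.IsGoodPrimeFor r ∧ Aux q N r r₀ ∧
      ((W.apOfModel r : ℤ) : ZMod p) ^ 2 ≠ ((r : ZMod p) + 1) ^ 2 := by
  classical
  haveI : Fact p.Prime := ⟨hp⟩
  by_contra hcon
  push Not at hcon
  have hWΔ : W.Δ ≠ 0 := by
    obtain ⟨C, hC⟩ := hW
    have h1 : (C • E).Δ ≠ 0 := by
      rw [variableChange_Δ]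
      exact mul_ne_zero (pow_ne_zero _ (Units.ne_zero _)) E.isUnit_Δ.ne_zero
    rw [hC, WeierstrassCurve.map_Δ, eq_intCast] at h1
    exact_mod_cast h1
  have hodd : Odd p := hp.odd_of_ne_two hp2
  let V := Submodule.torsionBy ℤ (E⁄Qb).Point p
  have hcard : Nat.card V = p ^ 2 := EC.card_torsionBy E hodd
  haveI hVfin : Finite V := Nat.finite_of_card_ne_zero (by rw [hcard]; exact pow_ne_zero _ hp.ne_zero)
  have hVset : (Set.range (Subtype.val : V → (E⁄Qb).Point)).Finite := Set.finite_range _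
  obtain ⟨ζp, hζp⟩ := HasEnoughRootsOfUnity.exists_primitiveRoot Qb p
  let χ : (Qb ≃ₐ[ℚ] Qb) →* (ZMod p)ˣ := hζp.autToPow ℚ
  have hχ : ∀ σ : Qb ≃ₐ[ℚ] Qb, ∀ k : ℕ, σ ζp = ζp ^ k → (χ σ : ZMod p) = k := by
    intro σ k hk
    have h1 : ζp ^ (χ σ : ZMod p).val = σ ζp := hζp.autToPow_spec ℚ σ
    rw [hk, pow_eq_pow_mod _ hζp.pow_eq_one, pow_eq_pow_mod k hζp.pow_eq_one] at h1
    have h3 : (χ σ : ZMod p).val ≡ k [MOD p] :=
      hζp.pow_inj (Nat.mod_lt _ hp.pos) (Nat.mod_lt _ hp.pos) h1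
    have h2 := (ZMod.natCast_eq_natCast_iff _ _ p).mpr h3
    rwa [ZMod.natCast_zmod_val] at h2
  refine false_of_split (p := p) (G := Qb ≃ₐ[ℚ] Qb) (V := V)
    (by rw [hcard, sq]; exact lt_mul_of_one_lt_left hp.pos hp.one_lt) (fun N hN => hirr.2 N hN) χ ?_
  -- the finite quotient
  let Γ := Equiv.Perm V × (ZMod p)ˣ
  let Ψ : (Qb ≃ₐ[ℚ] Qb) →* Γ := (MulAction.toPermHom (Qb ≃ₐ[ℚ] Qb) V).prod χ
  have hΨ : ∀ σ σ' : Qb ≃ₐ[ℚ] Qb, Ψ σ = Ψ σ' → (∀ v : V, σ • v = σ' • v) ∧ χ σ = χ σ' := by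
    intro σ σ' h
    exact ⟨fun v => congrArg (fun f : Γ => f.1 v) h, congrArg Prod.snd h⟩
  -- primitive roots of unity
  have hex : ∀ l : ℕ, ∃ ζ : Qb, l.Prime → IsPrimitiveRoot ζ l := by
    intro l
    by_cases hl : l.Prime
    · haveI : NeZero l := ⟨hl.ne_zero⟩
      obtain ⟨ζ, hζ⟩ := HasEnoughRootsOfUnity.exists_primitiveRoot Qb l
      exact ⟨ζ, fun _ => hζ⟩
    · exact ⟨0, fun h => absurd h hl⟩
  choose ζ hζ using hex
  -- pigeonhole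
  let f : ℕ → Subgroup Γ := fun l =>
    (MulAction.stabilizer (Qb ≃ₐ[ℚ] Qb) (ζ l)).map Ψ
  have hmemf : ∀ (l : ℕ) (γ : Γ), γ ∈ f l ↔ ∃ σ : Qb ≃ₐ[ℚ] Qb, σ (ζ l) = ζ l ∧ Ψ σ = γ := by
    intro l γ
    constructor
    · rintro ⟨σ, hσ, rfl⟩
      exact ⟨σ, MulAction.mem_stabilizer_iff.mp hσ, rfl⟩
    · rintro ⟨σ, hσ, rfl⟩
      exact ⟨σ, MulAction.mem_stabilizer_iff.mpr hσ, rfl⟩
  set B : ℕ := Nat.card Γ + N + q + 2 with hB
  have hinf : {l : ℕ | l.Prime ∧ B < l}.Infinite := by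
    rw [Set.infinite_iff_exists_gt]
    intro a
    obtain ⟨l, hl1, hl2⟩ := Nat.exists_infinite_primes (a + B + 1)
    exact ⟨l, ⟨hl2, by omega⟩, by omega⟩
  obtain ⟨l, ⟨hl, hlB⟩, l', ⟨hl', hl'B⟩, hne, hff⟩ := hinf.exists_ne_map_eq_of_mapsTo
    (f := f) (t := Set.univ) (Set.mapsTo_univ _ _) Set.finite_univ
  have hl2 : l ≠ 2 := by omega
  have hlq : l ≠ q := by omega
  have hlN : ¬ l ∣ N := fun h => by have := Nat.le_of_dvd hN h; omega
  have hlΓ : Nat.card Γ < l := by omega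
  obtain ⟨α, hα⟩ := IsAlgClosed.exists_pow_nat_eq (q : Qb) hl.pos
  obtain ⟨σ₀, hσ₀1, hσ₀2, hσ₀3⟩ := exists_kummer_ker hl hq (hζ l hl) hα Ψ hlΓ
  intro g
  -- adjust `g`
  obtain ⟨g₂, hg1, hg2, hg3⟩ : ∃ g₂ : Qb ≃ₐ[ℚ] Qb, Ψ g₂ = Ψ g ∧ g₂ (ζ l) = ζ l ∧ g₂ α ≠ α := by
    obtain ⟨a, ha1, ha2⟩ := cyc_indep hl hl' hne (hζ l hl) (hζ l' hl') g
    have hb : Ψ (a⁻¹ * g) ∈ f l' := by
      rw [hmemf]
      refine ⟨_, ?_, rfl⟩
      rw [AlgEquiv.mul_apply, ← ha2, ← AlgEquiv.mul_apply, inv_mul_cancel, AlgEquiv.one_apply]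
    rw [← hff, hmemf] at hb
    obtain ⟨b, hb1, hb2⟩ := hb
    have h1 : Ψ (a * b) = Ψ g := by rw [map_mul, hb2, ← map_mul, mul_inv_cancel_left]
    have h2 : (a * b) (ζ l) = ζ l := by rw [AlgEquiv.mul_apply, hb1, ha1]
    by_cases h3 : (a * b) α = α
    · refine ⟨a * b * σ₀, by rw [map_mul, hσ₀1, mul_one, h1], ?_, ?_⟩
      · rw [AlgEquiv.mul_apply, hσ₀2, h2]
      · rw [AlgEquiv.mul_apply]
        intro h4
        exact hσ₀3 ((a * b).injective (h4.trans h3.symm))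
    · exact ⟨a * b, h1, h2, h3⟩
  -- approximate by Frobenius
  have hS' : (S ∪ {r | ¬ W.IsGoodPrimeFor r} ∪ {r | r ∣ N} ∪ {p, q, l}).Finite := by
    refine ((hS.union (good_finite hWΔ)).union ?_).union (Set.toFinite _)
    exact (Finset.finite_toSet (Nat.divisors N)).subset fun r hr => by simpa [hN.ne'] using hr
  obtain ⟨r, hr, hrS, A, hA, τ, hτ, n, m, hT, hTV⟩ := exists_frob E _ hVset {ζp, ζ l, α}
    (Set.toFinite _) _ hS' g₂
  simp only [Set.mem_union, Set.mem_setOf_eq, Set.mem_insert_iff, Set.mem_singleton_iff, not_or,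
    not_not] at hrS
  obtain ⟨⟨⟨hrS, hrgood⟩, hrN⟩, hrp, hrq, hrl⟩ := hrS
  have hpowfix : ∀ k : ℕ, (g₂ ^ k) (ζ l) = ζ l := by
    intro k
    induction k with
    | zero => rfl
    | succ k ih => rw [pow_succ', AlgEquiv.mul_apply, ih, hg2]
  have hτζ : τ (ζ l) = ζ l := by
    rw [(hT (ζ l) (by simp)).2, hpowfix]
  have hτα : τ α ≠ α := by
    intro h
    apply hg3
    rw [(hT α (by simp)).1]
    have h1 : ∀ k : ℕ, (τ ^ k) α = α := by
      intro k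
      induction k with
      | zero => rfl
      | succ k ih => rw [pow_succ', AlgEquiv.mul_apply, ih, h]
    exact h1 n
  have haux : Aux q N r l := ⟨hq, hqN, hr, hrN, hrq, hl, hl2, hlN, hlq, fun h => hrl h.symm,
    fun k hk => dvd_of_frob hr hq hl hl2 hrq hrl hA hτ (hζ l hl) hα hτζ hτα k hk⟩
  have hrel := hcon r l hrS hrgood haux
  haveI : Fact r.Prime := ⟨hr⟩
  -- `a_r = ε (r + 1)`
  obtain ⟨ε, hε, hεa⟩ : ∃ ε : ZMod p, ε ^ 2 = 1 ∧
      ((W.apOfModel r : ℤ) : ZMod p) = ε * (1 + (r : ZMod p)) := by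
    rcases sq_eq_sq_iff_eq_or_eq_neg.mp hrel with h | h
    · exact ⟨1, by ring, by rw [h]; ring⟩
    · exact ⟨-1, by ring, by rw [h]; ring⟩
  have hχτ : (χ τ : ZMod p) = r := hχ τ r (frob_root hr hA hp.pos
    (fun h => hrp ((Nat.prime_dvd_prime_iff_eq hr hp).mp h)) hτ hζp.pow_eq_one)
  have hV1 : ∀ v : V, τ • τ • v - (ε * (1 + (r : ZMod p))) • τ • v + (r : ZMod p) • v = 0 := by
    intro v
    have hv : p • (v : (E⁄Qb).Point) = 0 := by
      have := (Submodule.mem_torsionBy_iff (p : ℤ) (v : (E⁄Qb).Point)).mp v.2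
      rwa [natCast_zsmul] at this
    have h1 := EC.frobenius_rel_of_model hW hrgood hA hτ hodd
      (fun h => hrp ((Nat.prime_dvd_prime_iff_eq hr hp).mp h)) hv
    rw [← hεa, Int.cast_smul_eq_zsmul, Nat.cast_smul_eq_nsmul]
    apply Subtype.ext
    rw [natCast_zsmul] at h1
    exact h1
  have hV2 := rel_pow (G := Qb ≃ₐ[ℚ] Qb) hε hV1 n
  have hgV : ∀ v : V, g • v = (τ ^ n) • v := by
    intro v
    rw [← (hΨ g₂ g hg1).1 v]
    exact Subtype.ext (hTV v ⟨v, rfl⟩).1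
  have hgχ : (χ g : ZMod p) = (r : ZMod p) ^ n := by
    rw [← (hΨ g₂ g hg1).2, ← hχτ, ← Units.val_pow_eq_pow_val, ← map_pow]
    have h1 : g₂ ζp = (τ ^ n) ζp := (hT ζp (by simp)).1
    have h2 : ζp ^ (χ (τ ^ n) : ZMod p).val = (τ ^ n) ζp := hζp.autToPow_spec ℚ (τ ^ n)
    rw [← h2] at h1
    rw [hχ g₂ _ h1, ZMod.natCast_zmod_val]
  refine ⟨ε ^ n, by rw [← pow_mul, mul_comm, pow_mul, hε, one_pow], fun v => ?_⟩
  rw [hgV, hgV, hgχ]
  exact hV2 v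

end Fermat.Agent.LevelRaise
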