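import Mathlib

/-!
# The abstract level raising argument

`V` (oldforms), `B` (forms of higher level) finite free lattices with an action of a commutative
ring `R`, `α : V → B` and its adjoint `β : B → V`.  If `α` is injective mod `p` up to an operator
`τ` (Ihara's lemma) and a mod `p` eigenvector `z ∈ B / p` is killed by `β`, then the
eigencharacter of `z` occurs in `ker β`.
-/

set_option autoImplicit false

open Module

namespace Fermat.Agent.LevelRaise

section Dual

variable {V : Type*} [AddCommGroup V] {p : ℕ} [Fact p.Prime]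

lemma mkQ_eq_zero_iff (v : V) : ModN.mkQ p v = 0 ↔ ∃ v' : V, v = (p : ℤ) • v' := by
  change (Submodule.Quotient.mk v : ModN V p) = 0 ↔ _
  rw [Submodule.Quotient.mk_eq_zero]
  constructor
  · rintro ⟨w, rfl⟩
    exact ⟨w, rfl⟩
  · rintro ⟨w, rfl⟩
    exact ⟨w, rfl⟩

lemma mkQ_surjective : Function.Surjective (ModN.mkQ (G := V) p) :=
  Submodule.mkQ_surjective _

variable (p) in
/-- reduction of an integral functional -/
noncomputable def redF (f : V →+ ℤ) : ModN V p →ₗ[ZMod p] ZMod p :=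
  ModN.liftEquiv'.symm ⟨(Int.castAddHom (ZMod p)).comp f, fun g => by simp⟩

lemma redF_mkQ (f : V →+ ℤ) (v : V) : redF p f (ModN.mkQ p v) = ((f v : ℤ) : ZMod p) := rfl

/-- Mod `p` duality. -/
lemma exists_of_orth [Module.Finite ℤ V] (Q : V →+ V →+ ℤ)
    (hQ : ∀ v, (∀ u, (p : ℤ) ∣ Q v u) → ∃ v' : V, v = (p : ℤ) • v') (L : AddSubgroup V) (w : V)
    (hw : ∀ v, (∀ u ∈ L, (p : ℤ) ∣ Q v u) → (p : ℤ) ∣ Q v w) :
    ∃ l ∈ L, ∃ v : V, w = l + (p : ℤ) • v := by
  classical
  haveI : Module.Finite ℤ (ModN V p) := inferInstance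
  haveI : Module.Finite (ZMod p) (ModN V p) := Module.Finite.of_restrictScalars_finite ℤ _ _
  -- the duality map
  let Φ : V →+ (ModN V p →ₗ[ZMod p] ZMod p) :=
    { toFun := fun v => redF p (Q v)
      map_zero' := by
        refine LinearMap.ext fun x => ?_
        obtain ⟨x, rfl⟩ := mkQ_surjective x
        rw [redF_mkQ]; simp
      map_add' := fun u v => by
        refine LinearMap.ext fun x => ?_
        obtain ⟨x, rfl⟩ := mkQ_surjective x
        rw [LinearMap.add_apply, redF_mkQ, redF_mkQ, redF_mkQ]; simp }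
  have hΦ : ∀ v x, Φ v (ModN.mkQ p x) = ((Q v x : ℤ) : ZMod p) := fun v x => rfl
  let Ψ : ModN V p →ₗ[ZMod p] (ModN V p →ₗ[ZMod p] ZMod p) :=
    ModN.liftEquiv'.symm ⟨Φ, fun g => by
      rw [← Nat.cast_smul_eq_nsmul (ZMod p), ZMod.natCast_self, zero_smul]⟩
  have hΨ : ∀ v, Ψ (ModN.mkQ p v) = Φ v := fun v => rfl
  have hinj : Function.Injective Ψ := by
    rw [injective_iff_map_eq_zero]
    intro x hx
    obtain ⟨v, rfl⟩ := mkQ_surjective x
    rw [hΨ] at hx
    rw [mkQ_eq_zero_iff]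
    refine hQ v fun u => ?_
    rw [← ZMod.intCast_zmod_eq_zero_iff_dvd, ← hΦ, hx, LinearMap.zero_apply]
  have hsurj : Function.Surjective Ψ := by
    have hd : finrank (ZMod p) (ModN V p) = finrank (ZMod p) (ModN V p →ₗ[ZMod p] ZMod p) :=
      (Subspace.dual_finrank_eq (K := ZMod p) (V := ModN V p)).symm
    exact (LinearMap.injective_iff_surjective_of_finrank_eq_finrank hd).mp hinj
  -- the subspace
  let L' : Submodule (ZMod p) (ModN V p) := AddSubgroup.toZModSubmodule p (L.map (ModN.mkQ p))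
  by_contra hcon
  have hnot : ModN.mkQ p w ∉ L' := by
    rintro ⟨l, hl, hlw⟩
    have h1 : ModN.mkQ p (w - l) = 0 := by rw [map_sub, hlw, sub_self]
    rw [mkQ_eq_zero_iff] at h1
    obtain ⟨v, hv⟩ := h1
    exact hcon ⟨l, hl, v, by rw [← hv]; abel⟩
  obtain ⟨f, hf, hf'⟩ := Submodule.exists_le_ker_of_notMem hnot
  obtain ⟨x, hx⟩ := hsurj f
  obtain ⟨v, rfl⟩ := mkQ_surjective x
  rw [hΨ] at hx
  have h1 := hw v fun u hu => by
    rw [← ZMod.intCast_zmod_eq_zero_iff_dvd, ← hΦ, hx]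
    exact hf' ⟨u, hu, rfl⟩
  rw [← ZMod.intCast_zmod_eq_zero_iff_dvd, ← hΦ, hx] at h1
  exact hf h1

end Dual

/-- **Abstract level raising.** -/
theorem theta_eq_zero_of_kill {R V B : Type*} [CommRing R] [AddCommGroup V] [AddCommGroup B]
    [Module R V] [Module R B] [Module.Finite ℤ V] {p : ℕ} [Fact p.Prime] (θ : R →+* ZMod p)
    (α : V →ₗ[R] B) (β : B →ₗ[R] V) (QV : V →+ V →+ ℤ) (QB : B →+ B →+ ℤ)
    (hQV : ∀ v, (∀ u, (p : ℤ) ∣ QV v u) → ∃ v' : V, v = (p : ℤ) • v')
    (hQB : ∀ b, (∀ u, (p : ℤ) ∣ QB b u) → ∃ b' : B, b = (p : ℤ) • b')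
    (hadj : ∀ v b, QB (α v) b = QV v (β b)) (τ : R)
    (hτ : ∀ u v, QV (τ • u) v = QV u (τ • v))
    (hI : ∀ v b, α v = (p : ℤ) • b → ∃ v' : V, τ • v = (p : ℤ) • v') (hθτ : θ τ ≠ 0)
    (z : B) (hz : ∀ b, z ≠ (p : ℤ) • b) (hβz : ∃ v, β z = (p : ℤ) • v)
    (hez : ∀ (r : R) (n : ℤ), (n : ZMod p) = θ r → ∃ b, r • z - n • z = (p : ℤ) • b)
    (s : R) (hs : ∀ b, β b = 0 → s • b = 0) : θ s = 0 := by
  -- step 1: `τ V ⊆ β B + p V`
  have step1 : ∀ u : V, ∃ (b : B) (v : V), τ • u = β b + (p : ℤ) • v := by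
    intro u
    obtain ⟨l, ⟨b, hb⟩, v, hv⟩ := exists_of_orth (p := p) QV hQV β.toAddMonoidHom.range (τ • u)
      (fun v hv => by
        have h1 : ∃ b', α v = (p : ℤ) • b' := by
          refine hQB (α v) fun b => ?_
          rw [hadj]
          exact hv (β b) ⟨b, rfl⟩
        obtain ⟨b', hb'⟩ := h1
        obtain ⟨v', hv'⟩ := hI v b' hb'
        rw [← hτ, hv', map_zsmul, AddMonoidHom.smul_apply]
        exact ⟨QV v' u, by simp⟩)
    exact ⟨b, v, by rw [hv, ← hb]; rfl⟩
  -- step 2: Nakayama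
  have step2 : ∃ s' : R, s' - 1 ∈ RingHom.ker θ ∧ ∀ v : V, ∃ b : B, s' • v = β b := by
    let C : Type _ := V ⧸ LinearMap.range β
    haveI : Module.Finite R V := by
      obtain ⟨S, hS⟩ := (inferInstance : Module.Finite ℤ V).fg_top
      refine ⟨⟨S, ?_⟩⟩
      rw [eq_top_iff]
      rintro x -
      have hx : x ∈ Submodule.span ℤ (S : Set V) := by rw [hS]; trivial
      induction hx using Submodule.span_induction with
      | mem x hx => exact Submodule.subset_span hx
      | zero => exact Submodule.zero_mem _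
      | add x y _ _ hx hy => exact Submodule.add_mem _ hx hy
      | smul n x _ hx =>
        rw [← Int.cast_smul_eq_zsmul R]
        exact Submodule.smul_mem _ _ hx
    obtain ⟨m, hm⟩ := ZMod.intCast_surjective (θ τ)⁻¹
    have key : (⊤ : Submodule R C) ≤ RingHom.ker θ • (⊤ : Submodule R C) := by
      rintro c -
      obtain ⟨v, rfl⟩ := Submodule.Quotient.mk_surjective _ c
      obtain ⟨b, v', hbv⟩ := step1 v
      have hp : ((p : ℤ) : R) ∈ RingHom.ker θ := by
        rw [RingHom.mem_ker, map_intCast]; simp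
      have h1 : (1 - (m : R) * τ) ∈ RingHom.ker θ := by
        rw [RingHom.mem_ker, map_sub, map_mul, map_one, map_intCast, hm, inv_mul_cancel₀ hθτ,
          sub_self]
      have h2 : (Submodule.Quotient.mk v : C) =
          (1 - (m : R) * τ) • (Submodule.Quotient.mk v : C) +
            ((p : ℤ) : R) • (Submodule.Quotient.mk ((m : R) • v') : C) := by
        rw [← Submodule.Quotient.mk_smul, ← Submodule.Quotient.mk_smul, ← Submodule.Quotient.mk_add,
          Submodule.Quotient.eq]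
        refine ⟨(m : R) • b, ?_⟩
        rw [map_smul, sub_smul, one_smul, mul_smul, hbv, smul_add, smul_comm ((p : ℤ) : R),
          Int.cast_smul_eq_zsmul R (p : ℤ) v']
        abel
      rw [h2]
      exact Submodule.add_mem _ (Submodule.smul_mem_smul h1 trivial)
        (Submodule.smul_mem_smul hp trivial)
    obtain ⟨s', hs'1, hs'⟩ := Submodule.exists_sub_one_mem_and_smul_eq_zero_of_fg_of_le_smul
      (RingHom.ker θ) (⊤ : Submodule R C) Module.Finite.fg_top key
    refine ⟨s', hs'1, fun v => ?_⟩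
    have h1 := hs' (Submodule.Quotient.mk v) trivial
    rw [← Submodule.Quotient.mk_smul, Submodule.Quotient.mk_eq_zero] at h1
    obtain ⟨b, hb⟩ := h1
    exact ⟨b, hb.symm⟩
  -- step 3
  obtain ⟨s', hs'1, hs'⟩ := step2
  obtain ⟨v, hv⟩ := hβz
  obtain ⟨b, hb⟩ := hs' v
  have h1 : β (s' • z - (p : ℤ) • b) = 0 := by
    rw [map_sub, map_smul, map_zsmul, hv, ← hb, smul_comm, sub_self]
  have h2 := hs _ h1
  rw [smul_sub, ← mul_smul, sub_eq_zero] at h2
  obtain ⟨n, hn⟩ := ZMod.intCast_surjective (θ (s * s'))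
  obtain ⟨b', hb'⟩ := hez (s * s') n hn
  rw [h2, smul_comm] at hb'
  have h3 : n • z = (p : ℤ) • (s • b - b') := by
    rw [smul_sub, ← hb']; abel
  have hθs' : θ s' = 1 := by
    rw [RingHom.mem_ker, map_sub, map_one, sub_eq_zero] at hs'1
    exact hs'1
  rw [map_mul, hθs', mul_one] at hn
  by_contra hcon
  have hnp : ¬ (p : ℤ) ∣ n := by
    intro h
    rw [← ZMod.intCast_zmod_eq_zero_iff_dvd] at h
    exact hcon (by rw [← hn, h])
  have hcop : IsCoprime (p : ℤ) n := (Nat.prime_iff_prime_int.mp (Fact.out : p.Prime)).coprime_iff_not_dvd.mpr hnp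
  obtain ⟨u, w, huw⟩ := hcop
  apply hz (u • z + w • (s • b - b'))
  calc z = (u * p + w * n) • z := by rw [huw, one_smul]
    _ = _ := by
      rw [add_smul, mul_smul, mul_smul, h3, smul_add, smul_comm u, smul_comm w]

end Fermat.Agent.LevelRaise
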