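import Fermat.Agent.LevelRaise.Eta
import Fermat.Agent.LevelRaise.Graph2

set_option autoImplicit false

/-!
# Nondegeneracy of the pairing modulo odd primes
-/

open Matrix.SpecialLinearGroup
open scoped MatrixGroups
open ModularGroup (S T)
open Fermat.Agent.ShimuraCover

namespace Fermat.Agent.LevelRaise

noncomputable section

section graph

variable {G X : Type*} [Group G] [MulAction G X] [Fintype X] [DecidableEq X] {k : Type*} [Field k]

/-- a functional vanishing on cycles is a sum of invariant functions -/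
theorem exists_decomp_of_perp {S U : G} (hS : ∀ x : X, S • S • x = x)
    (hU : ∀ x : X, U • U • U • x = x) (Λ : X → k)
    (hΛ : ∀ f : X → k, (∀ x, f (S • x) = - f x) → (∀ x, S • x = x → f x = 0) →
      (∀ x, f x + f (U • x) + f (U • U • x) = 0) → (∀ x, U • x = x → f x = 0) →
      ∑ x, f x * Λ x = 0) :
    ∃ s u : X → k, (∀ x, s (S • x) = s x) ∧ (∀ x, u (U • x) = u x) ∧ ∀ x, Λ x = s x + u x := by
  classical
  let oS : X → Finset X := fun x => {x, S • x}
  have hoS : ∀ x y, y ∈ oS x ↔ y = x ∨ y = S • x := by intro x y; simp [oS]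
  have hoS' : ∀ x y, y ∈ oS x ↔ x ∈ oS y := by
    intro x y
    rw [hoS, hoS]
    constructor
    · rintro (rfl | rfl)
      · left; rfl
      · right; rw [hS]
    · rintro (rfl | rfl)
      · left; rfl
      · right; rw [hS]
  have hoU' : ∀ x y : X, y ∈ orb3 U x ↔ x ∈ orb3 U y := by
    intro x y
    constructor
    · intro h; rw [orb3_eq_of_mem hU h]; exact self_mem_orb3 U x
    · intro h; rw [orb3_eq_of_mem hU h]; exact self_mem_orb3 U y
  let sS : (X → k) →ₗ[k] (X → k) :=
    { toFun := fun f x => ∑ z ∈ oS x, f z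
      map_add' := fun f g => by funext x; simp [Finset.sum_add_distrib]
      map_smul' := fun c f => by funext x; simp [Finset.mul_sum] }
  let sU : (X → k) →ₗ[k] (X → k) :=
    { toFun := fun f x => ∑ z ∈ orb3 U x, f z
      map_add' := fun f g => by funext x; simp [Finset.sum_add_distrib]
      map_smul' := fun c f => by funext x; simp [Finset.mul_sum] }
  let L : (X → k) →ₗ[k] k :=
    { toFun := fun f => ∑ x, f x * Λ x
      map_add' := fun f g => by simp [add_mul, Finset.sum_add_distrib]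
      map_smul' := fun c f => by simp [Finset.mul_sum, mul_assoc] }
  let P : (X → k) →ₗ[k] (X → k) × (X → k) := sS.prod sU
  have hker : ∀ f, P f = 0 → L f = 0 := by
    intro f hf
    have h1 : ∀ x, ∑ z ∈ oS x, f z = 0 := fun x => congrFun (congrArg Prod.fst hf) x
    have h2 : ∀ x, ∑ z ∈ orb3 U x, f z = 0 := fun x => congrFun (congrArg Prod.snd hf) x
    have a1 : ∀ x, S • x = x → f x = 0 := by
      intro x hx
      have := h1 x
      simpa [oS, hx] using this
    have a2 : ∀ x, f (S • x) = - f x := by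
      intro x
      by_cases hx : S • x = x
      · rw [hx, a1 x hx, neg_zero]
      · have := h1 x
        rw [Finset.sum_pair (fun h => hx h.symm)] at this
        exact (neg_eq_of_add_eq_zero_right this).symm
    have a3 : ∀ x, U • x = x → f x = 0 := by
      intro x hx
      have := h2 x
      rw [sum_orb3 hU, if_pos hx] at this
      exact this
    have a4 : ∀ x, f x + f (U • x) + f (U • U • x) = 0 := by
      intro x
      by_cases hx : U • x = x
      · rw [hx, hx, a3 x hx]; simp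
      · have := h2 x
        rw [sum_orb3 hU, if_neg hx] at this
        exact this
    exact hΛ f a2 a1 a4 a3
  have hL : L ∈ (LinearMap.ker P).dualAnnihilator := by
    rw [Submodule.mem_dualAnnihilator]
    intro f hf
    exact hker f hf
  rw [← LinearMap.range_dualMap_eq_dualAnnihilator_ker] at hL
  obtain ⟨g, hg⟩ := hL
  have hdec : ∀ f, L f = g (sS f, 0) + g (0, sU f) := by
    intro f
    rw [← hg, ← map_add]
    simp [P, LinearMap.dualMap_apply]
  have hsing : ∀ x, L (Pi.single x 1) = Λ x := by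
    intro x
    simp [L, Pi.single_apply]
  have hS1 : ∀ x y, (∑ z ∈ oS y, (Pi.single x (1 : k) : X → k) z) = if x ∈ oS y then 1 else 0 := by
    intro x y
    simp [Pi.single_apply, Finset.sum_ite_eq']
  have hU1 : ∀ x y, (∑ z ∈ orb3 U y, (Pi.single x (1 : k) : X → k) z) =
      if x ∈ orb3 U y then 1 else 0 := by
    intro x y
    simp [Pi.single_apply, Finset.sum_ite_eq']
  refine ⟨fun x => g (sS (Pi.single x 1), 0), fun x => g (0, sU (Pi.single x 1)), fun x => ?_,
    fun x => ?_, fun x => ?_⟩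
  · have : sS (Pi.single (S • x) 1) = sS (Pi.single x 1) := by
      funext y
      change (∑ z ∈ oS y, (Pi.single (S • x) (1 : k) : X → k) z) =
        ∑ z ∈ oS y, (Pi.single x (1 : k) : X → k) z
      rw [hS1, hS1]
      congr 1
      rw [← hoS', ← hoS' x, hoS, hoS, hS]
      exact propext or_comm
    exact congrArg (fun t => g (t, 0)) this
  · have : sU (Pi.single (U • x) 1) = sU (Pi.single x 1) := by
      funext y
      change (∑ z ∈ orb3 U y, (Pi.single (U • x) (1 : k) : X → k) z) =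
        ∑ z ∈ orb3 U y, (Pi.single x (1 : k) : X → k) z
      rw [hU1, hU1]
      congr 1
      rw [← hoU', ← hoU' x]
      have h3 : U • x ∈ orb3 U x := by rw [mem_orb3]; tauto
      rw [orb3_eq_of_mem hU h3]
    exact congrArg (fun t => g (0, t)) this
  · rw [← hsing, hdec]

end graph

section main

variable {Γ : Subgroup SL(2, ℤ)} [Γ.FiniteIndex]

/-- parabolic elements are conjugate to `± T^n` -/
lemma exists_conj_T (γ : SL(2, ℤ)) (h : (γ : Matrix (Fin 2) (Fin 2) ℤ).trace ^ 2 = 4) :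
    ∃ (z : SL(2, ℤ)) (n : ℤ), z * γ * z⁻¹ = T ^ n ∨ z * γ * z⁻¹ = -T ^ n := by
  suffices h1 : ∃ δ : SL(2, ℤ), (δ⁻¹ * γ * δ) 1 0 = 0 by
    obtain ⟨δ, hδ⟩ := h1
    refine ⟨δ⁻¹, ?_⟩
    rw [inv_inv]
    set k := δ⁻¹ * γ * δ with hk
    have hd : k 0 0 * k 1 1 - k 0 1 * k 1 0 = 1 := by
      have := k.det_coe
      rwa [Matrix.det_fin_two] at this
    rw [hδ, mul_zero, sub_zero] at hd
    rcases Int.mul_eq_one_iff_eq_one_or_neg_one.mp hd with ⟨e1, e2⟩ | ⟨e1, e2⟩
    · refine ⟨k 0 1, Or.inl ?_⟩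
      apply Subtype.ext
      rw [ModularGroup.coe_T_zpow]
      ext i j
      fin_cases i <;> fin_cases j
      · exact e1
      · rfl
      · exact hδ
      · exact e2
    · refine ⟨-k 0 1, Or.inr ?_⟩
      apply Subtype.ext
      rw [Matrix.SpecialLinearGroup.coe_neg, ModularGroup.coe_T_zpow]
      ext i j
      fin_cases i <;> fin_cases j
      · simpa using e1
      · simp
      · simpa using hδ
      · simpa using e2
  have hdet : γ 0 0 * γ 1 1 - γ 0 1 * γ 1 0 = 1 := by
    have := γ.det_coe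
    rwa [Matrix.det_fin_two] at this
  rw [Matrix.trace_fin_two] at h
  obtain ⟨ε, hε, htr⟩ : ∃ ε : ℤ, ε ^ 2 = 1 ∧ γ 0 0 + γ 1 1 = 2 * ε := by
    have h2 : (γ 0 0 + γ 1 1 - 2) * (γ 0 0 + γ 1 1 + 2) = 0 := by linarith
    rcases mul_eq_zero.mp h2 with h3 | h3
    · exact ⟨1, by norm_num, by linarith⟩
    · exact ⟨-1, by norm_num, by linarith⟩
  by_cases hc : γ 1 0 = 0
  · exact ⟨1, by simpa using hc⟩
  · set a := γ 0 0 - ε with ha
    set c := γ 1 0 with hcdef
    have hg : (Int.gcd a c : ℤ) ≠ 0 := by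
      intro h0
      exact hc (Int.gcd_eq_zero_iff.mp (by exact_mod_cast h0)).2
    obtain ⟨p, r, hpr, hp, hr⟩ := Int.exists_gcd_one (m := a) (n := c)
      (Nat.pos_of_ne_zero (by exact_mod_cast hg))
    rw [mul_comm] at hp hr
    have hcop : IsCoprime p r := Int.isCoprime_iff_gcd_eq_one.mpr hpr
    obtain ⟨δ, hδ0, hδ1⟩ := hcop.exists_SL2_col 0
    refine ⟨δ, ?_⟩
    have hinv0 : δ⁻¹ 1 0 = - r := by
      rw [Matrix.SpecialLinearGroup.SL2_inv_expl, ← hδ1]; rfl
    have hinv1 : δ⁻¹ 1 1 = p := by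
      rw [Matrix.SpecialLinearGroup.SL2_inv_expl, ← hδ0]; rfl
    have slm : ∀ (g h : SL(2, ℤ)) (i j : Fin 2), (g * h) i j = g i 0 * h 0 j + g i 1 * h 1 j := by
      intro g h i j
      simp [Matrix.mul_apply, Fin.sum_univ_two]
    rw [slm, slm, slm, hinv0, hinv1, hδ0, hδ1]
    have h5 : (Int.gcd a c : ℤ) ^ 2 * ((-r * γ 0 0 + p * γ 1 0) * p + (-r * γ 0 1 + p * γ 1 1) * r) = 0 := by
      have h6 : (Int.gcd a c : ℤ) ^ 2 * ((-r * γ 0 0 + p * γ 1 0) * p + (-r * γ 0 1 + p * γ 1 1) * r) =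
          (- (Int.gcd a c * r) * γ 0 0 + (Int.gcd a c * p) * γ 1 0) * (Int.gcd a c * p) +
          (- (Int.gcd a c * r) * γ 0 1 + (Int.gcd a c * p) * γ 1 1) * (Int.gcd a c * r) := by ring
      rw [h6, ← hp, ← hr]
      have hd : γ 1 1 = 2 * ε - γ 0 0 := by linarith
      rw [hd] at hdet ⊢
      rw [ha, ← hcdef]
      linear_combination c * hdet - c * hε
    exact (mul_eq_zero.mp h5).resolve_left (pow_ne_zero 2 hg)

lemma neg_smul_X (h1 : -1 ∈ Γ) (x : SL(2, ℤ) ⧸ Γ) : (-1 : SL(2, ℤ)) • x = x := by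
  obtain ⟨y, rfl⟩ := QuotientGroup.mk_surjective x
  change (QuotientGroup.mk (-1 * y) : SL(2, ℤ) ⧸ Γ) = QuotientGroup.mk y
  rw [QuotientGroup.eq]
  have : (-1 * y)⁻¹ * y = -1 := by
    rw [inv_mul_eq_iff_eq_mul]; simp
  rw [this]; exact h1

lemma closure_SU : Subgroup.closure ({S, U} : Set SL(2, ℤ)) = ⊤ := by
  rw [eq_top_iff, ← closure_ST_eq, Subgroup.closure_le]
  have hS : S ∈ Subgroup.closure ({S, U} : Set SL(2, ℤ)) :=
    Subgroup.subset_closure (by simp)
  have hU : U ∈ Subgroup.closure ({S, U} : Set SL(2, ℤ)) :=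
    Subgroup.subset_closure (by simp)
  rintro x (rfl | rfl)
  · exact hS
  · change T ∈ Subgroup.closure ({S, U} : Set SL(2, ℤ))
    rw [T_eq]; exact mul_mem hU (inv_mem hS)

/-- homomorphisms from cycles -/
theorem exists_of_cycle {A : Type*} [AddCommGroup A] {Γ : Subgroup SL(2, ℤ)} (h1 : -1 ∈ Γ)
    (F : SL(2, ℤ) → A) (hinv : Inv Γ F) (hS : ∀ y, F (S * y) = -F y)
    (hU : ∀ y, F y + F (U * y) + F (U * (U * y)) = 0) :
    ∃ φ h : SL(2, ℤ) → A, PH Γ φ ∧ IsH Γ φ h ∧ ∀ y, dS h y = F y := by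
  have hneg : ∀ y, F (-y) = F y := fun y => by rw [neg_eq_mul]; exact hinv y _ h1
  obtain ⟨h, hhneg, hhS, hhU⟩ := integrate F F hneg hneg
    (fun y => by rw [hS]; abel) hU
  have hconst : ∀ γ ∈ Γ, ∀ y, h (y * γ) - h y = h (1 * γ) - h 1 := by
    intro γ hγ y
    refine const_of_gen (fun y => h (y * γ) - h y) (fun y => ?_) (fun y => ?_) y
    · rw [mul_assoc, hhS, hhS, hinv y γ hγ]; abel
    · rw [mul_assoc, hhU, hhU, hinv y γ hγ]; abel
  have hT : ∀ y, h (T * y) = h y := by
    intro y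
    have e1 : T * y = U * (S * (-y)) := by rw [U, mul_assoc, SS_mul, neg_neg]
    rw [e1, hhU, hhS, hhneg, hS, hneg]; abel
  have hr : ∀ y, ∀ γ ∈ Γ, h (y * γ) = h y + (h γ - h 1) := by
    intro y γ hγ
    have := hconst γ hγ y
    rw [one_mul] at this
    rw [← this]; abel
  refine ⟨fun g => h g - h 1, h, ⟨?_, ?_⟩, ⟨hT, hr⟩, fun y => by rw [dS, hhS]; abel⟩
  · intro g hg g' hg'
    rw [hr g g' hg']; abel
  · -- parabolic elements
    intro g hg ht
    have hTn : ∀ (n : ℤ) y, h (T ^ n * y) = h y := by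
      intro n
      induction n using Int.induction_on with
      | zero => intro y; simp
      | succ n ih => intro y; rw [add_comm, zpow_add, zpow_one, mul_assoc, hT, ih]
      | pred n ih =>
        intro y
        have h1 := hT (T ^ (-(n : ℤ) - 1) * y)
        rw [← mul_assoc, ← zpow_one_add] at h1
        have h2 : (1 : ℤ) + (-(n : ℤ) - 1) = -(n : ℤ) := by ring
        rw [h2, ih] at h1
        exact h1.symm
    -- `g` is conjugate to `± T^n`
    obtain ⟨z, n, hz⟩ := exists_conj_T g ht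
    rcases hz with hz | hz
    · have e : z * g = T ^ n * z := by rw [← hz]; group
      have := hr z g hg
      rw [e, hTn] at this
      simpa using this
    · have e : z * g = -(T ^ n * z) := by
        have : z * g = (z * g * z⁻¹) * z := by group
        rw [this, hz, neg_mul]
      have := hr z g hg
      rw [e, hhneg, hTn] at this
      simpa using this

/-- **Nondegeneracy** modulo odd primes -/
theorem PP_nondeg (h1 : -1 ∈ Γ) {p : ℕ} (hp : p.Prime) (hp2 : p ≠ 2) {ψ : SL(2, ℤ) → ℤ}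
    (hψ : PH Γ ψ) (H : ∀ φ : SL(2, ℤ) → ℤ, PH Γ φ → (p : ℤ) ∣ PP Γ φ ψ) :
    ∀ γ ∈ Γ, (p : ℤ) ∣ ψ γ := by
  classical
  have : Fact p.Prime := ⟨hp⟩
  letI : Fintype (SL(2, ℤ) ⧸ Γ) := Fintype.ofFinite _
  have h2 : (2 : ZMod p) ≠ 0 := by
    intro h
    have h3 : ((2 : ℕ) : ZMod p) = 0 := by exact_mod_cast h
    rw [ZMod.natCast_eq_zero_iff] at h3
    exact hp2 ((Nat.prime_dvd_prime_iff_eq hp Nat.prime_two).mp h3)
  obtain ⟨k, hk⟩ := exists_IsK six_torsion hψ
  have hkneg := map_neg_of_right h1 (hψ.map_neg_one h1) hk.right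
  have hkinv := dS_inv hk.right
  have hS : ∀ x : SL(2, ℤ) ⧸ Γ, S • S • x = x := by
    intro x
    rw [← mul_smul, S_sq]; exact neg_smul_X h1 x
  have hU : ∀ x : SL(2, ℤ) ⧸ Γ, U • U • U • x = x := by
    intro x
    have e : U • U • U • x = (U * U * U : SL(2, ℤ)) • x := by
      rw [mul_smul (U * U) U x, mul_smul U U (U • x)]
    rw [e, U_cube]; exact neg_smul_X h1 x
  set Λ : SL(2, ℤ) ⧸ Γ → ZMod p := fun x => ((dS k x.out : ℤ) : ZMod p) with hΛdef
  have hΛmk : ∀ y : SL(2, ℤ), Λ (QuotientGroup.mk y) = ((dS k y : ℤ) : ZMod p) := by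
    intro y
    simp only [hΛdef]
    rw [hkinv.out]
  obtain ⟨s, u, hs, hu, hsu⟩ := exists_decomp_of_perp (G := SL(2, ℤ)) (S := S) (U := U) hS hU Λ (by
    intro f f1 f2 f3 f4
    obtain ⟨F, F1, F2, F3⟩ := lift_cycle' (G := SL(2, ℤ)) closure_SU hS hU
      (QuotientGroup.mk 1 : SL(2, ℤ) ⧸ Γ) f f1 f2 f3 f4
    obtain ⟨φ, h, hφ, hh, hF⟩ := exists_of_cycle (Γ := Γ) h1
      (fun y => F (QuotientGroup.mk y))
      (fun y g hg => by
        change F (QuotientGroup.mk (y * g)) = F (QuotientGroup.mk y)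
        rw [QuotientGroup.mk_mul_of_mem y hg])
      (fun y => F2 (QuotientGroup.mk y)) (fun y => F3 (QuotientGroup.mk y))
    obtain ⟨m, hm⟩ := H φ hφ
    rw [PP_eq h1 hφ hψ hh hk, Pair] at hm
    have e1 : ((SX Γ (fun y => dS h y * dS k y) : ℤ) : ZMod p) = 0 := by
      rw [hm]; push_cast; simp
    rw [SX, finsum_eq_sum_of_fintype] at e1
    rw [← e1]
    push_cast
    refine Finset.sum_congr rfl fun x _ => ?_
    rw [hF, QuotientGroup.out_eq', F1])
  -- conclude
  have hG : ∀ y, ((dS k y : ℤ) : ZMod p) = s (QuotientGroup.mk y) + u (QuotientGroup.mk y) := by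
    intro y
    rw [← hΛmk, hsu]
  have hs' : ∀ y : SL(2, ℤ), s (QuotientGroup.mk (S * y)) = s (QuotientGroup.mk y) :=
    fun y => hs (QuotientGroup.mk y)
  have hu' : ∀ y : SL(2, ℤ), u (QuotientGroup.mk (U * y)) = u (QuotientGroup.mk y) :=
    fun y => hu (QuotientGroup.mk y)
  set v : SL(2, ℤ) → ZMod p := fun y => 2 * ((k y : ℤ) : ZMod p) + u (QuotientGroup.mk y) with hv
  have hvU : ∀ y, v (U * y) = v y := by
    intro y
    simp only [hv, hk.left, hu']
  have hvS : ∀ y, v (S * y) = v y := by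
    intro y
    have e1 := hG y
    have e2 := hG (S * y)
    rw [dS_S hkneg, hs'] at e2
    have e3 : ((k (S * y) : ℤ) : ZMod p) = ((k y : ℤ) : ZMod p) + ((dS k y : ℤ) : ZMod p) := by
      rw [dS]; push_cast; ring
    simp only [hv]
    rw [e3]
    push_cast at e2
    linear_combination e1 - e2
  intro γ hγ
  rw [← ZMod.intCast_zmod_eq_zero_iff_dvd]
  have e4 := const_of_gen v hvS hvU γ
  simp only [hv] at e4
  have e5 : (QuotientGroup.mk γ : SL(2, ℤ) ⧸ Γ) = QuotientGroup.mk 1 :=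
    QuotientGroup.eq.mpr (by simpa using inv_mem hγ)
  have e6 := hk.right 1 γ hγ
  rw [one_mul] at e6
  rw [e5, e6] at e4
  push_cast at e4
  have e7 : (2 : ZMod p) * ((ψ γ : ℤ) : ZMod p) = 0 := by linear_combination e4
  exact (mul_eq_zero.mp e7).resolve_left h2

end main

end

end Fermat.Agent.LevelRaise
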