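import Fermat.Agent.LevelRaise.ConjInv
import Fermat.Agent.LevelRaise.Nondeg
import Fermat.Agent.ALCoh.Ident2

set_option autoImplicit false

/-!
# Adjointness of degeneracy maps, Atkin–Lehner and Hecke operators
-/

open Matrix.SpecialLinearGroup CongruenceSubgroup
open scoped MatrixGroups
open ModularGroup (S T)
open ModularCurve ModularCurve.Period
open Fermat.Agent.AL Fermat.Agent.ALCoh

namespace Fermat.Agent.LevelRaise

noncomputable section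

section basic

variable {R : Type*} [CommRing R] [IsAddTorsionFree R] {Γ : Subgroup SL(2, ℤ)} [Γ.FiniteIndex]
  {φ φ' ψ ψ' : SL(2, ℤ) → R}

lemma IsH.congr {A : Type*} [AddCommGroup A] {Γ : Subgroup SL(2, ℤ)} {φ φ' h : SL(2, ℤ) → A}
    (hh : IsH Γ φ h) (e : ∀ g ∈ Γ, φ g = φ' g) : IsH Γ φ' h :=
  ⟨hh.left, fun y γ hγ => by rw [hh.right y γ hγ, e γ hγ]⟩

lemma IsK.congr {A : Type*} [AddCommGroup A] {Γ : Subgroup SL(2, ℤ)} {φ φ' h : SL(2, ℤ) → A}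
    (hh : IsK Γ φ h) (e : ∀ g ∈ Γ, φ g = φ' g) : IsK Γ φ' h :=
  ⟨hh.left, fun y γ hγ => by rw [hh.right y γ hγ, e γ hγ]⟩

theorem PP_congr (h1 : -1 ∈ Γ) (hφ : PH Γ φ) (hψ : PH Γ ψ) (hφ' : PH Γ φ') (hψ' : PH Γ ψ')
    (e : ∀ g ∈ Γ, φ g = φ' g) (e' : ∀ g ∈ Γ, ψ g = ψ' g) : PP Γ φ ψ = PP Γ φ' ψ' := by
  obtain ⟨h, hh⟩ := exists_IsH hφ
  obtain ⟨k, hk⟩ := exists_IsK six_torsion hψ
  rw [PP_eq h1 hφ hψ hh hk, PP_eq h1 hφ' hψ' (hh.congr e) (hk.congr e')]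

theorem PP_add_left (h1 : -1 ∈ Γ) (hφ : PH Γ φ) (hφ' : PH Γ φ') (hψ : PH Γ ψ) :
    PP Γ (fun g => φ g + φ' g) ψ = PP Γ φ ψ + PP Γ φ' ψ := by
  obtain ⟨h, hh⟩ := exists_IsH hφ
  obtain ⟨h', hh'⟩ := exists_IsH hφ'
  obtain ⟨k, hk⟩ := exists_IsK six_torsion hψ
  have hsum : PH Γ (fun g => φ g + φ' g) :=
    ⟨fun a ha b hb => by rw [hφ.mul a ha b hb, hφ'.mul a ha b hb]; ring,
      fun a ha ht => by rw [hφ.par a ha ht, hφ'.par a ha ht, add_zero]⟩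
  have hH : IsH Γ (fun g => φ g + φ' g) (fun y => h y + h' y) :=
    ⟨fun y => by rw [hh.left, hh'.left], fun y γ hγ => by
      rw [hh.right y γ hγ, hh'.right y γ hγ]; ring⟩
  rw [PP_eq h1 hφ hψ hh hk, PP_eq h1 hφ' hψ hh' hk, PP_eq h1 hsum hψ hH hk, Pair, Pair, Pair,
    ← SX_add]
  refine SX_congr fun y => ?_
  simp only [dS]; ring

theorem PP_add_right (h1 : -1 ∈ Γ) (hφ : PH Γ φ) (hψ : PH Γ ψ) (hψ' : PH Γ ψ') :
    PP Γ φ (fun g => ψ g + ψ' g) = PP Γ φ ψ + PP Γ φ ψ' := by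
  obtain ⟨h, hh⟩ := exists_IsH hφ
  obtain ⟨k, hk⟩ := exists_IsK six_torsion hψ
  obtain ⟨k', hk'⟩ := exists_IsK six_torsion hψ'
  have hsum : PH Γ (fun g => ψ g + ψ' g) :=
    ⟨fun a ha b hb => by rw [hψ.mul a ha b hb, hψ'.mul a ha b hb]; ring,
      fun a ha ht => by rw [hψ.par a ha ht, hψ'.par a ha ht, add_zero]⟩
  have hK : IsK Γ (fun g => ψ g + ψ' g) (fun y => k y + k' y) :=
    ⟨fun y => by rw [hk.left, hk'.left], fun y γ hγ => by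
      rw [hk.right y γ hγ, hk'.right y γ hγ]; ring⟩
  rw [PP_eq h1 hφ hψ hh hk, PP_eq h1 hφ hψ' hh hk', PP_eq h1 hφ hsum hh hK, Pair, Pair, Pair,
    ← SX_add]
  refine SX_congr fun y => ?_
  simp only [dS]; ring

/-- change of rings -/
theorem PP_map {R' : Type*} [CommRing R'] [IsAddTorsionFree R'] (u : R →+* R') (h1 : -1 ∈ Γ)
    (hφ : PH Γ φ) (hψ : PH Γ ψ) :
    u (PP Γ φ ψ) = PP Γ (fun g => u (φ g)) (fun g => u (ψ g)) := by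
  obtain ⟨h, hh⟩ := exists_IsH hφ
  obtain ⟨k, hk⟩ := exists_IsK six_torsion hψ
  have hH : IsH Γ (fun g => u (φ g)) (fun y => u (h y)) :=
    ⟨fun y => by rw [hh.left], fun y γ hγ => by rw [hh.right y γ hγ, map_add]⟩
  have hK : IsK Γ (fun g => u (ψ g)) (fun y => u (k y)) :=
    ⟨fun y => by rw [hk.left], fun y γ hγ => by rw [hk.right y γ hγ, map_add]⟩
  have hφ' : PH Γ (fun g => u (φ g)) := hφ.comp u.toAddMonoidHom
  have hψ' : PH Γ (fun g => u (ψ g)) := hψ.comp u.toAddMonoidHom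
  rw [PP_eq h1 hφ hψ hh hk, PP_eq h1 hφ' hψ' hH hK, Pair, Pair]
  refine (SX_map u.toAddMonoidHom _).trans (SX_congr fun y => ?_)
  simp only [dS, RingHom.toAddMonoidHom_eq_coe, AddMonoidHom.coe_coe, map_mul, map_sub]

end basic

/-- antisymmetry -/
theorem PP_antisymm {R : Type*} [Field R] [CharZero R] {Γ : Subgroup SL(2, ℤ)} [Γ.FiniteIndex]
    {φ ψ : SL(2, ℤ) → R} (h1 : -1 ∈ Γ) (hφ : PH Γ φ) (hψ : PH Γ ψ) :
    PP Γ ψ φ = -PP Γ φ ψ := by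
  obtain ⟨η, hη⟩ := exists_eta h1 hφ hψ
  have hη' : IsEta Γ ψ φ (fun g => φ g * ψ g - η g) := by
    intro g hg h hh
    simp only
    rw [hη g hg h hh, hφ.mul g hg h hh, hψ.mul g hg h hh]; ring
  obtain ⟨M, hM, hMy⟩ := exists_uniform_pow Γ
  have hMR : (M : R) ≠ 0 := by exact_mod_cast hM.ne'
  have e1 := PP_eta h1 hφ hψ hη (hMy T)
  have e2 := PP_eta h1 hψ hφ hη' (hMy T)
  apply mul_left_cancel₀ hMR
  rw [e2, mul_neg, e1]
  have e3 : SX Γ (fun y => φ (y⁻¹ * T ^ M * y) * ψ (y⁻¹ * T ^ M * y) - η (y⁻¹ * T ^ M * y)) =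
      - SX Γ (fun y => η (y⁻¹ * T ^ M * y)) := by
    rw [← SX_neg]
    refine SX_congr fun y => ?_
    rw [hφ.par _ (hMy T y) (by rw [trace_conj_inv, ← zpow_natCast, trace_T_pow]; norm_num)]
    ring
  rw [e3]; ring

lemma SX_reps {H : Type*} [Group H] {R : Type*} [AddCommGroup R] {K : Subgroup H} {f : H → R}
    (hf : Inv K f) {ι : Type*} [Fintype ι] (r : ι → H) (inj : ∀ i j, (r i)⁻¹ * r j ∈ K → i = j)
    (surj : ∀ y, ∃ i, (r i)⁻¹ * y ∈ K) : SX K f = ∑ i, f (r i) := by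
  let e : ι → H ⧸ K := fun i => QuotientGroup.mk (r i)
  have he : Function.Bijective e := by
    constructor
    · intro i j hij
      exact inj i j (QuotientGroup.eq.mp hij)
    · intro x
      obtain ⟨y, rfl⟩ := QuotientGroup.mk_surjective x
      obtain ⟨i, hi⟩ := surj y
      exact ⟨i, QuotientGroup.eq.mpr hi⟩
  have h0 := finsum_comp_equiv (Equiv.ofBijective e he) (f := fun x => f x.out)
  rw [SX, ← h0, finsum_eq_sum_of_fintype]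
  refine Finset.sum_congr rfl fun i _ => ?_
  exact hf.out_eq _ _ rfl

/-- **restriction and transfer are adjoint** -/
theorem PP_res_tr {R : Type*} [CommRing R] [IsAddTorsionFree R] {Γ Γ' : Subgroup SL(2, ℤ)}
    [Γ.FiniteIndex] [Γ'.FiniteIndex] (hle : Γ' ≤ Γ) (h1' : -1 ∈ Γ') {ι : Type*} [Fintype ι]
    (r : ι → SL(2, ℤ)) (hr : ∀ i, r i ∈ Γ) (inj : ∀ i j, r i * (r j)⁻¹ ∈ Γ' → i = j)
    (surj : ∀ γ ∈ Γ, ∃ i, γ * (r i)⁻¹ ∈ Γ')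
    {φ ψ ψ' : SL(2, ℤ) → R} (hφ : PH Γ φ) (hψ : PH Γ' ψ) (hψ' : PH Γ ψ')
    (htr : ∀ γ ∈ Γ, ∃ (σ : Equiv.Perm ι) (g : ι → SL(2, ℤ)),
      (∀ i, g i ∈ Γ' ∧ r i * γ = g i * r (σ i)) ∧ ψ' γ = ∑ i, ψ (g i)) :
    PP Γ' φ ψ = PP Γ φ ψ' := by
  obtain ⟨h, hh⟩ := exists_IsH hφ
  obtain ⟨k, hk⟩ := exists_IsK six_torsion hψ
  have hh' : IsH Γ' φ h := ⟨hh.left, fun y γ hγ => hh.right y γ (hle hγ)⟩
  have hk' : IsK Γ ψ' (fun y => ∑ i, k (y * (r i)⁻¹)) := by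
    refine ⟨fun y => Finset.sum_congr rfl fun i _ => by rw [mul_assoc, hk.left], fun y γ hγ => ?_⟩
    obtain ⟨σ, g, hg, hsum⟩ := htr γ hγ
    have e1 : ∀ i, k (y * γ * (r (σ i))⁻¹) = k (y * (r i)⁻¹) + ψ (g i) := by
      intro i
      have : y * γ * (r (σ i))⁻¹ = y * (r i)⁻¹ * g i := by
        have h2 : γ = (r i)⁻¹ * (g i * r (σ i)) := by rw [← (hg i).2]; group
        rw [h2]; group
      rw [this, hk.right _ _ (hg i).1]
    rw [hsum, ← Finset.sum_add_distrib, ← Equiv.sum_comp σ]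
    exact Finset.sum_congr rfl fun i _ => e1 i
  rw [PP_eq (hle h1') hφ hψ' hh hk', PP_eq h1' (hφ.mono hle) hψ hh' hk, Pair, Pair]
  have hinv : Inv Γ' (fun y => dS h y * dS k y) := by
    intro y γ hγ
    change dS h (y * γ) * dS k (y * γ) = dS h y * dS k y
    rw [dS_inv hh'.right y γ hγ, dS_inv hk.right y γ hγ]
  rw [SX_tower hle hinv]
  refine SX_congr fun y => ?_
  rw [SX_reps (SX_subgroupOf_inv (L := Γ) hinv y) (fun i => (⟨(r i)⁻¹, inv_mem (hr i)⟩ : Γ))]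
  · rw [dS, dS, ← Finset.sum_sub_distrib, Finset.mul_sum]
    refine Finset.sum_congr rfl fun i _ => ?_
    have e2 : h (S * y) - h y = dS h (y * (r i)⁻¹) :=
      (dS_inv hh.right y _ (inv_mem (hr i))).symm
    rw [e2]
    simp only [dS, mul_assoc]
  · intro i j hij
    apply inj i j
    have := Subgroup.mem_subgroupOf.mp hij
    simpa using this
  · intro γ
    obtain ⟨i, hi⟩ := surj (γ : SL(2, ℤ))⁻¹ (inv_mem γ.2)
    refine ⟨i, ?_⟩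
    rw [Subgroup.mem_subgroupOf]
    have := inv_mem hi
    simpa using this

/-! ### homomorphisms -/

open Classical in
/-- homomorphisms as functions -/
def fnG {A : Type*} [AddCommGroup A] {Γ : Subgroup SL(2, ℤ)} (φ : Additive Γ →+ A)
    (g : SL(2, ℤ)) : A := if h : g ∈ Γ then φ (Additive.ofMul ⟨g, h⟩) else 0

section fnG

variable {A : Type*} [AddCommGroup A] {Γ : Subgroup SL(2, ℤ)}

lemma fnG_of_mem (φ : Additive Γ →+ A) {g : SL(2, ℤ)} (h : g ∈ Γ) :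
    fnG φ g = φ (Additive.ofMul ⟨g, h⟩) := by
  rw [fnG, dif_pos h]

lemma fnG_coe (φ : Additive Γ →+ A) (g : Γ) : fnG φ (g : SL(2, ℤ)) = φ (Additive.ofMul g) :=
  fnG_of_mem φ g.2

lemma PH_fnG {φ : Additive Γ →+ A} (hφ : IsParabolicHom Γ φ) : PH Γ (fnG φ) := by
  refine ⟨fun g hg h hh => ?_, fun g hg ht => ?_⟩
  · rw [fnG_of_mem φ hg, fnG_of_mem φ hh, fnG_of_mem φ (mul_mem hg hh), ← map_add, ← ofMul_mul]
    rfl
  · rw [fnG_of_mem φ hg]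
    exact hφ ⟨g, hg⟩ ht

lemma fnG_add (φ ψ : Additive Γ →+ A) : fnG (φ + ψ) = fun g => fnG φ g + fnG ψ g := by
  funext g
  by_cases h : g ∈ Γ
  · rw [fnG_of_mem _ h, fnG_of_mem _ h, fnG_of_mem _ h]; rfl
  · simp [fnG, h]

/-- the homomorphism defined by a function -/
def ofPH {φ : SL(2, ℤ) → A} (hφ : PH Γ φ) : Additive Γ →+ A where
  toFun g := φ (Additive.toMul g : Γ)
  map_zero' := hφ.map_one
  map_add' g h := hφ.mul _ (Additive.toMul g : Γ).2 _ (Additive.toMul h : Γ).2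

lemma isParabolicHom_ofPH {φ : SL(2, ℤ) → A} (hφ : PH Γ φ) : IsParabolicHom Γ (ofPH hφ) :=
  fun g ht => hφ.par _ g.2 ht

lemma fnG_ofPH {φ : SL(2, ℤ) → A} (hφ : PH Γ φ) {g : SL(2, ℤ)} (hg : g ∈ Γ) :
    fnG (ofPH hφ) g = φ g := by
  rw [fnG_of_mem _ hg]; rfl

end fnG

/-- the pairing on homomorphisms -/
def QP {Γ : Subgroup SL(2, ℤ)} (φ ψ : Additive Γ →+ ℤ) : ℤ := PP Γ (fnG φ) (fnG ψ)

section QP

variable {Γ : Subgroup SL(2, ℤ)} [Γ.FiniteIndex] {φ φ' ψ ψ' : Additive Γ →+ ℤ}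

theorem QP_add_left (h1 : -1 ∈ Γ) (hφ : IsParabolicHom Γ φ) (hφ' : IsParabolicHom Γ φ')
    (hψ : IsParabolicHom Γ ψ) : QP (φ + φ') ψ = QP φ ψ + QP φ' ψ := by
  rw [QP, fnG_add, PP_add_left h1 (PH_fnG hφ) (PH_fnG hφ') (PH_fnG hψ)]; rfl

theorem QP_add_right (h1 : -1 ∈ Γ) (hφ : IsParabolicHom Γ φ) (hψ : IsParabolicHom Γ ψ)
    (hψ' : IsParabolicHom Γ ψ') : QP φ (ψ + ψ') = QP φ ψ + QP φ ψ' := by
  rw [QP, fnG_add, PP_add_right h1 (PH_fnG hφ) (PH_fnG hψ) (PH_fnG hψ')]; rfl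

theorem QP_antisymm (h1 : -1 ∈ Γ) (hφ : IsParabolicHom Γ φ) (hψ : IsParabolicHom Γ ψ) :
    QP ψ φ = -QP φ ψ := by
  have e1 := PP_map (Int.castRingHom ℚ) h1 (PH_fnG hφ) (PH_fnG hψ)
  have e2 := PP_map (Int.castRingHom ℚ) h1 (PH_fnG hψ) (PH_fnG hφ)
  have e3 := PP_antisymm h1 ((PH_fnG hφ).comp (Int.castRingHom ℚ).toAddMonoidHom)
    ((PH_fnG hψ).comp (Int.castRingHom ℚ).toAddMonoidHom)
  have e4 : (Int.castRingHom ℚ) (PP Γ (fnG ψ) (fnG φ)) =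
      -(Int.castRingHom ℚ) (PP Γ (fnG φ) (fnG ψ)) := by
    rw [e1, e2]; exact e3
  have e5 : ((QP ψ φ : ℤ) : ℚ) = ((-QP φ ψ : ℤ) : ℚ) := by
    push_cast; exact e4
  exact_mod_cast e5

/-- nondegeneracy, right variable -/
theorem QP_nondeg_right (h1 : -1 ∈ Γ) {p : ℕ} (hp : p.Prime) (hp2 : p ≠ 2)
    (hψ : IsParabolicHom Γ ψ) (H : ∀ φ : Additive Γ →+ ℤ, IsParabolicHom Γ φ → (p : ℤ) ∣ QP φ ψ) :
    ∀ γ, (p : ℤ) ∣ ψ γ := by
  have := PP_nondeg h1 hp hp2 (PH_fnG hψ) (fun φ hφ => by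
    have e1 := H (ofPH hφ) (isParabolicHom_ofPH hφ)
    have e2 : QP (ofPH hφ) ψ = PP Γ φ (fnG ψ) :=
      PP_congr h1 (PH_fnG (isParabolicHom_ofPH hφ)) (PH_fnG hψ) hφ (PH_fnG hψ)
        (fun g hg => fnG_ofPH hφ hg) (fun _ _ => rfl)
    rwa [e2] at e1)
  intro γ
  have h2 := this (Additive.toMul γ : Γ) (Additive.toMul γ : Γ).2
  rw [fnG_coe] at h2
  exact h2

/-- nondegeneracy, left variable -/
theorem QP_nondeg_left (h1 : -1 ∈ Γ) {p : ℕ} (hp : p.Prime) (hp2 : p ≠ 2)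
    (hφ : IsParabolicHom Γ φ) (H : ∀ ψ : Additive Γ →+ ℤ, IsParabolicHom Γ ψ → (p : ℤ) ∣ QP φ ψ) :
    ∀ γ, (p : ℤ) ∣ φ γ :=
  QP_nondeg_right h1 hp hp2 hφ fun ψ hψ => by
    rw [QP_antisymm h1 hφ hψ]
    exact (dvd_neg).mpr (H ψ hψ)

end QP

end

end Fermat.Agent.LevelRaise
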