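import Fermat.Agent.LevelRaise.Adjoint

set_option autoImplicit false

/-!
# Adjointness of degeneracy maps, Atkin–Lehner and Hecke operators, II
-/

open Matrix.SpecialLinearGroup CongruenceSubgroup
open scoped MatrixGroups
open ModularGroup (S T)
open ModularCurve ModularCurve.Period
open Fermat.Agent.AL Fermat.Agent.ALCoh

namespace Fermat.Agent.LevelRaise

noncomputable section

lemma neg_one_mem_GG (N : ℕ) : (-1 : SL(2, ℤ)) ∈ GG N := by
  rw [mem_G0]; simp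

section res

variable {N M : ℕ} [NeZero N] [NeZero M]

omit [NeZero N] [NeZero M] in
lemma GG_le (hMN : M ∣ N) : GG N ≤ GG M := fun γ hγ => mem_G0.mpr
  ((Int.natCast_dvd_natCast.mpr hMN).trans (mem_G0.mp hγ))

omit [NeZero N] [NeZero M] in
lemma fnG_res {A : Type*} [AddCommGroup A] (hMN : M ∣ N) (φ : Additive (GG M) →+ A)
    {g : SL(2, ℤ)} (hg : g ∈ GG N) : fnG ((famRes hMN).op A φ) g = fnG φ g := by
  rw [fnG_of_mem _ hg, fnG_of_mem _ (GG_le hMN hg)]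
  rw [Fam.op_apply_of_tr (famRes hMN) φ ⟨g, hg⟩ (σ := 1) (g := fun _ => ⟨g, GG_le hMN hg⟩)
    (fun _ => by simp)]
  simp

/-- restriction and transfer are adjoint -/
theorem QP_res_tr (hMN : M ∣ N) {φ : Additive (GG M) →+ ℤ} {ψ : Additive (GG N) →+ ℤ}
    (hφ : IsParabolicHom (GG M) φ) (hψ : IsParabolicHom (GG N) ψ) :
    QP ((famRes hMN).op ℤ φ) ψ = QP φ (tr hMN ℤ ψ) := by
  have hres : IsParabolicHom (GG N) ((famRes hMN).op ℤ φ) := isParabolicHom_op _ hφ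
  have htr : IsParabolicHom (GG M) (tr hMN ℤ ψ) := isParabolicHom_op _ hψ
  have e1 : QP ((famRes hMN).op ℤ φ) ψ = PP (GG N) (fnG φ) (fnG ψ) :=
    PP_congr (neg_one_mem_GG N) (PH_fnG hres) (PH_fnG hψ) ((PH_fnG hφ).mono (GG_le hMN))
      (PH_fnG hψ) (fun g hg => fnG_res hMN φ hg) (fun _ _ => rfl)
  rw [e1, QP]
  obtain ⟨n, r, hr⟩ := exists_isReps hMN
  refine PP_res_tr (GG_le hMN) (neg_one_mem_GG N) r hr.mem hr.inj hr.surj (PH_fnG hφ)
    (PH_fnG hψ) (PH_fnG htr) fun γ hγ => ?_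
  have h1 := (famTr hr).tr_elt ⟨γ, hγ⟩
  refine ⟨(famTr hr).perm ⟨γ, hγ⟩, fun i => ((famTr hr).elt ⟨γ, hγ⟩ i : SL(2, ℤ)), fun i =>
    ⟨((famTr hr).elt ⟨γ, hγ⟩ i).2, ?_⟩, ?_⟩
  · apply Subtype.ext
    exact h1 i
  · rw [fnG_of_mem _ hγ, tr_eq hMN hr, Fam.op_apply_of_tr (famTr hr) ψ ⟨γ, hγ⟩ h1]
    exact Finset.sum_congr rfl fun i _ => (fnG_coe _ _).symm

end res

section W

variable {M q : ℕ} (hq : q.Prime) [NeZero (M * q)]

/-- Atkin–Lehner operators preserve the pairing -/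
theorem QP_W {B : M2} (hB : B ∈ WS (M * q) q)
    {φ ψ : Additive (GG (M * q)) →+ ℤ}
    (hφ : IsParabolicHom (GG (M * q)) φ) (hψ : IsParabolicHom (GG (M * q)) ψ) :
    QP ((famW (dvd_mul_left q M) hq.ne_zero hB).op ℤ φ)
      ((famW (dvd_mul_left q M) hq.ne_zero hB).op ℤ ψ) = QP φ ψ := by
  have hqZ : (q : ℤ) ≠ 0 := by exact_mod_cast hq.ne_zero
  obtain ⟨hdet, ⟨a, ha⟩, ⟨c, hc⟩, ⟨d, hd⟩⟩ := id hB
  rw [Matrix.det_fin_two, ha, hc, hd] at hdet
  push_cast at hc hdet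
  have hBdet : B.det ≠ 0 := det_WS_ne hq.ne_zero hB
  -- `B = g₁ δ`
  let g1 : SL(2, ℤ) := ⟨!![a, B 0 1; M * c, q * d], by
    rw [Matrix.det_fin_two_of]
    exact mul_left_cancel₀ hqZ (by linear_combination hdet)⟩
  have hBg : B = (g1 : M2) * dg q := by
    apply mat_ext <;> simp [g1, Matrix.mul_apply, Fin.sum_univ_two]
    · rw [ha]; ring
    · rw [hc]; ring
    · rw [hd]
  have hW := famW (dvd_mul_left q M) hq.ne_zero hB
  have hadj : B.adjugate ∈ WS (M * q) q := adj_mem_WS hB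
  have hW' := famW (dvd_mul_left q M) hq.ne_zero hadj
  let Γ'' : Subgroup SL(2, ℤ) := (GG (M * q)).comap (MulAut.conj g1).toMonoidHom
  have hΓ'' : ∀ x, x ∈ Γ'' ↔ g1 * x * g1⁻¹ ∈ GG (M * q) := fun x => Iff.rfl
  have hfin : Γ''.FiniteIndex := ⟨by
    have := Subgroup.index_comap_of_surjective (GG (M * q)) (f := (MulAut.conj g1).toMonoidHom)
      (MulAut.conj g1).surjective
    rw [this]
    exact Subgroup.FiniteIndex.index_ne_zero⟩
  have hle : GG (M * q) ≤ Gamma0 q := GG_le (dvd_mul_left q M)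
  -- `δ g = dl(g) δ`
  have hdl : ∀ g : Gamma0 q, dg q * ((g : SL(2, ℤ)) : M2) = (dl q g : M2) * dg q := by
    intro g
    have h2 : g.1.1 1 0 / q * q = g.1.1 1 0 := Int.ediv_mul_cancel (mem_G0.mp g.2)
    apply mat_ext <;> simp [dl, Matrix.mul_apply, Fin.sum_univ_two]
    · ring
    · exact h2.symm
  have hBgg : ∀ g : Gamma0 q, B * ((g : SL(2, ℤ)) : M2) = ((g1 * dl q g * g1⁻¹ : SL(2, ℤ)) : M2) * B := by
    intro g
    have e1 : ((g1 * dl q g * g1⁻¹ : SL(2, ℤ)) : M2) * B =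
        ((g1 * dl q g * g1⁻¹ * g1 : SL(2, ℤ)) : M2) * dg q := by
      conv_lhs => rw [hBg]
      rw [Matrix.SpecialLinearGroup.coe_mul _ g1, Matrix.mul_assoc]
    rw [e1, inv_mul_cancel_right, Matrix.SpecialLinearGroup.coe_mul, Matrix.mul_assoc, ← hdl,
      ← Matrix.mul_assoc, ← hBg]
  -- elements of `GG` under the adjugate
  have hback : ∀ ξ ∈ GG (M * q), ∃ g ∈ GG (M * q), (ξ : M2) * B = B * (g : M2) := by
    intro ξ hξ
    obtain ⟨σ, g, hg⟩ := hW'.tr ξ hξ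
    refine ⟨g (), (g ()).2, ?_⟩
    have h1 := hg ()
    have h2 : (q : ℤ) • ((ξ : M2) * B) = (q : ℤ) • (B * ((g () : SL(2, ℤ)) : M2)) := by
      have e2 : B * B.adjugate = (q : ℤ) • 1 := by rw [Matrix.mul_adjugate, hB.1]
      have e3 : B.adjugate * B = (q : ℤ) • 1 := by rw [Matrix.adjugate_mul, hB.1]
      have e4 : B * (B.adjugate * (ξ : M2)) * B = B * (((g () : SL(2, ℤ)) : M2) * B.adjugate) * B := by
        rw [h1]
      have e5 : B * (B.adjugate * (ξ : M2)) * B = (q : ℤ) • ((ξ : M2) * B) := by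
        rw [← Matrix.mul_assoc, e2, Matrix.smul_mul, Matrix.one_mul, Matrix.smul_mul]
      have e6 : B * (((g () : SL(2, ℤ)) : M2) * B.adjugate) * B =
          (q : ℤ) • (B * ((g () : SL(2, ℤ)) : M2)) := by
        rw [Matrix.mul_assoc, Matrix.mul_assoc, e3, Matrix.mul_smul, Matrix.mul_one,
          Matrix.mul_smul]
      rw [← e5, e4, e6]
    exact smul_right_injective M2 hqZ h2
  have hrel : ∀ g : Gamma0 q, (g : SL(2, ℤ)) ∈ GG (M * q) ↔ dl q g ∈ Γ'' := by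
    intro g
    rw [hΓ'']
    constructor
    · intro hg
      obtain ⟨σ, g', hg'⟩ := hW.tr g hg
      have e1 : (g1 * dl q g * g1⁻¹ : SL(2, ℤ)) = (g' () : SL(2, ℤ)) := by
        apply Subtype.ext
        apply mul_right_cancel_det hBdet
        rw [← hBgg]
        exact hg' ()
      rw [e1]; exact (g' ()).2
    · intro hξ
      obtain ⟨g', hg', e⟩ := hback _ hξ
      rw [← hBgg] at e
      have e1 : (g : SL(2, ℤ)) = g' := Subtype.ext (mul_left_cancel_det hBdet e)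
      rw [e1]; exact hg'
  have hup : Γ'' ≤ Gup q := by
    intro x hx
    rw [hΓ''] at hx
    obtain ⟨g', hg', e⟩ := hback _ hx
    rw [mem_Gup]
    -- `x δ = δ g'`
    have e1 : (x : M2) * dg q = dg q * (g' : M2) := by
      have e2 : (g1 : M2) * ((x : M2) * dg q) = (g1 : M2) * (dg q * (g' : M2)) := by
        have e3 : ((g1 * x * g1⁻¹ : SL(2, ℤ)) : M2) * B = (g1 : M2) * ((x : M2) * dg q) := by
          conv_lhs => rw [hBg]
          rw [← Matrix.mul_assoc, ← Matrix.SpecialLinearGroup.coe_mul, inv_mul_cancel_right,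
            Matrix.SpecialLinearGroup.coe_mul, Matrix.mul_assoc]
        rw [← e3, e]
        conv_lhs => rw [hBg]
        rw [Matrix.mul_assoc]
      exact mul_left_cancel_det (by rw [g1.det_coe]; exact one_ne_zero) e2
    have e2 := congrFun (congrFun e1 0) 1
    simp [Matrix.mul_apply, Fin.sum_univ_two] at e2
    exact ⟨_, e2⟩
  have hneg : (-1 : SL(2, ℤ)) ∈ Γ'' := by
    rw [hΓ'']
    simpa using neg_one_mem_GG (M * q)
  -- values
  have hval : ∀ (φ : Additive (GG (M * q)) →+ ℤ) (g : Gamma0 q), (g : SL(2, ℤ)) ∈ GG (M * q) →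
      fnG ((famW (dvd_mul_left q M) hq.ne_zero hB).op ℤ φ) g = fnG φ (g1 * dl q g * g1⁻¹) := by
    intro φ g hg
    have hg2 := (hΓ'' _).mp ((hrel g).mp hg)
    rw [fnG_of_mem _ hg, fnG_of_mem _ hg2]
    rw [Fam.op_apply_of_tr _ φ ⟨g, hg⟩ (σ := 1) (g := fun _ => ⟨_, hg2⟩) (fun _ => hBgg g)]
    simp
  -- pass to `ℚ`
  have hPH'' : ∀ {φ : Additive (GG (M * q)) →+ ℤ}, IsParabolicHom (GG (M * q)) φ →
      PH Γ'' (fun x => ((fnG φ (g1 * x * g1⁻¹) : ℤ) : ℚ)) := by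
    intro φ hφ
    refine ⟨fun x hx y hy => ?_, fun x hx ht => ?_⟩
    · have : g1 * (x * y) * g1⁻¹ = (g1 * x * g1⁻¹) * (g1 * y * g1⁻¹) := by group
      simp only [this]
      rw [(PH_fnG hφ).mul _ ((hΓ'' x).mp hx) _ ((hΓ'' y).mp hy)]
      push_cast; rfl
    · have e : (g1 * x * g1⁻¹).1.trace ^ 2 = 4 := by
        rw [← ht]
        have := trace_conj_inv g1⁻¹ x
        rw [inv_inv] at this
        rw [this]
      rw [(PH_fnG hφ).par _ ((hΓ'' x).mp hx) e, Int.cast_zero]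
  have hcast : ∀ {Γ : Subgroup SL(2, ℤ)} {φ : Additive Γ →+ ℤ}, IsParabolicHom Γ φ →
      PH Γ (fun x => ((fnG φ x : ℤ) : ℚ)) := fun hφ =>
    (PH_fnG hφ).comp (Int.castRingHom ℚ).toAddMonoidHom
  have hWφ : IsParabolicHom (GG (M * q)) ((famW (dvd_mul_left q M) hq.ne_zero hB).op ℤ φ) :=
    isParabolicHom_op _ hφ
  have hWψ : IsParabolicHom (GG (M * q)) ((famW (dvd_mul_left q M) hq.ne_zero hB).op ℤ ψ) :=
    isParabolicHom_op _ hψ
  have s1 := PP_delta (R := ℚ) hq hle hup (neg_one_mem_GG _) hneg hrel (hPH'' hφ) (hPH'' hψ)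
    (hcast hWφ) (hcast hWψ) (fun g hg => by rw [hval φ g hg]) (fun g hg => by rw [hval ψ g hg])
  have s2 := PP_conj (R := ℚ) (neg_one_mem_GG (M * q)) g1 hΓ'' (hcast hφ) (hcast hψ)
  have s3 := PP_map (Int.castRingHom ℚ) (neg_one_mem_GG (M * q)) (PH_fnG hWφ) (PH_fnG hWψ)
  have s4 := PP_map (Int.castRingHom ℚ) (neg_one_mem_GG (M * q)) (PH_fnG hφ) (PH_fnG hψ)
  have s5 : (Int.castRingHom ℚ) (QP ((famW (dvd_mul_left q M) hq.ne_zero hB).op ℤ φ)
      ((famW (dvd_mul_left q M) hq.ne_zero hB).op ℤ ψ)) = (Int.castRingHom ℚ) (QP φ ψ) := by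
    refine s3.trans ((s1.trans s2).trans s4.symm)
  exact Int.cast_injective (α := ℚ) s5

end W

section T

variable {M l : ℕ} [NeZero M] (hl : l.Prime)

/-- `T_ℓ` is self-adjoint -/
theorem QP_T (hlM : ¬ l ∣ M) {φ ψ : Additive (GG M) →+ ℤ}
    (hφ : IsParabolicHom (GG M) φ) (hψ : IsParabolicHom (GG M) ψ) :
    QP ((famT hl hlM).op ℤ φ) ψ = QP φ ((famT hl hlM).op ℤ ψ) := by
  haveI : NeZero l := ⟨hl.ne_zero⟩
  have hco : l.Coprime (M * l / l) := by
    rw [Nat.mul_div_cancel _ hl.pos]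
    exact (Nat.Prime.coprime_iff_not_dvd hl).mpr hlM
  obtain ⟨B, hB⟩ := exists_WS (dvd_mul_left l M) hco
  rw [← tr_resq hl hlM, ← tr_resq hl hlM, ← W_res hl hB, ← W_res hl hB]
  set W := (famW (dvd_mul_left l M) hl.ne_zero hB).op ℤ with hW
  set r := (famRes (dvd_mul_right M l)).op ℤ with hr
  have p1 : IsParabolicHom (GG (M * l)) (r φ) := isParabolicHom_op _ hφ
  have p2 : IsParabolicHom (GG (M * l)) (r ψ) := isParabolicHom_op _ hψ
  have p3 : IsParabolicHom (GG (M * l)) (W (r φ)) := isParabolicHom_op _ p1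
  have p4 : IsParabolicHom (GG (M * l)) (W (r ψ)) := isParabolicHom_op _ p2
  have p5 : IsParabolicHom (GG M) (tr (dvd_mul_right M l) ℤ (W (r φ))) := isParabolicHom_op _ p3
  have p6 : IsParabolicHom (GG M) (tr (dvd_mul_right M l) ℤ (W (r ψ))) := isParabolicHom_op _ p4
  have hWW : ∀ x, W (W x) = x := fun x =>
    W_W_op (dvd_mul_left l M) hl.ne_zero hB hB x
  rw [← QP_res_tr (dvd_mul_right M l) hφ p4, QP_antisymm (neg_one_mem_GG M) hψ p5,
    ← QP_res_tr (dvd_mul_right M l) hψ p3, QP_antisymm (neg_one_mem_GG _) p3 p2, neg_neg]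
  have e1 := QP_W hl hB p3 p2
  rw [← e1, ← hW, hWW]

end T

end

end Fermat.Agent.LevelRaise
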