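import Fermat.Agent.LevelRaise.Eta
import Fermat.Agent.Cosets.Index

set_option autoImplicit false

/-!
# Invariance of the pairing under conjugation
-/

open Matrix.SpecialLinearGroup CongruenceSubgroup
open scoped MatrixGroups
open ModularGroup (S T)

namespace Fermat.Agent.LevelRaise

noncomputable section

/-- conjugation by an element of `SL₂(ℤ)` -/
theorem PP_conj {R : Type*} [CommRing R] [IsAddTorsionFree R] {Γ Γ' : Subgroup SL(2, ℤ)}
    [Γ.FiniteIndex] [Γ'.FiniteIndex] (h1' : -1 ∈ Γ') (g : SL(2, ℤ))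
    (hg : ∀ x, x ∈ Γ ↔ g * x * g⁻¹ ∈ Γ') {φ' ψ' : SL(2, ℤ) → R} (hφ' : PH Γ' φ')
    (hψ' : PH Γ' ψ') :
    PP Γ (fun x => φ' (g * x * g⁻¹)) (fun x => ψ' (g * x * g⁻¹)) = PP Γ' φ' ψ' := by
  have h1 : -1 ∈ Γ := by rw [hg]; simpa using h1'
  have hPH : ∀ {φ' : SL(2, ℤ) → R}, PH Γ' φ' → PH Γ (fun x => φ' (g * x * g⁻¹)) := by
    intro φ' hφ'
    refine ⟨fun x hx y hy => ?_, fun x hx ht => ?_⟩
    · have : g * (x * y) * g⁻¹ = (g * x * g⁻¹) * (g * y * g⁻¹) := by group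
      simp only [this]
      exact hφ'.mul _ ((hg x).mp hx) _ ((hg y).mp hy)
    · refine hφ'.par _ ((hg x).mp hx) ?_
      rw [← ht]
      have := trace_conj_inv g⁻¹ x
      rw [inv_inv] at this
      rw [this]
  obtain ⟨h, hh⟩ := exists_IsH hφ'
  obtain ⟨k, hk⟩ := exists_IsK six_torsion hψ'
  have hh' : IsH Γ (fun x => φ' (g * x * g⁻¹)) (fun y => h (y * g⁻¹)) := by
    refine ⟨fun y => ?_, fun y γ hγ => ?_⟩
    · simp only [mul_assoc, hh.left]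
    · have : y * γ * g⁻¹ = y * g⁻¹ * (g * γ * g⁻¹) := by group
      simp only [this]
      exact hh.right _ _ ((hg γ).mp hγ)
  have hk' : IsK Γ (fun x => ψ' (g * x * g⁻¹)) (fun y => k (y * g⁻¹)) := by
    refine ⟨fun y => ?_, fun y γ hγ => ?_⟩
    · have : U * y * g⁻¹ = U * (y * g⁻¹) := by group
      simp only [this, hk.left]
    · have : y * γ * g⁻¹ = y * g⁻¹ * (g * γ * g⁻¹) := by group
      simp only [this]
      exact hk.right _ _ ((hg γ).mp hγ)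
  rw [PP_eq h1 (hPH hφ') (hPH hψ') hh' hk', PP_eq h1' hφ' hψ' hh hk, Pair, Pair]
  set f' : SL(2, ℤ) → R := fun y => dS h y * dS k y with hf'
  have hf'inv : Inv Γ' f' := by
    intro y γ hγ
    simp only [hf', dS_inv hh.right y γ hγ, dS_inv hk.right y γ hγ]
  have e1 := SX_iso (K := Γ) (K' := Γ') (MulAut.conj g) (fun x => hg x) hf'inv
  have hinv2 : Inv Γ (fun y => f' (y * g⁻¹)) := by
    intro y γ hγ
    have : y * γ * g⁻¹ = y * g⁻¹ * (g * γ * g⁻¹) := by group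
    simp only [this]
    exact hf'inv _ _ ((hg γ).mp hγ)
  have e2 : SX Γ (fun y => dS (fun y => h (y * g⁻¹)) y * dS (fun y => k (y * g⁻¹)) y) =
      SX Γ (fun y => f' (y * g⁻¹)) := by
    refine SX_congr fun y => ?_
    simp only [hf', dS, mul_assoc]
  rw [e2, ← e1, ← SX_shift hinv2 g]
  rfl

/-! ### conjugation by `diag(q, 1)` -/

/-- `Γ⁰(q)` -/
def Gup (q : ℕ) : Subgroup SL(2, ℤ) where
  carrier := {g | (q : ℤ) ∣ g.1 0 1}
  one_mem' := by simp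
  mul_mem' := by
    intro a b ha hb
    change (q : ℤ) ∣ (a * b).1 0 1
    rw [Matrix.SpecialLinearGroup.coe_mul, Matrix.mul_apply, Fin.sum_univ_two]
    exact dvd_add (Dvd.dvd.mul_left hb _) (Dvd.dvd.mul_right ha _)
  inv_mem' := by
    intro a ha
    change (q : ℤ) ∣ (a⁻¹).1 0 1
    rw [Matrix.SpecialLinearGroup.SL2_inv_expl]
    change (q : ℤ) ∣ -a.1 0 1
    exact (dvd_neg).mpr ha

lemma mem_Gup {q : ℕ} {g : SL(2, ℤ)} : g ∈ Gup q ↔ (q : ℤ) ∣ g.1 0 1 := Iff.rfl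

lemma mem_G0 {q : ℕ} {g : SL(2, ℤ)} : g ∈ Gamma0 q ↔ (q : ℤ) ∣ g.1 1 0 := by
  rw [Gamma0_mem]
  exact ZMod.intCast_zmod_eq_zero_iff_dvd _ _

lemma det1 (g : SL(2, ℤ)) : g.1 0 0 * g.1 1 1 - g.1 0 1 * g.1 1 0 = 1 := by
  have := g.2
  rwa [Matrix.det_fin_two] at this

lemma mul4 (g h : SL(2, ℤ)) :
    (g * h).1 0 0 = g.1 0 0 * h.1 0 0 + g.1 0 1 * h.1 1 0 ∧
    (g * h).1 0 1 = g.1 0 0 * h.1 0 1 + g.1 0 1 * h.1 1 1 ∧
    (g * h).1 1 0 = g.1 1 0 * h.1 0 0 + g.1 1 1 * h.1 1 0 ∧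
    (g * h).1 1 1 = g.1 1 0 * h.1 0 1 + g.1 1 1 * h.1 1 1 := by
  refine ⟨?_, ?_, ?_, ?_⟩ <;>
  · rw [Matrix.SpecialLinearGroup.coe_mul, Matrix.mul_apply, Fin.sum_univ_two]

lemma sl_ext {g h : SL(2, ℤ)} (h00 : g.1 0 0 = h.1 0 0) (h01 : g.1 0 1 = h.1 0 1)
    (h10 : g.1 1 0 = h.1 1 0) (h11 : g.1 1 1 = h.1 1 1) : g = h := by
  apply Subtype.ext
  ext i j
  fin_cases i <;> fin_cases j <;> assumption

/-- `δ g δ⁻¹` -/
def dl (q : ℕ) (g : Gamma0 q) : SL(2, ℤ) :=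
  ⟨!![g.1.1 0 0, q * g.1.1 0 1; g.1.1 1 0 / q, g.1.1 1 1], by
    rw [Matrix.det_fin_two_of]
    have h1 := det1 g.1
    have h2 : g.1.1 1 0 / q * q = g.1.1 1 0 := Int.ediv_mul_cancel (mem_G0.mp g.2)
    linear_combination h1 - g.1.1 0 1 * h2⟩

/-- `δ⁻¹ g δ` -/
def dli (q : ℕ) (g : Gup q) : SL(2, ℤ) :=
  ⟨!![g.1.1 0 0, g.1.1 0 1 / q; q * g.1.1 1 0, g.1.1 1 1], by
    rw [Matrix.det_fin_two_of]
    have h1 := det1 g.1
    have h2 : g.1.1 0 1 / q * q = g.1.1 0 1 := Int.ediv_mul_cancel g.2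
    linear_combination h1 - g.1.1 1 0 * h2⟩

lemma dl_mem {q : ℕ} (g : Gamma0 q) : dl q g ∈ Gup q := ⟨g.1.1 0 1, rfl⟩

lemma dli_mem {q : ℕ} (g : Gup q) : dli q g ∈ Gamma0 q := mem_G0.mpr ⟨g.1.1 1 0, rfl⟩

/-- conjugation by `diag(q, 1)` -/
def deq (q : ℕ) (hq : q ≠ 0) : Gamma0 q ≃* Gup q where
  toFun g := ⟨dl q g, dl_mem g⟩
  invFun g := ⟨dli q g, dli_mem g⟩
  left_inv g := by
    have hq' : (q : ℤ) ≠ 0 := by exact_mod_cast hq
    apply Subtype.ext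
    apply sl_ext
    · rfl
    · change (q * g.1.1 0 1) / q = _
      exact Int.mul_ediv_cancel_left _ hq'
    · change q * (g.1.1 1 0 / q) = _
      rw [mul_comm]
      exact Int.ediv_mul_cancel (mem_G0.mp g.2)
    · rfl
  right_inv g := by
    have hq' : (q : ℤ) ≠ 0 := by exact_mod_cast hq
    apply Subtype.ext
    apply sl_ext
    · rfl
    · change q * (g.1.1 0 1 / q) = _
      rw [mul_comm]
      exact Int.ediv_mul_cancel g.2
    · change (q * g.1.1 1 0) / q = _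
      exact Int.mul_ediv_cancel_left _ hq'
    · rfl
  map_mul' g h := by
    have hq' : (q : ℤ) ≠ 0 := by exact_mod_cast hq
    have hg : g.1.1 1 0 / q * q = g.1.1 1 0 := Int.ediv_mul_cancel (mem_G0.mp g.2)
    have hh : h.1.1 1 0 / q * q = h.1.1 1 0 := Int.ediv_mul_cancel (mem_G0.mp h.2)
    apply Subtype.ext
    apply sl_ext
    · change (g.1 * h.1).1 0 0 = (dl q g * dl q h).1 0 0
      rw [(mul4 _ _).1, (mul4 _ _).1]
      simp only [dl, Matrix.of_apply, Matrix.cons_val', Matrix.cons_val_zero, Matrix.cons_val_one,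
        Matrix.cons_val_fin_one]
      linear_combination -g.1.1 0 1 * hh
    · change q * (g.1 * h.1).1 0 1 = (dl q g * dl q h).1 0 1
      rw [(mul4 _ _).2.1, (mul4 _ _).2.1]
      simp only [dl, Matrix.of_apply, Matrix.cons_val', Matrix.cons_val_zero, Matrix.cons_val_one,
        Matrix.cons_val_fin_one]
      ring
    · change (g.1 * h.1).1 1 0 / q = (dl q g * dl q h).1 1 0
      rw [(mul4 _ _).2.2.1, (mul4 _ _).2.2.1]
      simp only [dl, Matrix.of_apply, Matrix.cons_val', Matrix.cons_val_zero, Matrix.cons_val_one,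
        Matrix.cons_val_fin_one]
      rw [Int.ediv_eq_iff_eq_mul_left hq' ⟨g.1.1 1 0 / q * h.1.1 0 0 +
        g.1.1 1 1 * (h.1.1 1 0 / q), by linear_combination -h.1.1 0 0 * hg - g.1.1 1 1 * hh⟩]
      linear_combination -h.1.1 0 0 * hg - g.1.1 1 1 * hh
    · change (g.1 * h.1).1 1 1 = (dl q g * dl q h).1 1 1
      rw [(mul4 _ _).2.2.2, (mul4 _ _).2.2.2]
      simp only [dl, Matrix.of_apply, Matrix.cons_val', Matrix.cons_val_zero, Matrix.cons_val_one,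
        Matrix.cons_val_fin_one]
      linear_combination -h.1.1 0 1 * hg

lemma deq_coe {q : ℕ} (hq : q ≠ 0) (g : Gamma0 q) : ((deq q hq g : Gup q) : SL(2, ℤ)) = dl q g := rfl

lemma exists_shift_q {q : ℕ} (hq : q.Prime) {y : SL(2, ℤ)} (hy : y ∉ Gamma0 q) :
    ∃ j : ℤ, S⁻¹ * T ^ (-j) * y ∈ Gamma0 q := by
  rw [mem_G0] at hy
  have hcop : IsCoprime (q : ℤ) (y.1 1 0) :=
    (Nat.prime_iff_prime_int.mp hq).coprime_iff_not_dvd.mpr hy
  obtain ⟨u, v, huv⟩ := hcop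
  refine ⟨v * y.1 0 0, ?_⟩
  rw [mem_G0]
  have h : (S⁻¹ * T ^ (-(v * y.1 0 0)) * y : SL(2, ℤ)).1 1 0 =
      - (y.1 0 0 - (v * y.1 0 0) * y.1 1 0) := by
    rw [mul_assoc, (mul4 _ _).2.2.1, (mul4 _ _).1, (mul4 _ _).2.2.1]
    simp [Matrix.SpecialLinearGroup.SL2_inv_expl, S, ModularGroup.coe_T_zpow]
    ring
  rw [h, dvd_neg]
  exact ⟨u * y.1 0 0, by linear_combination (-y.1 0 0) * huv⟩

lemma index_G0_prime {q : ℕ} (hq : q.Prime) : (Gamma0 q).index = q + 1 := by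
  have h1 := Fermat.Agent.Cosets.relIndex_of_not_dvd (N := 1) hq (by
    rw [Nat.dvd_one]; exact hq.one_lt.ne')
  rw [one_mul] at h1
  have h2 : Gamma0 1 = ⊤ := by
    rw [eq_top_iff]; intro g _; rw [mem_G0]; simp
  rw [h2, Subgroup.relIndex_top_right] at h1
  exact h1

/-- sums over `SL₂(ℤ)/Γ₀(q)` -/
lemma SX_prime {R : Type*} [AddCommGroup R] {q : ℕ} (hq : q.Prime) {G : SL(2, ℤ) → R}
    (hG : Inv (Gamma0 q) G) (hT : ∀ y, G (T * y) = G y) :
    SX (Gamma0 q) G = G 1 + q • G S := by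
  classical
  have : NeZero q := ⟨hq.ne_zero⟩
  have hTn : ∀ (n : ℤ) y, G (T ^ n * y) = G y := by
    intro n
    induction n using Int.induction_on with
    | zero => intro y; simp
    | succ n ih =>
      intro y
      rw [add_comm, zpow_add, zpow_one, mul_assoc, hT, ih]
    | pred n ih =>
      intro y
      have h1 := hT (T ^ (-(n : ℤ) - 1) * y)
      rw [← mul_assoc, ← zpow_one_add] at h1
      have h2 : (1 : ℤ) + (-(n : ℤ) - 1) = -(n : ℤ) := by ring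
      rw [h2, ih] at h1
      exact h1.symm
  letI : Fintype (SL(2, ℤ) ⧸ Gamma0 q) := Fintype.ofFinite _
  rw [SX, finsum_eq_sum_of_fintype,
    ← Finset.add_sum_erase _ _ (Finset.mem_univ (QuotientGroup.mk 1 : SL(2, ℤ) ⧸ Gamma0 q)),
    hG.out]
  congr 1
  have h1 : ∀ x ∈ (Finset.univ.erase (QuotientGroup.mk 1 : SL(2, ℤ) ⧸ Gamma0 q)),
      G x.out = G S := by
    intro x hx
    have hx1 : x.out ∉ Gamma0 q := by
      intro hm
      apply (Finset.mem_erase.mp hx).1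
      rw [← QuotientGroup.out_eq' x]
      exact QuotientGroup.eq.mpr (by simpa using hm)
    obtain ⟨j, hj⟩ := exists_shift_q hq hx1
    have h2 : x.out = T ^ j * (S * (S⁻¹ * T ^ (-j) * x.out)) := by group
    rw [h2, hTn, hG _ _ hj]
  rw [Finset.sum_congr rfl h1, Finset.sum_const, Finset.card_erase_of_mem (Finset.mem_univ _),
    Finset.card_univ]
  have h2 : Fintype.card (SL(2, ℤ) ⧸ Gamma0 q) = q + 1 := by
    rw [← index_G0_prime hq, Subgroup.index, Nat.card_eq_fintype_card]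
  rw [h2, Nat.add_sub_cancel]

lemma S_conj_mem {q : ℕ} {g : SL(2, ℤ)} (hg : g ∈ Gamma0 q) : S * g * S⁻¹ ∈ Gup q := by
  rw [mem_G0] at hg
  rw [mem_Gup]
  have : (S * g * S⁻¹).1 0 1 = -g.1 1 0 := by
    rw [(mul4 _ _).2.1, (mul4 _ _).1, (mul4 _ _).2.1]
    simp [Matrix.SpecialLinearGroup.SL2_inv_expl, S]
  rw [this]
  exact (dvd_neg).mpr hg

lemma S_conj_mem' {q : ℕ} {g : SL(2, ℤ)} (hg : g ∈ Gup q) : S⁻¹ * g * S ∈ Gamma0 q := by
  rw [mem_Gup] at hg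
  rw [mem_G0]
  have : (S⁻¹ * g * S).1 1 0 = -g.1 0 1 := by
    rw [(mul4 _ _).2.2.1, (mul4 _ _).2.2.1, (mul4 _ _).2.2.2]
    simp [Matrix.SpecialLinearGroup.SL2_inv_expl, S]
  rw [this]
  exact (dvd_neg).mpr hg

instance Gup_finiteIndex {q : ℕ} [NeZero q] : (Gup q).FiniteIndex := by
  have h : Gup q = (Gamma0 q).map (MulAut.conj S).toMonoidHom := by
    ext g
    rw [Subgroup.mem_map]
    constructor
    · intro hg
      exact ⟨S⁻¹ * g * S, S_conj_mem' hg, by simp; group⟩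
    · rintro ⟨x, hx, rfl⟩
      exact S_conj_mem hx
  refine ⟨?_⟩
  rw [h]
  have := Subgroup.index_map_equiv (Gamma0 q) (MulAut.conj S)
  exact fun h0 => Subgroup.FiniteIndex.index_ne_zero (this.symm.trans h0)

/-- sums over `SL₂(ℤ)/Γ⁰(q)` -/
lemma SX_prime_up {R : Type*} [AddCommGroup R] {q : ℕ} (hq : q.Prime) {G : SL(2, ℤ) → R}
    (hG : Inv (Gup q) G) (hT : ∀ y, G (T * y) = G y) :
    SX (Gup q) G = G S⁻¹ + q • G 1 := by
  have : NeZero q := ⟨hq.ne_zero⟩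
  have h1 : Inv (Gamma0 q) (fun y => G (y * S⁻¹)) := by
    intro y g hg
    have : y * g * S⁻¹ = y * S⁻¹ * (S * g * S⁻¹) := by group
    simp only [this]
    exact hG _ _ (S_conj_mem hg)
  have h2 := SX_prime hq h1 (fun y => by rw [mul_assoc, hT])
  rw [one_mul, mul_inv_cancel] at h2
  rw [← h2]
  have h3 := SX_iso (K := Gamma0 q) (K' := Gup q) (MulAut.conj S) (fun g => ⟨S_conj_mem, fun h => by
    have := S_conj_mem' h
    have e : S⁻¹ * (MulAut.conj S g) * S = g := by simp; group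
    rwa [e] at this⟩) hG
  rw [← h3, ← SX_shift h1 S]
  rfl

lemma Tpow_val (n : ℕ) : (T ^ n : SL(2, ℤ)).1 = !![1, (n : ℤ); 0, 1] := by
  rw [← zpow_natCast]
  exact ModularGroup.coe_T_zpow n

lemma Sinv_val : (S⁻¹ : SL(2, ℤ)).1 = !![0, 1; -1, 0] := by
  rw [Matrix.SpecialLinearGroup.SL2_inv_expl]
  ext i j
  fin_cases i <;> fin_cases j <;> simp [S]

lemma S_val : (S : SL(2, ℤ)).1 = !![0, -1; 1, 0] := rfl

lemma STS_val (n : ℕ) : (S⁻¹ * T ^ n * S : SL(2, ℤ)).1 = !![1, 0; -(n : ℤ), 1] := by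
  rw [Matrix.SpecialLinearGroup.coe_mul, Matrix.SpecialLinearGroup.coe_mul, Tpow_val, Sinv_val,
    S_val, Matrix.mul_fin_two, Matrix.mul_fin_two]
  simp

lemma STS_val' (n : ℕ) : (S * T ^ n * S⁻¹ : SL(2, ℤ)).1 = !![1, 0; -(n : ℤ), 1] := by
  rw [Matrix.SpecialLinearGroup.coe_mul, Matrix.SpecialLinearGroup.coe_mul, Tpow_val, Sinv_val,
    S_val, Matrix.mul_fin_two, Matrix.mul_fin_two]
  simp

lemma STS_comm (n : ℕ) : (S * T ^ n * S⁻¹ : SL(2, ℤ)) = S⁻¹ * T ^ n * S :=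
  Subtype.ext ((STS_val' n).trans (STS_val n).symm)


lemma dl_T_pow {q : ℕ} (n : ℕ) (h : T ^ n ∈ Gamma0 q) : dl q ⟨T ^ n, h⟩ = (T ^ n) ^ q := by
  rw [← pow_mul]
  apply Subtype.ext
  rw [Tpow_val]
  have h0 := Tpow_val n
  ext i j
  fin_cases i <;> fin_cases j
  · change (T ^ n : SL(2, ℤ)).1 0 0 = 1
    rw [h0]; rfl
  · change (q : ℤ) * (T ^ n : SL(2, ℤ)).1 0 1 = ((n * q : ℕ) : ℤ)
    rw [h0]; simp; ring
  · change (T ^ n : SL(2, ℤ)).1 1 0 / q = 0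
    rw [h0]; simp
  · change (T ^ n : SL(2, ℤ)).1 1 1 = 1
    rw [h0]; rfl

lemma STS_mem {q n m : ℕ} (hn : n = m * q) : (S⁻¹ * T ^ n * S : SL(2, ℤ)) ∈ Gamma0 q := by
  rw [mem_G0, STS_val, hn]
  exact ⟨-(m : ℤ), by simp; ring⟩

lemma dl_STS {q n m : ℕ} (hq : q ≠ 0) (hn : n = m * q) :
    dl q ⟨S⁻¹ * T ^ n * S, STS_mem hn⟩ = S⁻¹ * T ^ m * S := by
  have hq' : (q : ℤ) ≠ 0 := by exact_mod_cast hq
  apply Subtype.ext
  rw [STS_val]
  have d1 := STS_val n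
  ext i j
  fin_cases i <;> fin_cases j
  · change (S⁻¹ * T ^ n * S : SL(2, ℤ)).1 0 0 = 1
    rw [d1]; rfl
  · change (q : ℤ) * (S⁻¹ * T ^ n * S : SL(2, ℤ)).1 0 1 = 0
    rw [d1]; simp
  · change (S⁻¹ * T ^ n * S : SL(2, ℤ)).1 1 0 / q = -(m : ℤ)
    rw [d1, hn]
    simp only [Matrix.of_apply, Matrix.cons_val', Matrix.cons_val_zero,
      Matrix.cons_val_one, Matrix.cons_val_fin_one]
    push_cast
    rw [← neg_mul, Int.mul_ediv_cancel _ hq']
  · change (S⁻¹ * T ^ n * S : SL(2, ℤ)).1 1 1 = 1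
    rw [d1]; rfl

lemma IsEta.cusp_inv {R : Type*} [Field R] [CharZero R] {Γ : Subgroup SL(2, ℤ)}
    {φ ψ η : SL(2, ℤ) → R} (hη : IsEta Γ φ ψ η) (hφ : PH Γ φ) (hψ : PH Γ ψ) {M : ℕ}
    (hM : ∀ y : SL(2, ℤ), y⁻¹ * T ^ M * y ∈ Γ) :
    Inv Γ (fun y => η (y⁻¹ * T ^ M * y)) := by
  intro y g hg
  have e : (y * g)⁻¹ * T ^ M * (y * g) = g⁻¹ * (y⁻¹ * T ^ M * y) * g⁻¹⁻¹ := by group
  have ht : (y⁻¹ * T ^ M * y).1.trace ^ 2 = 4 := by
    rw [trace_conj_inv, ← zpow_natCast, trace_T_pow]; norm_num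
  simp only [e]
  exact hη.conj hφ hψ (inv_mem hg) (hM y) (hφ.par _ (hM y) ht) (hψ.par _ (hM y) ht)

/-- **Invariance under conjugation by `diag(q, 1)`** -/
theorem PP_delta {R : Type*} [Field R] [CharZero R] {q : ℕ} (hq : q.Prime)
    {Γ Γ'' : Subgroup SL(2, ℤ)} [Γ.FiniteIndex] [Γ''.FiniteIndex] (hΓ : Γ ≤ Gamma0 q)
    (hΓ'' : Γ'' ≤ Gup q) (h1 : -1 ∈ Γ) (h1'' : -1 ∈ Γ'')
    (hrel : ∀ g : Gamma0 q, (g : SL(2, ℤ)) ∈ Γ ↔ dl q g ∈ Γ'')
    {φ ψ φ'' ψ'' : SL(2, ℤ) → R} (hφ'' : PH Γ'' φ'') (hψ'' : PH Γ'' ψ'')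
    (hφ : PH Γ φ) (hψ : PH Γ ψ)
    (eφ : ∀ g : Gamma0 q, (g : SL(2, ℤ)) ∈ Γ → φ g = φ'' (dl q g))
    (eψ : ∀ g : Gamma0 q, (g : SL(2, ℤ)) ∈ Γ → ψ g = ψ'' (dl q g)) :
    PP Γ φ ψ = PP Γ'' φ'' ψ'' := by
  classical
  have : NeZero q := ⟨hq.ne_zero⟩
  have hqR : (q : R) ≠ 0 := by exact_mod_cast hq.ne_zero
  obtain ⟨η'', hη''⟩ := exists_eta h1'' hφ'' hψ''
  set η : SL(2, ℤ) → R := fun g => if h : g ∈ Gamma0 q then η'' (dl q ⟨g, h⟩) else 0 with hηdef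
  have hηe : ∀ g : Gamma0 q, η g = η'' (dl q g) := by
    intro g
    simp only [hηdef, g.2, dif_pos]
  have dl_mul : ∀ g h : Gamma0 q, dl q (g * h) = dl q g * dl q h := by
    intro g h
    have := map_mul (deq q hq.ne_zero) g h
    exact congrArg Subtype.val this
  have hη : IsEta Γ φ ψ η := by
    intro g hg h hh
    have e1 := hηe (⟨g, hΓ hg⟩ * ⟨h, hΓ hh⟩)
    have e2 := hηe ⟨g, hΓ hg⟩
    have e3 := hηe ⟨h, hΓ hh⟩
    rw [dl_mul] at e1
    have e4 : η (g * h) = η'' (dl q ⟨g, hΓ hg⟩ * dl q ⟨h, hΓ hh⟩) := e1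
    rw [e4, hη'' _ ((hrel _).mp hg) _ ((hrel _).mp hh), ← e2, ← e3,
      eφ ⟨g, hΓ hg⟩ hg, eψ ⟨h, hΓ hh⟩ hh]
  obtain ⟨M1, hM1, hM1y⟩ := exists_uniform_pow Γ
  obtain ⟨M2, hM2, hM2y⟩ := exists_uniform_pow Γ''
  set M' := M1 * M2 with hM'
  have hM'y : ∀ y : SL(2, ℤ), ∀ n : ℕ, y⁻¹ * T ^ (M' * n) * y ∈ Γ := by
    intro y n
    have := hM1y (T ^ (M2 * n)) y
    rw [← pow_mul] at this
    have e : M' * n = M2 * n * M1 := by rw [hM']; ring
    rw [e]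
    exact this
  have hM''y : ∀ y : SL(2, ℤ), ∀ n : ℕ, y⁻¹ * T ^ (M' * n) * y ∈ Γ'' := by
    intro y n
    have := hM2y (T ^ (M1 * n)) y
    rw [← pow_mul] at this
    have e : M' * n = M1 * n * M2 := by rw [hM']; ring
    rw [e]
    exact this
  set M := M' * q with hM
  have hMΓ : ∀ y : SL(2, ℤ), y⁻¹ * T ^ M * y ∈ Γ := fun y => hM'y y q
  have hMΓ'' : ∀ y : SL(2, ℤ), y⁻¹ * T ^ M * y ∈ Γ'' := fun y => hM''y y q
  have hM0 : (M : R) ≠ 0 := by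
    have : M ≠ 0 := by
      rw [hM, hM']
      exact mul_ne_zero (mul_ne_zero hM1.ne' hM2.ne') hq.ne_zero
    exact_mod_cast this
  set f : SL(2, ℤ) → R := fun y => η (y⁻¹ * T ^ M * y) with hf
  set f'' : SL(2, ℤ) → R := fun y => η'' (y⁻¹ * T ^ M * y) with hf''
  have hfinv : Inv Γ f := hη.cusp_inv hφ hψ hMΓ
  have hf''inv : Inv Γ'' f'' := hη''.cusp_inv hφ'' hψ'' hMΓ''
  have fT : ∀ (ξ : SL(2, ℤ) → R) (y : SL(2, ℤ)),
      ξ ((T * y)⁻¹ * T ^ M * (T * y)) = ξ (y⁻¹ * T ^ M * y) := by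
    intro ξ y
    congr 1
    rw [mul_inv_rev]
    have : T⁻¹ * T ^ M * T = T ^ M := by
      rw [mul_assoc, ← pow_succ, pow_succ', inv_mul_cancel_left]
    calc y⁻¹ * T⁻¹ * T ^ M * (T * y) = y⁻¹ * (T⁻¹ * T ^ M * T) * y := by group
      _ = _ := by rw [this]
  have key : SX Γ f = SX Γ'' f'' := by
    rw [SX_tower hΓ hfinv, SX_tower hΓ'' hf''inv]
    have i1 := SX_inner_inv (L := Gamma0 q) hfinv
    have i2 := SX_inner_inv (L := Gup q) hf''inv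
    rw [SX_prime hq i1, SX_prime_up hq i2]
    · -- the two identities
      have hK : ∀ g : Gamma0 q, g ∈ Γ.subgroupOf (Gamma0 q) ↔
          deq q hq.ne_zero g ∈ Γ''.subgroupOf (Gup q) := by
        intro g
        rw [Subgroup.mem_subgroupOf, Subgroup.mem_subgroupOf]
        exact hrel g
      have hdinv : ∀ g : Gamma0 q, dl q g⁻¹ = (dl q g)⁻¹ := by
        intro g
        have := map_inv (deq q hq.ne_zero) g
        exact congrArg Subtype.val this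
      have a1 : SX (Γ.subgroupOf (Gamma0 q)) (fun s => f (1 * (s : SL(2, ℤ)))) =
          q • SX (Γ''.subgroupOf (Gup q)) (fun s => f'' (1 * (s : SL(2, ℤ)))) := by
        rw [← SX_nsmul, ← SX_iso (deq q hq.ne_zero) hK (f' := fun s : Gup q =>
          q • f'' (1 * (s : SL(2, ℤ))))
          (fun y g hg => by
            have := SX_subgroupOf_inv (L := Gup q) hf''inv 1 y g hg
            simp only at this ⊢
            rw [this])]
        refine SX_congr fun s => ?_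
        rw [one_mul, one_mul, deq_coe]
        have hTM : T ^ M ∈ Gamma0 q := by
          rw [mem_G0, ← zpow_natCast, ModularGroup.coe_T_zpow]; simp
        have e1 : f s = η'' (dl q (s⁻¹ * ⟨T ^ M, hTM⟩ * s)) := by
          rw [← hηe]; rfl
        have e2 : dl q ⟨T ^ M, hTM⟩ = (T ^ M) ^ q := dl_T_pow M hTM
        have e3 : (dl q s)⁻¹ * (T ^ M) ^ q * dl q s = ((dl q s)⁻¹ * T ^ M * dl q s) ^ q := by
          have := conj_pow (a := (dl q s)⁻¹) (b := T ^ M) (i := q)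
          rw [inv_inv] at this
          exact this.symm
        rw [e1, dl_mul, dl_mul, hdinv, e2, e3, hη''.pow hφ'' (hMΓ'' _)
          (hφ''.par _ (hMΓ'' _) (by
            rw [trace_conj_inv, ← zpow_natCast, trace_T_pow]; norm_num)), nsmul_eq_mul]
      have a2 : q • SX (Γ.subgroupOf (Gamma0 q)) (fun s => f (S * (s : SL(2, ℤ)))) =
          SX (Γ''.subgroupOf (Gup q)) (fun s => f'' (S⁻¹ * (s : SL(2, ℤ)))) := by
        rw [← SX_nsmul, ← SX_iso (deq q hq.ne_zero) hK (f' := fun s : Gup q =>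
          f'' (S⁻¹ * (s : SL(2, ℤ))))
          (fun y g hg => SX_subgroupOf_inv (L := Gup q) hf''inv S⁻¹ y g hg)]
        refine SX_congr fun s => ?_
        rw [deq_coe]
        have hTM : S⁻¹ * T ^ M * S ∈ Gamma0 q := STS_mem hM
        have e1 : f (S * s) = η'' (dl q (s⁻¹ * ⟨S⁻¹ * T ^ M * S, hTM⟩ * s)) := by
          rw [← hηe]
          simp only [hf, Subgroup.coe_mul, Subgroup.coe_inv]
          congr 1
          group
        have e2 : dl q ⟨S⁻¹ * T ^ M * S, hTM⟩ = S⁻¹ * T ^ M' * S := dl_STS hq.ne_zero hM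
        have hm' : (dl q s)⁻¹ * (S⁻¹ * T ^ M' * S) * dl q s ∈ Γ'' := by
          have := hM''y (S * dl q s) 1
          rw [mul_one] at this
          have e : (S * dl q s)⁻¹ * T ^ M' * (S * dl q s) =
            (dl q s)⁻¹ * (S⁻¹ * T ^ M' * S) * dl q s := by group
          rwa [e] at this
        have hpar : φ'' ((dl q s)⁻¹ * (S⁻¹ * T ^ M' * S) * dl q s) = 0 := by
          refine hφ''.par _ hm' ?_
          rw [trace_conj_inv, trace_conj_inv, ← zpow_natCast, trace_T_pow]; norm_num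
        have e3 : (S⁻¹ * dl q s)⁻¹ * T ^ M * (S⁻¹ * dl q s) =
            ((dl q s)⁻¹ * (S⁻¹ * T ^ M' * S) * dl q s) ^ q := by
          have c1 := conj_pow (a := (dl q s)⁻¹) (b := S⁻¹ * T ^ M' * S) (i := q)
          rw [inv_inv] at c1
          have c2 := conj_pow (a := S⁻¹) (b := T ^ M') (i := q)
          rw [inv_inv, ← pow_mul] at c2
          rw [c1, c2]
          have c5 : S * T ^ M * S⁻¹ = S⁻¹ * T ^ M * S := STS_comm M
          calc (S⁻¹ * dl q s)⁻¹ * T ^ M * (S⁻¹ * dl q s)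
              = (dl q s)⁻¹ * (S * T ^ M * S⁻¹) * dl q s := by group
            _ = _ := by rw [c5]
        rw [e1, dl_mul, dl_mul, hdinv, e2]
        simp only [hf'']
        rw [e3, hη''.pow hφ'' hm' hpar, nsmul_eq_mul]
      rw [a1, a2]
      abel
    · intro y
      refine SX_congr fun s => ?_
      rw [mul_assoc]
      exact fT η'' _
    · intro y
      refine SX_congr fun s => ?_
      rw [mul_assoc]
      exact fT η _
  have c1 := PP_eta h1 hφ hψ hη hMΓ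
  have c2 := PP_eta h1'' hφ'' hψ'' hη'' hMΓ''
  have c3 : (M : R) * PP Γ φ ψ = M * PP Γ'' φ'' ψ'' := by
    rw [c1, c2]
    exact congrArg _ key
  exact mul_left_cancel₀ hM0 c3

end

end Fermat.Agent.LevelRaise
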