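import Fermat.Agent.Cheb.Places

/-!
# Cyclotomic and Kummer extensions of `ℚ`: the facts needed to choose auxiliary primes
-/

set_option autoImplicit false

namespace Fermat.Agent.LevelRaise

open Polynomial

variable {K : Type*} [Field K] [CharZero K] [inst : Algebra ℚ K]

lemma minpoly_root {n : ℕ} {ζ : K} (hζ : IsPrimitiveRoot ζ n) (hn : 0 < n) :
    minpoly ℚ ζ = cyclotomic n ℚ := by
  obtain rfl : inst = DivisionRing.toRatAlgebra := Subsingleton.elim _ _
  exact (cyclotomic_eq_minpoly_rat hζ hn).symm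

/-- automorphisms trivial on one cyclotomic field and prescribed on another one -/
lemma cyc_indep [Normal ℚ K] {l l' : ℕ} (hl : l.Prime) (hl' : l'.Prime) (hne : l ≠ l')
    {ζ ζ' : K} (hζ : IsPrimitiveRoot ζ l) (hζ' : IsPrimitiveRoot ζ' l') (σ : K ≃ₐ[ℚ] K) :
    ∃ a : K ≃ₐ[ℚ] K, a ζ = ζ ∧ a ζ' = σ ζ' := by
  have hco : l.Coprime l' := (Nat.coprime_primes hl hl').mpr hne
  have hprim : ∀ {x y : K}, IsPrimitiveRoot x l → IsPrimitiveRoot y l' →
      IsPrimitiveRoot (x * y) (l * l') := by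
    intro x y hx hy
    have h1 : orderOf (x * y) = l * l' := by
      rw [(Commute.all x y).orderOf_mul_eq_mul_orderOf_of_coprime, ← hx.eq_orderOf,
        ← hy.eq_orderOf]
      rw [← hx.eq_orderOf, ← hy.eq_orderOf]
      exact hco
    rw [← h1]
    exact IsPrimitiveRoot.orderOf _
  have hσ : IsPrimitiveRoot (σ ζ') l' := hζ'.map_of_injective σ.injective
  have hpos : 0 < l * l' := Nat.mul_pos hl.pos hl'.pos
  have h1 : IsConjRoot ℚ (ζ * σ ζ') (ζ * ζ') := by
    rw [isConjRoot_def, minpoly_root (hprim hζ hσ) hpos, minpoly_root (hprim hζ hζ') hpos]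
  obtain ⟨a, ha⟩ := isConjRoot_iff_exists_algEquiv.mp h1
  rw [map_mul] at ha
  have hζ0 : ζ ≠ 0 := hζ.ne_zero hl.ne_zero
  have hζ'0 : ζ' ≠ 0 := hζ'.ne_zero hl'.ne_zero
  have haζ' : a ζ' ^ l' = 1 := by rw [← map_pow, hζ'.pow_eq_one, map_one]
  have haζ : a ζ ^ l = 1 := by rw [← map_pow, hζ.pow_eq_one, map_one]
  have h2 : (a ζ / ζ) ^ l' = 1 := by
    have h3 : (a ζ * a ζ') ^ l' = (ζ * σ ζ') ^ l' := by rw [ha]
    rw [mul_pow, mul_pow, haζ', hσ.pow_eq_one, mul_one, mul_one] at h3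
    rw [div_pow, h3, div_self (pow_ne_zero _ hζ0)]
  have h4 : (a ζ / ζ) ^ l = 1 := by rw [div_pow, haζ, hζ.pow_eq_one, div_one]
  have h5 : a ζ / ζ = 1 := by
    have h6 := pow_gcd_eq_one.mpr ⟨h4, h2⟩
    rwa [hco.gcd_eq_one, pow_one] at h6
  have h7 : a ζ = ζ := by rwa [div_eq_one_iff_eq hζ0] at h5
  refine ⟨a, h7, ?_⟩
  rw [h7] at ha
  exact mul_left_cancel₀ hζ0 ha

/-- `q^{1/l}` is not contained in the `l`-th cyclotomic field. -/
lemma exists_kummer [IsGalois ℚ K] {l q : ℕ} (hl : l.Prime) (hq : q.Prime)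
    {ζ α : K} (hζ : IsPrimitiveRoot ζ l) (hα : α ^ l = q) :
    ∃ σ : K ≃ₐ[ℚ] K, σ ζ = ζ ∧ σ α ≠ α := by
  by_contra hcon
  push Not at hcon
  set F : IntermediateField ℚ K := IntermediateField.adjoin ℚ {ζ} with hF
  have hint : IsIntegral ℚ ζ := Algebra.IsIntegral.isIntegral ζ
  haveI : FiniteDimensional ℚ F := IntermediateField.adjoin.finiteDimensional hint
  have hαF : α ∈ F := by
    rw [← InfiniteGalois.fixedField_fixingSubgroup F, IntermediateField.mem_fixedField_iff]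
    intro σ hσ
    apply hcon
    exact (IntermediateField.mem_fixingSubgroup_iff F σ).mp hσ ζ
      (IntermediateField.mem_adjoin_simple_self ℚ ζ)
  have hd : Module.finrank ℚ F = l - 1 := by
    rw [hF, IntermediateField.adjoin.finrank hint, minpoly_root hζ hl.pos,
      natDegree_cyclotomic, Nat.totient_prime hl]
  set a : F := ⟨α, hαF⟩ with ha
  have h1 : a ^ l = algebraMap ℚ F q := by
    apply Subtype.ext
    change α ^ l = _
    rw [hα]
    simp
  have h2 : Algebra.norm ℚ a ^ l = (q : ℚ) ^ (l - 1) := by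
    rw [← map_pow, h1, ← hd]
    have hmod : (F.module' : Module ℚ F) = Algebra.toModule := by
      have h5 : (F.algebra' : Algebra ℚ F) = DivisionRing.toRatAlgebra := Subsingleton.elim _ _
      exact congrArg (fun x : Algebra ℚ F => x.toModule) h5
    rw [hmod]
    exact Algebra.norm_algebraMap (R := ℚ) (S := F) (q : ℚ)
  haveI : Fact q.Prime := ⟨hq⟩
  have h3 := congrArg (padicValRat q) h2
  have hn0 : Algebra.norm ℚ a ≠ 0 := by
    intro h0
    rw [h0, zero_pow hl.ne_zero] at h2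
    exact pow_ne_zero (l - 1) (Nat.cast_ne_zero.mpr hq.ne_zero) h2.symm
  rw [padicValRat.pow, padicValRat.pow, padicValRat.of_nat, padicValNat_self] at h3
  have h4 : (l : ℤ) ∣ ((l - 1 : ℕ) : ℤ) := ⟨_, by rw [h3]; simp⟩
  have h5 : l ∣ l - 1 := Int.natCast_dvd_natCast.mp h4
  have h6 := Nat.le_of_dvd (by have := hl.two_le; omega) h5
  have := hl.two_le
  omega

/-- the same inside the kernel of a homomorphism to a small finite group -/
lemma exists_kummer_ker [IsGalois ℚ K] {l q : ℕ} (hl : l.Prime) (hq : q.Prime)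
    {ζ α : K} (hζ : IsPrimitiveRoot ζ l) (hα : α ^ l = q) {Γ : Type*} [Group Γ] [Finite Γ]
    (Ψ : (K ≃ₐ[ℚ] K) →* Γ) (hcard : Nat.card Γ < l) :
    ∃ σ : K ≃ₐ[ℚ] K, Ψ σ = 1 ∧ σ ζ = ζ ∧ σ α ≠ α := by
  obtain ⟨σ, hσζ, hσα⟩ := exists_kummer hl hq hζ hα
  have hα0 : α ≠ 0 := by
    rintro rfl
    rw [zero_pow hl.ne_zero] at hα
    exact (Nat.cast_ne_zero.mpr hq.ne_zero : (q : K) ≠ 0) hα.symm
  set c := σ α / α with hc
  have hσc : σ α = c * α := by rw [hc, div_mul_cancel₀ _ hα0]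
  have hcl : c ^ l = 1 := by
    rw [hc, div_pow, ← map_pow, hα, map_natCast, div_self]
    exact Nat.cast_ne_zero.mpr hq.ne_zero
  have hc1 : c ≠ 1 := fun h => hσα (by rw [hσc, h, one_mul])
  haveI : NeZero l := ⟨hl.ne_zero⟩
  obtain ⟨i, -, hi⟩ := hζ.eq_pow_of_pow_eq_one hcl
  have hfix : σ c = c := by rw [← hi, map_pow, hσζ]
  have hpow : ∀ n : ℕ, (σ ^ n) α = c ^ n * α := by
    intro n
    induction n with
    | zero => simp
    | succ n ih =>
      rw [pow_succ', AlgEquiv.mul_apply, ih, map_mul, map_pow, hfix, hσc, pow_succ]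
      ring
  have hpowζ : ∀ n : ℕ, (σ ^ n) ζ = ζ := by
    intro n
    induction n with
    | zero => simp
    | succ n ih => rw [pow_succ', AlgEquiv.mul_apply, ih, hσζ]
  refine ⟨σ ^ Nat.card Γ, by rw [map_pow, pow_card_eq_one'], hpowζ _, ?_⟩
  rw [hpow]
  intro h
  have h1 : c ^ Nat.card Γ = 1 := by
    apply mul_right_cancel₀ hα0
    rw [h, one_mul]
  have h2 : orderOf c = l := orderOf_eq_prime_iff (p := l) (hp := ⟨hl⟩) |>.mpr ⟨hcl, hc1⟩
  have h3 := orderOf_dvd_of_pow_eq_one h1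
  rw [h2] at h3
  exact absurd (Nat.le_of_dvd Nat.card_pos h3) (not_le.mpr hcard)

end Fermat.Agent.LevelRaise
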