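import Mathlib

set_option autoImplicit false

/-!
# `SL₂(ℤ[1/q])` inside `SL₂(ℚ)`: elementary lemmas
-/

open Matrix.SpecialLinearGroup CongruenceSubgroup
open scoped MatrixGroups

namespace Fermat.Agent.LevelRaise

/-! ### divisibility in `ℤ[1/q]` -/

/-- `x ∈ m ℤ[1/q]` -/
def D (q : ℕ) (m : ℤ) (x : ℚ) : Prop := ∃ (n : ℕ) (z : ℤ), x * (q : ℚ) ^ n = m * z

namespace D

variable {q : ℕ} {m m' : ℤ} {x y : ℚ}

lemma zero : D q m 0 := ⟨0, 0, by simp⟩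

lemma add (hx : D q m x) (hy : D q m y) : D q m (x + y) := by
  obtain ⟨n, z, hz⟩ := hx
  obtain ⟨n', z', hz'⟩ := hy
  refine ⟨n + n', z * q ^ n' + z' * q ^ n, ?_⟩
  push_cast
  rw [pow_add]
  linear_combination (q : ℚ) ^ n' * hz + (q : ℚ) ^ n * hz'

lemma neg (hx : D q m x) : D q m (-x) := by
  obtain ⟨n, z, hz⟩ := hx
  refine ⟨n, -z, ?_⟩
  push_cast
  linear_combination -hz

lemma sub (hx : D q m x) (hy : D q m y) : D q m (x - y) := by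
  rw [sub_eq_add_neg]; exact hx.add hy.neg

lemma mul (hx : D q m x) (hy : D q m' y) : D q (m * m') (x * y) := by
  obtain ⟨n, z, hz⟩ := hx
  obtain ⟨n', z', hz'⟩ := hy
  refine ⟨n + n', z * z', ?_⟩
  push_cast
  rw [pow_add]
  linear_combination (y * (q : ℚ) ^ n') * hz + (m * z : ℚ) * hz'

lemma one_mul' (hx : D q 1 x) (hy : D q m y) : D q m (x * y) := by
  have := hx.mul hy
  rwa [one_mul] at this

lemma mul_one' (hx : D q m x) (hy : D q 1 y) : D q m (x * y) := by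
  have := hx.mul hy
  rwa [mul_one] at this

lemma int (z : ℤ) : D q m ((m : ℚ) * z) := ⟨0, z, by simp⟩

lemma of_dvd {z : ℤ} (h : m ∣ z) : D q m (z : ℚ) := by
  obtain ⟨w, rfl⟩ := h
  push_cast
  exact int w

lemma one_int (z : ℤ) : D q 1 (z : ℚ) := of_dvd (one_dvd z)

lemma one_nat (z : ℕ) : D q 1 (z : ℚ) := by exact_mod_cast one_int (q := q) (z : ℤ)

lemma one_one : D q 1 (1 : ℚ) := by exact_mod_cast one_int (q := q) 1

lemma mono (h : m ∣ m') (hx : D q m' x) : D q m x := by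
  obtain ⟨w, rfl⟩ := h
  obtain ⟨n, z, hz⟩ := hx
  refine ⟨n, w * z, ?_⟩
  rw [hz]
  push_cast
  ring

lemma one_of (hx : D q m x) : D q 1 x := hx.mono (one_dvd _)

lemma mul_left (k : ℤ) (hx : D q m x) : D q (k * m) (k * x) := by
  obtain ⟨n, z, hz⟩ := hx
  refine ⟨n, z, ?_⟩
  push_cast
  linear_combination (k : ℚ) * hz

lemma zpow (hq : q ≠ 0) (k : ℤ) : D q 1 ((q : ℚ) ^ k) := by
  have hq' : (q : ℚ) ≠ 0 := by exact_mod_cast hq
  obtain ⟨n, rfl | rfl⟩ := k.eq_nat_or_neg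
  · refine ⟨0, q ^ n, ?_⟩
    push_cast
    simp
  · refine ⟨n, 1, ?_⟩
    rw [zpow_neg, zpow_natCast]
    simp [hq']

/-- integers -/
lemma dvd (hm : IsCoprime m (q : ℤ)) (hq : q ≠ 0) {z : ℤ} (h : D q m (z : ℚ)) : m ∣ z := by
  obtain ⟨n, w, hw⟩ := h
  have h1 : z * (q : ℤ) ^ n = m * w := by exact_mod_cast hw
  have h2 : m ∣ z * (q : ℤ) ^ n := ⟨w, h1⟩
  exact (hm.pow_right).dvd_of_dvd_mul_right h2

lemma approx (hm : IsCoprime m (q : ℤ)) (hq : q ≠ 0) (hx : D q 1 x) : ∃ z : ℤ, D q m (x - z) := by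
  obtain ⟨n, w, hw⟩ := hx
  obtain ⟨u, t, hut⟩ := (hm.pow_right (n := n))
  refine ⟨w * t, n, w * u, ?_⟩
  have hut' : (u : ℚ) * m + t * (q : ℚ) ^ n = 1 := by exact_mod_cast hut
  push_cast at hw ⊢
  rw [one_mul] at hw
  linear_combination hw - (w : ℚ) * hut'

lemma coprime (hmm : IsCoprime m m') (hq : q ≠ 0) (hx : D q m x) (hx' : D q m' x) :
    D q (m * m') x := by
  obtain ⟨n, z, hz⟩ := hx
  obtain ⟨n', z', hz'⟩ := hx'
  obtain ⟨u, v, huv⟩ := hmm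
  refine ⟨n + n', u * z' * q ^ n + v * z * q ^ n', ?_⟩
  have h : (u : ℚ) * m + v * m' = 1 := by exact_mod_cast huv
  push_cast
  rw [pow_add]
  linear_combination (-x * (q : ℚ) ^ n * (q : ℚ) ^ n') * h + (u * m * (q : ℚ) ^ n) * hz' +
    (v * m' * (q : ℚ) ^ n') * hz

lemma div_of_dvd {k : ℤ} (hk : k ≠ 0) (hx : D q (k * m) x) : D q m (x / k) := by
  obtain ⟨n, z, hz⟩ := hx
  have hk' : (k : ℚ) ≠ 0 := by exact_mod_cast hk
  refine ⟨n, z, ?_⟩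
  push_cast at hz
  rw [div_mul_eq_mul_div, hz]
  field_simp

end D

/-! ### matrices -/

/-- the group `SL₂(ℚ)` -/
abbrev SQ : Type := Matrix.SpecialLinearGroup (Fin 2) ℚ

/-- all entries divisible by `m` in `ℤ[1/q]` -/
def MD (q : ℕ) (m : ℤ) (M : Matrix (Fin 2) (Fin 2) ℚ) : Prop := ∀ i j, D q m (M i j)

namespace MD

variable {q : ℕ} {m m' : ℤ} {M M' : Matrix (Fin 2) (Fin 2) ℚ}

lemma add (h : MD q m M) (h' : MD q m M') : MD q m (M + M') := fun i j => (h i j).add (h' i j)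

lemma sub (h : MD q m M) (h' : MD q m M') : MD q m (M - M') := fun i j => (h i j).sub (h' i j)

lemma neg (h : MD q m M) : MD q m (-M) := fun i j => (h i j).neg

lemma mul (h : MD q m M) (h' : MD q m' M') : MD q (m * m') (M * M') := by
  intro i j
  rw [Matrix.mul_apply, Fin.sum_univ_two]
  exact ((h i 0).mul (h' 0 j)).add ((h i 1).mul (h' 1 j))

lemma one_mul' (h : MD q 1 M) (h' : MD q m M') : MD q m (M * M') := by
  have := h.mul h'
  rwa [one_mul] at this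

lemma mul_one' (h : MD q m M) (h' : MD q 1 M') : MD q m (M * M') := by
  have := h.mul h'
  rwa [mul_one] at this

lemma one : MD q 1 (1 : Matrix (Fin 2) (Fin 2) ℚ) := by
  intro i j
  rw [Matrix.one_apply]
  split_ifs
  · exact D.one_one
  · exact D.zero

end MD

lemma inv_00 (g : SQ) : (g⁻¹).1 0 0 = g.1 1 1 := by
  rw [Matrix.SpecialLinearGroup.SL2_inv_expl]; rfl

lemma inv_01 (g : SQ) : (g⁻¹).1 0 1 = -g.1 0 1 := by
  rw [Matrix.SpecialLinearGroup.SL2_inv_expl]; rfl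

lemma inv_10 (g : SQ) : (g⁻¹).1 1 0 = -g.1 1 0 := by
  rw [Matrix.SpecialLinearGroup.SL2_inv_expl]; rfl

lemma inv_11 (g : SQ) : (g⁻¹).1 1 1 = g.1 0 0 := by
  rw [Matrix.SpecialLinearGroup.SL2_inv_expl]; rfl

lemma mul_entries (g h : SQ) :
    (g * h).1 0 0 = g.1 0 0 * h.1 0 0 + g.1 0 1 * h.1 1 0 ∧
    (g * h).1 0 1 = g.1 0 0 * h.1 0 1 + g.1 0 1 * h.1 1 1 ∧
    (g * h).1 1 0 = g.1 1 0 * h.1 0 0 + g.1 1 1 * h.1 1 0 ∧
    (g * h).1 1 1 = g.1 1 0 * h.1 0 1 + g.1 1 1 * h.1 1 1 := by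
  refine ⟨?_, ?_, ?_, ?_⟩ <;>
  · rw [Matrix.SpecialLinearGroup.coe_mul, Matrix.mul_apply, Fin.sum_univ_two]

lemma det_eq (g : SQ) : g.1 0 0 * g.1 1 1 - g.1 0 1 * g.1 1 0 = 1 := by
  have := g.2
  rwa [Matrix.det_fin_two] at this

lemma SQ_ext {g h : SQ} (h00 : g.1 0 0 = h.1 0 0) (h01 : g.1 0 1 = h.1 0 1)
    (h10 : g.1 1 0 = h.1 1 0) (h11 : g.1 1 1 = h.1 1 1) : g = h := by
  apply Subtype.ext
  ext i j
  fin_cases i <;> fin_cases j <;> assumption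

lemma MD.inv {q : ℕ} {g : SQ} (h : MD q 1 g.1) : MD q 1 (g⁻¹).1 := by
  intro i j
  fin_cases i <;> fin_cases j
  · exact (inv_00 g).symm ▸ h 1 1
  · exact (inv_01 g).symm ▸ (h 0 1).neg
  · exact (inv_10 g).symm ▸ (h 1 0).neg
  · exact (inv_11 g).symm ▸ h 0 0

/-- `{g ∈ SL₂(ℤ[1/q]) : N ∣ c}` -/
def GO (q N : ℕ) : Subgroup SQ where
  carrier := {g | MD q 1 g.1 ∧ D q N (g.1 1 0)}
  one_mem' := ⟨MD.one, by
    have : (1 : SQ).1 1 0 = 0 := by simp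
    rw [this]; exact D.zero⟩
  mul_mem' := by
    rintro g h ⟨h1, h2⟩ ⟨h3, h4⟩
    refine ⟨?_, ?_⟩
    · rw [Matrix.SpecialLinearGroup.coe_mul]; exact h1.one_mul' h3
    · rw [(mul_entries g h).2.2.1]
      exact (h2.mul_one' (h3 0 0)).add ((h1 1 1).one_mul' h4)
  inv_mem' := by
    rintro g ⟨h1, h2⟩
    exact ⟨h1.inv, (inv_10 g).symm ▸ h2.neg⟩

/-- the principal congruence subgroup of `GO q N` of level `r` -/
def KO (q N r : ℕ) : Subgroup SQ where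
  carrier := {g | g ∈ GO q N ∧ MD q r (g.1 - 1)}
  one_mem' := ⟨one_mem _, by
    intro i j
    have : ((1 : SQ).1 - 1) i j = 0 := by simp
    rw [this]; exact D.zero⟩
  mul_mem' := by
    rintro g h ⟨h1, h2⟩ ⟨h3, h4⟩
    refine ⟨mul_mem h1 h3, ?_⟩
    have : (g * h).1 - 1 = (g.1 - 1) * h.1 + (h.1 - 1) := by
      rw [Matrix.SpecialLinearGroup.coe_mul]; noncomm_ring
    rw [this]
    exact (h2.mul_one' h3.1).add h4
  inv_mem' := by
    rintro g ⟨h1, h2⟩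
    refine ⟨inv_mem h1, ?_⟩
    have : (g⁻¹).1 - 1 = -((g⁻¹).1 * (g.1 - 1)) := by
      rw [mul_sub, mul_one, ← Matrix.SpecialLinearGroup.coe_mul, inv_mul_cancel,
        Matrix.SpecialLinearGroup.coe_one]
      noncomm_ring
    rw [this]
    exact (MD.one_mul' (inv_mem h1 : g⁻¹ ∈ GO q N).1 h2).neg

lemma KO_le (q N r : ℕ) : KO q N r ≤ GO q N := fun _ h => h.1

lemma conj_mem_KO {q N r : ℕ} {e g : SQ} (he : e ∈ GO q N) (hg : g ∈ KO q N r) :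
    e * g * e⁻¹ ∈ KO q N r := by
  refine ⟨mul_mem (mul_mem he hg.1) (inv_mem he), ?_⟩
  have : (e * g * e⁻¹).1 - 1 = e.1 * (g.1 - 1) * (e⁻¹).1 := by
    rw [mul_sub, mul_one, sub_mul, ← Matrix.SpecialLinearGroup.coe_mul,
      ← Matrix.SpecialLinearGroup.coe_mul, ← Matrix.SpecialLinearGroup.coe_mul, mul_inv_cancel,
      Matrix.SpecialLinearGroup.coe_one]
  rw [this]
  exact (he.1.one_mul' hg.2).mul_one' (inv_mem he : e⁻¹ ∈ GO q N).1

/-- upper unipotent -/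
def uu (x : ℚ) : SQ := ⟨!![1, x; 0, 1], by simp [Matrix.det_fin_two_of]⟩

/-- lower unipotent -/
def ll (y : ℚ) : SQ := ⟨!![1, 0; y, 1], by simp [Matrix.det_fin_two_of]⟩

/-- diagonal -/
def dg (ε : ℚ) (hε : ε ≠ 0) : SQ := ⟨!![ε, 0; 0, ε⁻¹], by simp [Matrix.det_fin_two_of, hε]⟩

lemma uu_add (x y : ℚ) : uu (x + y) = uu x * uu y := by
  apply SQ_ext <;> simp [uu, add_comm]

lemma ll_add (x y : ℚ) : ll (x + y) = ll x * ll y := by
  apply SQ_ext <;> simp [ll]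

lemma uu_zero : uu 0 = 1 := by
  apply SQ_ext <;> simp [uu]

lemma ll_zero : ll 0 = 1 := by
  apply SQ_ext <;> simp [ll]

lemma uu_inv (x : ℚ) : (uu x)⁻¹ = uu (-x) := by
  rw [inv_eq_iff_mul_eq_one, ← uu_add, add_neg_cancel, uu_zero]

lemma ll_inv (x : ℚ) : (ll x)⁻¹ = ll (-x) := by
  rw [inv_eq_iff_mul_eq_one, ← ll_add, add_neg_cancel, ll_zero]

lemma uu_mem_GO {q N : ℕ} {x : ℚ} (hx : D q 1 x) : uu x ∈ GO q N := by
  refine ⟨?_, D.zero⟩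
  intro i j
  fin_cases i <;> fin_cases j
  · exact D.one_one
  · exact hx
  · exact D.zero
  · exact D.one_one

lemma ll_mem_GO {q N : ℕ} {x : ℚ} (hx : D q N x) : ll x ∈ GO q N := by
  refine ⟨?_, hx⟩
  intro i j
  fin_cases i <;> fin_cases j
  · exact D.one_one
  · exact D.zero
  · exact hx.one_of
  · exact D.one_one

lemma uu_mem_KO {q N r : ℕ} {x : ℚ} (hx : D q r x) : uu x ∈ KO q N r := by
  refine ⟨uu_mem_GO hx.one_of, ?_⟩
  intro i j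
  rw [Matrix.sub_apply]
  fin_cases i <;> fin_cases j
  · simpa [uu] using D.zero
  · simpa [uu] using hx
  · simpa [uu] using D.zero
  · simpa [uu] using D.zero

lemma ll_mem_KO {q N r : ℕ} {x : ℚ} (hx : D q N x) (hx' : D q r x) : ll x ∈ KO q N r := by
  refine ⟨ll_mem_GO hx, ?_⟩
  intro i j
  rw [Matrix.sub_apply]
  fin_cases i <;> fin_cases j
  · simpa [ll] using D.zero
  · simpa [ll] using D.zero
  · simpa [ll] using hx'
  · simpa [ll] using D.zero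

/-- `diag(q^k, q^{-k})` -/
def hh (q : ℕ) (hq : q ≠ 0) (k : ℤ) : SQ := dg ((q : ℚ) ^ k) (zpow_ne_zero _ (by exact_mod_cast hq))

lemma hh_add {q : ℕ} (hq : q ≠ 0) (k l : ℤ) : hh q hq (k + l) = hh q hq k * hh q hq l := by
  have hq' : (q : ℚ) ≠ 0 := by exact_mod_cast hq
  apply SQ_ext <;> simp [hh, dg, zpow_add₀ hq', mul_comm]

lemma hh_zero {q : ℕ} (hq : q ≠ 0) : hh q hq 0 = 1 := by
  apply SQ_ext <;> simp [hh, dg]

lemma hh_neg {q : ℕ} (hq : q ≠ 0) (k : ℤ) : hh q hq (-k) = (hh q hq k)⁻¹ := by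
  rw [eq_comm, inv_eq_iff_mul_eq_one, ← hh_add, add_neg_cancel, hh_zero]

lemma hh_mem_GO {q N : ℕ} (hq : q ≠ 0) (k : ℤ) : hh q hq k ∈ GO q N := by
  refine ⟨?_, D.zero⟩
  intro i j
  fin_cases i <;> fin_cases j
  · exact D.zpow hq k
  · exact D.zero
  · exact D.zero
  · change D q 1 ((q : ℚ) ^ k)⁻¹
    rw [← zpow_neg]
    exact D.zpow hq _

lemma dg_conj_uu (ε : ℚ) (hε : ε ≠ 0) (x : ℚ) : dg ε hε * uu x * (dg ε hε)⁻¹ = uu (ε ^ 2 * x) := by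
  rw [mul_inv_eq_iff_eq_mul]
  apply SQ_ext <;> simp [uu, dg]
  field_simp

lemma dg_conj_ll (ε : ℚ) (hε : ε ≠ 0) (y : ℚ) :
    dg ε hε * ll y * (dg ε hε)⁻¹ = ll ((ε⁻¹) ^ 2 * y) := by
  rw [mul_inv_eq_iff_eq_mul]
  apply SQ_ext <;> simp [ll, dg]
  field_simp

/-- the embedding `SL₂(ℤ) → SL₂(ℚ)` -/
def io : SL(2, ℤ) →* SQ := Matrix.SpecialLinearGroup.map (Int.castRingHom ℚ)

lemma io_apply (g : SL(2, ℤ)) (i j : Fin 2) : (io g).1 i j = (g.1 i j : ℚ) := rfl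

lemma io_injective : Function.Injective io := by
  intro g h e
  apply Subtype.ext
  ext i j
  have := congrArg (fun t : SQ => t.1 i j) e
  simp only [io_apply] at this
  exact_mod_cast this

lemma io_mem_GO {q N : ℕ} {g : SL(2, ℤ)} (hg : g ∈ Gamma0 N) : io g ∈ GO q N := by
  refine ⟨fun i j => D.one_int _, ?_⟩
  rw [io_apply]
  refine D.of_dvd ?_
  rw [Gamma0_mem] at hg
  exact (ZMod.intCast_zmod_eq_zero_iff_dvd _ _).mp hg

lemma mem_Gamma0_iff_dvd {N : ℕ} {g : SL(2, ℤ)} : g ∈ Gamma0 N ↔ (N : ℤ) ∣ g.1 1 0 := by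
  rw [Gamma0_mem]
  exact ZMod.intCast_zmod_eq_zero_iff_dvd _ _

end Fermat.Agent.LevelRaise
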