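import Fermat.Agent.LevelRaise.Pairing

set_option autoImplicit false

/-!
# The Poincaré pairing as a sum over cusps
-/

open Matrix.SpecialLinearGroup
open scoped MatrixGroups
open ModularGroup (S T)

namespace Fermat.Agent.LevelRaise

noncomputable section

lemma T_eq : (T : SL(2, ℤ)) = U * S⁻¹ := by simp [U]

/-- induction along generators -/
lemma const_of_gen {A : Type*} (D : SL(2, ℤ) → A) (hS : ∀ y, D (S * y) = D y)
    (hU : ∀ y, D (U * y) = D y) (y : SL(2, ℤ)) : D y = D 1 := by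
  let H : Subgroup SL(2, ℤ) :=
    { carrier := {g | ∀ y, D (g * y) = D y}
      mul_mem' := by
        intro a b ha hb y
        rw [mul_assoc, ha, hb]
      one_mem' := by intro y; rw [one_mul]
      inv_mem' := by
        intro a ha y
        have := ha (a⁻¹ * y)
        rw [mul_inv_cancel_left] at this
        exact this.symm }
  have hS' : S ∈ H := hS
  have hU' : U ∈ H := hU
  have hT' : T ∈ H := by rw [T_eq]; exact mul_mem hU' (inv_mem hS')
  have htop : (⊤ : Subgroup SL(2, ℤ)) ≤ H := by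
    rw [← closure_ST_eq, Subgroup.closure_le]
    rintro x (rfl | rfl)
    · exact hS'
    · exact hT'
  have := htop (Subgroup.mem_top y) 1
  rwa [mul_one] at this

/-- primitives of the cup product -/
def IsEta {R : Type*} [CommRing R] (Γ : Subgroup SL(2, ℤ)) (φ ψ η : SL(2, ℤ) → R) : Prop :=
  ∀ g ∈ Γ, ∀ h ∈ Γ, η (g * h) = η g + η h + φ g * ψ h

section field

variable {R : Type*} [Field R] [CharZero R] {Γ : Subgroup SL(2, ℤ)} {φ ψ η : SL(2, ℤ) → R}

theorem exists_eta (h1 : -1 ∈ Γ) (hφ : PH Γ φ) (hψ : PH Γ ψ) : ∃ η, IsEta Γ φ ψ η := by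
  obtain ⟨h, hh⟩ := exists_IsH hφ
  obtain ⟨k, hk⟩ := exists_IsK six_torsion hψ
  have hhneg := map_neg_of_right h1 (hφ.map_neg_one h1) hh.right
  have hkneg := map_neg_of_right h1 (hψ.map_neg_one h1) hk.right
  obtain ⟨E, hEneg, hES, hEU⟩ := integrate (A := R)
    (fun y => (dS h y * (k y + k (S * y))) / 2) (fun y => dS h y * k y)
    (fun y => by simp only [dS_neg hhneg, mul_neg, hkneg])
    (fun y => by simp only [dS_neg hhneg, hkneg])
    (fun y => by
      simp only [dS_S hhneg, SS_mul, hkneg]; ring)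
    (fun y => by
      simp only [hk.left]
      linear_combination (k y) * dS_sum hhneg hh.left y)
  have hconst : ∀ γ ∈ Γ, ∀ y, E (y * γ) - E y - h y * ψ γ = E (1 * γ) - E 1 - h 1 * ψ γ := by
    intro γ hγ y
    refine const_of_gen (fun y => E (y * γ) - E y - h y * ψ γ) (fun y => ?_) (fun y => ?_) y
    · rw [mul_assoc, hES, hES, dS_inv hh.right y γ hγ, hk.right y γ hγ, ← mul_assoc,
        hk.right (S * y) γ hγ]
      have : h (S * y) = h y + dS h y := by rw [dS]; ring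
      rw [this]
      ring
    · rw [mul_assoc, hEU, hEU, dS_inv hh.right y γ hγ, hk.right y γ hγ]
      have : h (U * y) = h y + dS h y := by rw [dS_eq_dU hh.left]; ring
      rw [this]
      ring
  refine ⟨fun γ => E γ - E 1 - h 1 * ψ γ, ?_⟩
  intro g hg g' hg'
  simp only
  have e1 := hconst g' hg' g
  rw [one_mul] at e1
  have e2 : h g = h 1 + φ g := by
    have := hh.right 1 g hg
    rwa [one_mul] at this
  rw [hψ.mul g hg g' hg']
  rw [e2] at e1
  linear_combination e1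

lemma IsEta.one (hη : IsEta Γ φ ψ η) (hφ : PH Γ φ) : η 1 = 0 := by
  have := hη 1 (one_mem _) 1 (one_mem _)
  rw [mul_one, hφ.map_one, zero_mul, add_zero] at this
  linear_combination -this

lemma IsEta.neg_one (hη : IsEta Γ φ ψ η) (h1 : -1 ∈ Γ) (hφ : PH Γ φ) : η (-1) = 0 := by
  have := hη (-1) h1 (-1) h1
  rw [hφ.map_neg_one h1, zero_mul, add_zero, neg_mul_neg, one_mul, hη.one hφ] at this
  have h2 : (2 : R) ≠ 0 := two_ne_zero
  have h3 : 2 * η (-1) = 0 := by linear_combination -this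
  exact (mul_eq_zero.mp h3).resolve_left h2

/-- invariance under conjugation -/
lemma IsEta.conj (hη : IsEta Γ φ ψ η) (hφ : PH Γ φ) (hψ : PH Γ ψ) {g u : SL(2, ℤ)} (hg : g ∈ Γ)
    (hu : u ∈ Γ) (hφu : φ u = 0) (hψu : ψ u = 0) : η (g * u * g⁻¹) = η u := by
  have h1 := hη _ (mul_mem hg hu) _ (inv_mem hg)
  have h2 := hη _ hg _ hu
  have h3 := hη _ hg _ (inv_mem hg)
  rw [mul_inv_cancel, hη.one hφ] at h3
  rw [h1, h2, hφ.mul _ hg _ hu, hφu, hψu]
  linear_combination -h3

lemma IsEta.pow (hη : IsEta Γ φ ψ η) (hφ : PH Γ φ) {u : SL(2, ℤ)}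
    (hu : u ∈ Γ) (hφu : φ u = 0) (n : ℕ) : η (u ^ n) = n * η u := by
  induction n with
  | zero => rw [pow_zero, hη.one hφ]; simp
  | succ n ih =>
    rw [pow_succ, hη _ (pow_mem hu _) _ hu, ih, hφ.map_pow hu, hφu]
    push_cast
    simp
    ring

theorem exists_E (h1 : -1 ∈ Γ) (hφ : PH Γ φ) (hψ : PH Γ ψ) (hη : IsEta Γ φ ψ η)
    {h : SL(2, ℤ) → R} (hh : IsH Γ φ h) :
    ∃ E : SL(2, ℤ) → R, ∀ y, ∀ γ ∈ Γ, E (y * γ) = E y + h y * ψ γ + η γ := by
  let rep : SL(2, ℤ) → SL(2, ℤ) := fun y => (QuotientGroup.mk y : SL(2, ℤ) ⧸ Γ).out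
  have hrep : ∀ y, (rep y)⁻¹ * y ∈ Γ := by
    intro y
    have : (QuotientGroup.mk (rep y) : SL(2, ℤ) ⧸ Γ) = QuotientGroup.mk y := QuotientGroup.out_eq' _
    exact QuotientGroup.eq.mp this
  have hrep_eq : ∀ y, ∀ γ ∈ Γ, rep (y * γ) = rep y := by
    intro y γ hγ
    simp only [rep]
    rw [QuotientGroup.mk_mul_of_mem y hγ]
  refine ⟨fun y => h (rep y) * ψ ((rep y)⁻¹ * y) + η ((rep y)⁻¹ * y), fun y γ hγ => ?_⟩
  simp only [hrep_eq y γ hγ]
  rw [← mul_assoc, hψ.mul _ (hrep y) _ hγ, hη _ (hrep y) _ hγ]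
  have e1 : h y = h (rep y) + φ ((rep y)⁻¹ * y) := by
    have := hh.right (rep y) _ (hrep y)
    rwa [mul_inv_cancel_left] at this
  rw [e1]
  ring

/-- **Cusp formula** for the pairing -/
theorem PP_eta [Γ.FiniteIndex] (h1 : -1 ∈ Γ) (hφ : PH Γ φ) (hψ : PH Γ ψ) (hη : IsEta Γ φ ψ η)
    {M : ℕ} (hM : ∀ y : SL(2, ℤ), y⁻¹ * T ^ M * y ∈ Γ) :
    M * PP Γ φ ψ = -2 * SX Γ (fun y => η (y⁻¹ * T ^ M * y)) := by
  obtain ⟨h, hh⟩ := exists_IsH hφ
  obtain ⟨k, hk⟩ := exists_IsK six_torsion hψ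
  have hhneg := map_neg_of_right h1 (hφ.map_neg_one h1) hh.right
  have hkneg := map_neg_of_right h1 (hψ.map_neg_one h1) hk.right
  rw [PP_eq h1 hφ hψ hh hk]
  obtain ⟨E, hE⟩ := exists_E h1 hφ hψ hη hh
  have hEneg : ∀ y, E (-y) = E y := by
    intro y
    rw [neg_eq_mul, hE y _ h1, hψ.map_neg_one h1, hη.neg_one h1 hφ]; ring
  set eT : SL(2, ℤ) → R := fun y => E (T * y) - E y with heT
  set eS : SL(2, ℤ) → R := fun y => E (S * y) - E y - dS h y * k y with heS
  set eU : SL(2, ℤ) → R := fun y => E (U * y) - E y - dS h y * k y with heU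
  have heTinv : Inv Γ eT := by
    intro y γ hγ
    simp only [heT]
    rw [← mul_assoc, hE _ γ hγ, hE _ γ hγ, hh.left]; ring
  have heSinv : Inv Γ eS := by
    intro y γ hγ
    simp only [heS]
    rw [← mul_assoc, hE _ γ hγ, hE _ γ hγ, dS_inv hh.right y γ hγ, hk.right y γ hγ]
    rw [dS]; ring
  have heUinv : Inv Γ eU := by
    intro y γ hγ
    simp only [heU]
    rw [← mul_assoc, hE _ γ hγ, hE _ γ hγ, dS_inv hh.right y γ hγ, hk.right y γ hγ,
      dS_eq_dU hh.left]
    ring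
  have hS2 : ∀ y, eS y + eS (S * y) = dS h y * dS k y := by
    intro y
    simp only [heS]
    rw [SS_mul, hEneg, dS_S hhneg, dS]
    simp only [dS]; ring
  have hU3 : ∀ y, eU y + eU (U * y) + eU (U * U * y) = 0 := by
    intro y
    simp only [heU]
    rw [mul_assoc U U y, UUU_mul, hEneg, hk.left, hk.left, hk.left]
    linear_combination (-k y) * dS_sum hhneg hh.left y
  have hTS : ∀ y, eT (S * y) = eU y - eS y := by
    intro y
    simp only [heT, heU, heS]
    rw [← mul_assoc]; ring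
  have sS : 2 * SX Γ eS = Pair Γ h k := by
    rw [Pair, ← SX_congr hS2, SX_add, SX_shift heSinv S]; ring
  have sU : SX Γ eU = 0 := by
    have h3 : 3 * SX Γ eU = 0 := by
      have : SX Γ (fun y => eU y + eU (U * y) + eU (U * U * y)) = 3 * SX Γ eU := by
        rw [SX_add, SX_add, SX_shift heUinv U, SX_shift heUinv (U * U)]; ring
      rw [← this, SX_congr hU3]; simp [SX]
    have h3' : (3 : R) ≠ 0 := by norm_num
    exact (mul_eq_zero.mp h3).resolve_left h3'
  have sT : SX Γ eT = SX Γ eU - SX Γ eS := by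
    rw [← SX_shift heTinv S, ← SX_sub]
    exact SX_congr hTS
  have htel : (M : R) * SX Γ eT = SX Γ (fun y => η (y⁻¹ * T ^ M * y)) := by
    have h5 := SX_telescope (K := Γ) T heTinv M
    rw [nsmul_eq_mul] at h5
    rw [h5]
    refine SX_congr fun y => ?_
    have e3 : T ^ M * y = y * (y⁻¹ * T ^ M * y) := by group
    have e4 : ψ (y⁻¹ * T ^ M * y) = 0 := by
      refine hψ.par _ (hM y) ?_
      rw [trace_conj_inv, ← zpow_natCast, trace_T_pow]; norm_num
    rw [e3, hE y _ (hM y), e4]; ring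
  rw [← htel, sT, sU, ← sS]; ring

end field

end

end Fermat.Agent.LevelRaise
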