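import Fermat.Agent.LevelRaise.DRing

set_option autoImplicit false

/-!
# Ihara's lemma, step one: extension to `SL₂(ℤ[1/q])`
-/

open Matrix.SpecialLinearGroup CongruenceSubgroup
open scoped MatrixGroups

namespace Fermat.Agent.LevelRaise

variable {A : Type*} [AddCommGroup A]

/-- parabolic homomorphisms as functions -/
structure PHom (N : ℕ) (φ : SL(2, ℤ) → A) : Prop where
  mul : ∀ g ∈ Gamma0 N, ∀ h ∈ Gamma0 N, φ (g * h) = φ g + φ h
  par : ∀ g ∈ Gamma0 N, g.1.trace ^ 2 = 4 → φ g = 0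

/-- `g' = δ g δ⁻¹`, `δ = diag(q, 1)` -/
def DC (q : ℕ) (g g' : SL(2, ℤ)) : Prop :=
  g'.1 0 0 = g.1 0 0 ∧ g'.1 0 1 = q * g.1 0 1 ∧ q * g'.1 1 0 = g.1 1 0 ∧ g'.1 1 1 = g.1 1 1

lemma zdet (g : SL(2, ℤ)) : g.1 0 0 * g.1 1 1 - g.1 0 1 * g.1 1 0 = 1 := by
  have := g.2
  rwa [Matrix.det_fin_two] at this

lemma zmul (g h : SL(2, ℤ)) :
    (g * h).1 0 0 = g.1 0 0 * h.1 0 0 + g.1 0 1 * h.1 1 0 ∧
    (g * h).1 0 1 = g.1 0 0 * h.1 0 1 + g.1 0 1 * h.1 1 1 ∧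
    (g * h).1 1 0 = g.1 1 0 * h.1 0 0 + g.1 1 1 * h.1 1 0 ∧
    (g * h).1 1 1 = g.1 1 0 * h.1 0 1 + g.1 1 1 * h.1 1 1 := by
  refine ⟨?_, ?_, ?_, ?_⟩ <;>
  · rw [Matrix.SpecialLinearGroup.coe_mul, Matrix.mul_apply, Fin.sum_univ_two]

lemma zinv (g : SL(2, ℤ)) :
    (g⁻¹).1 0 0 = g.1 1 1 ∧ (g⁻¹).1 0 1 = -g.1 0 1 ∧ (g⁻¹).1 1 0 = -g.1 1 0 ∧
    (g⁻¹).1 1 1 = g.1 0 0 := by
  rw [Matrix.SpecialLinearGroup.SL2_inv_expl]
  exact ⟨rfl, rfl, rfl, rfl⟩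

lemma zext {g h : SL(2, ℤ)} (h00 : g.1 0 0 = h.1 0 0) (h01 : g.1 0 1 = h.1 0 1)
    (h10 : g.1 1 0 = h.1 1 0) (h11 : g.1 1 1 = h.1 1 1) : g = h := by
  apply Subtype.ext
  ext i j
  fin_cases i <;> fin_cases j <;> assumption

/-- integral upper unipotent -/
def zu (n : ℤ) : SL(2, ℤ) := ⟨!![1, n; 0, 1], by simp [Matrix.det_fin_two_of]⟩

/-- integral lower unipotent -/
def zl (n : ℤ) : SL(2, ℤ) := ⟨!![1, 0; n, 1], by simp [Matrix.det_fin_two_of]⟩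

lemma zu_mem (N : ℕ) (n : ℤ) : zu n ∈ Gamma0 N := by
  rw [mem_Gamma0_iff_dvd]; exact dvd_zero _

lemma zl_mem {N : ℕ} {n : ℤ} (h : (N : ℤ) ∣ n) : zl n ∈ Gamma0 N := by
  rw [mem_Gamma0_iff_dvd]; exact h

lemma zu_trace (n : ℤ) : (zu n).1.trace ^ 2 = 4 := by
  rw [Matrix.trace_fin_two]; simp [zu]

lemma zl_trace (n : ℤ) : (zl n).1.trace ^ 2 = 4 := by
  rw [Matrix.trace_fin_two]; simp [zl]

lemma io_zu (n : ℤ) : io (zu n) = uu n := by
  apply SQ_ext <;> simp [io_apply, zu, uu]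

lemma io_zl (n : ℤ) : io (zl n) = ll n := by
  apply SQ_ext <;> simp [io_apply, zl, ll]

lemma col_coprime (g : SL(2, ℤ)) : IsCoprime (g.1 0 0) (g.1 1 0) :=
  ⟨g.1 1 1, -g.1 0 1, by linear_combination zdet g⟩

lemma exists_mk (a c : ℤ) (h : IsCoprime a c) : ∃ g : SL(2, ℤ), g.1 0 0 = a ∧ g.1 1 0 = c := by
  obtain ⟨u, v, huv⟩ := h
  refine ⟨⟨!![a, -v; c, u], ?_⟩, rfl, rfl⟩
  rw [Matrix.det_fin_two_of]
  linear_combination huv

lemma exists_mk_Gamma0 {N : ℕ} (a c : ℤ) (h : IsCoprime a c) (hN : (N : ℤ) ∣ c) :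
    ∃ g ∈ Gamma0 N, g.1 0 0 = a ∧ g.1 1 0 = c := by
  obtain ⟨g, h0, h1⟩ := exists_mk a c h
  exact ⟨g, mem_Gamma0_iff_dvd.mpr (h1 ▸ hN), h0, h1⟩

namespace PHom

variable {N : ℕ} {φ : SL(2, ℤ) → A}

lemma map_one (hφ : PHom N φ) : φ 1 = 0 := by
  have := hφ.mul 1 (one_mem _) 1 (one_mem _)
  rw [mul_one] at this
  simpa using this

lemma map_inv (hφ : PHom N φ) {g : SL(2, ℤ)} (hg : g ∈ Gamma0 N) : φ g⁻¹ = -φ g := by
  have := hφ.mul g hg g⁻¹ (inv_mem hg)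
  rw [mul_inv_cancel, hφ.map_one] at this
  exact (neg_eq_of_add_eq_zero_right this.symm).symm

lemma eq_of_col (hφ : PHom N φ) {g h : SL(2, ℤ)} (hg : g ∈ Gamma0 N) (hh : h ∈ Gamma0 N)
    (h0 : g.1 0 0 = h.1 0 0) (h1 : g.1 1 0 = h.1 1 0) : φ g = φ h := by
  have e : g = h * (h⁻¹ * g) := by group
  rw [e, hφ.mul h hh _ (mul_mem (inv_mem hh) hg), hφ.par _ (mul_mem (inv_mem hh) hg), add_zero]
  have h2 : (h⁻¹ * g).1 0 0 = 1 := by
    rw [(zmul _ _).1, (zinv h).1, (zinv h).2.1, h0, h1]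
    linear_combination zdet h
  have h3 : (h⁻¹ * g).1 1 0 = 0 := by
    rw [(zmul _ _).2.2.1, (zinv h).2.2.1, (zinv h).2.2.2, h0, h1]
    ring
  have h4 := zdet (h⁻¹ * g)
  rw [h2, h3, mul_zero, sub_zero, one_mul] at h4
  rw [Matrix.trace_fin_two, h2, h4]
  norm_num

end PHom

/-- `(a, c) = q^e g e₁` -/
def Rp (q N : ℕ) (a c : ℚ) (e : ℤ) (g : SL(2, ℤ)) : Prop :=
  g ∈ Gamma0 N ∧ a = (q : ℚ) ^ e * g.1 0 0 ∧ c = (q : ℚ) ^ e * g.1 1 0

lemma Rp.unique_aux {q N : ℕ} (hq : q.Prime) {a c : ℚ} {e e' : ℤ} {g g' : SL(2, ℤ)}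
    (h : Rp q N a c e g) (h' : Rp q N a c e' g') (hle : e' ≤ e) :
    e = e' ∧ g.1 0 0 = g'.1 0 0 ∧ g.1 1 0 = g'.1 1 0 := by
  have hq0 : (q : ℚ) ≠ 0 := by exact_mod_cast hq.ne_zero
  obtain ⟨k, hk⟩ := Int.le.dest hle
  have e1 : ∀ x y : ℤ, (q : ℚ) ^ e * x = (q : ℚ) ^ e' * y → (q : ℤ) ^ k * x = y := by
    intro x y hxy
    rw [← hk, zpow_add₀ hq0, zpow_natCast, mul_assoc] at hxy
    have := mul_left_cancel₀ (zpow_ne_zero e' hq0) hxy
    exact_mod_cast this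
  have h0 := e1 _ _ (h.2.1.symm.trans h'.2.1)
  have h1 := e1 _ _ (h.2.2.symm.trans h'.2.2)
  have hk0 : k = 0 := by
    by_contra hk0
    have hd : (q : ℤ) ∣ (q : ℤ) ^ k := dvd_pow_self _ hk0
    have hu : IsUnit (q : ℤ) := by
      refine (col_coprime g').isUnit_of_dvd' ?_ ?_
      · rw [← h0]; exact hd.mul_right _
      · rw [← h1]; exact hd.mul_right _
    exact (Nat.prime_iff_prime_int.mp hq).not_unit hu
  subst hk0
  rw [pow_zero, one_mul] at h0 h1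
  refine ⟨by simpa using hk.symm, h0, h1⟩

lemma Rp.unique {q N : ℕ} (hq : q.Prime) {a c : ℚ} {e e' : ℤ} {g g' : SL(2, ℤ)}
    (h : Rp q N a c e g) (h' : Rp q N a c e' g') :
    e = e' ∧ g.1 0 0 = g'.1 0 0 ∧ g.1 1 0 = g'.1 1 0 := by
  rcases le_total e' e with hle | hle
  · exact h.unique_aux hq h' hle
  · obtain ⟨h1, h2, h3⟩ := h'.unique_aux hq h hle
    exact ⟨h1.symm, h2.symm, h3.symm⟩

open Classical in
/-- the function on unimodular vectors -/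
noncomputable def fv (q N : ℕ) (φ : SL(2, ℤ) → A) (κ : A) (a c : ℚ) : A :=
  if h : ∃ p : ℤ × SL(2, ℤ), Rp q N a c p.1 p.2 then φ h.choose.2 - h.choose.1 • κ else 0

lemma fv_eq {q N : ℕ} (hq : q.Prime) {φ : SL(2, ℤ) → A} (hφ : PHom N φ) (κ : A) {a c : ℚ} {e : ℤ}
    {g : SL(2, ℤ)} (h : Rp q N a c e g) : fv q N φ κ a c = φ g - e • κ := by
  have hex : ∃ p : ℤ × SL(2, ℤ), Rp q N a c p.1 p.2 := ⟨(e, g), h⟩
  rw [fv, dif_pos hex]
  obtain ⟨h1, h2, h3⟩ := hex.choose_spec.unique hq h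
  rw [h1, hφ.eq_of_col hex.choose_spec.1 h.1 h2 h3]

/-- elements of `GO` have a column of the required form -/
lemma exists_Rp {q N : ℕ} (hq : q.Prime) (hqN : ¬ q ∣ N) {g : SQ} (hg : g ∈ GO q N) :
    ∃ e γ, Rp q N (g.1 0 0) (g.1 1 0) e γ := by
  have hq0 : (q : ℚ) ≠ 0 := by exact_mod_cast hq.ne_zero
  have hcop : IsCoprime (N : ℤ) (q : ℤ) := by
    rw [Nat.isCoprime_iff_coprime]
    exact ((Nat.Prime.coprime_iff_not_dvd hq).mpr hqN).symm
  obtain ⟨n1, a1, ha1⟩ := hg.1 0 0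
  obtain ⟨n2, c1, hc1⟩ := hg.2
  obtain ⟨n3, b1, hb1⟩ := hg.1 0 1
  obtain ⟨n4, d1, hd1⟩ := hg.1 1 1
  push_cast at ha1 hb1 hc1 hd1
  rw [one_mul] at ha1 hb1 hd1
  -- common denominators
  set n := n1 + n2 with hn
  set a2 : ℤ := a1 * q ^ n2 with ha2
  set c2 : ℤ := N * c1 * q ^ n1 with hc2
  have hA : g.1 0 0 * (q : ℚ) ^ n = a2 := by
    rw [ha2, hn]; push_cast; rw [pow_add]; linear_combination (q : ℚ) ^ n2 * ha1
  have hC : g.1 1 0 * (q : ℚ) ^ n = c2 := by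
    rw [hc2, hn]; push_cast; rw [pow_add]; linear_combination (q : ℚ) ^ n1 * hc1
  have hdet := det_eq g
  -- the gcd is a power of q
  have hcomb : a2 * (d1 * q ^ n3) - c2 * (b1 * q ^ n4) = (q : ℤ) ^ (n + n3 + n4) := by
    have : (a2 : ℚ) * (d1 * q ^ n3) - c2 * (b1 * q ^ n4) = (q : ℚ) ^ (n + n3 + n4) := by
      rw [← hA, ← hC, ← hd1, ← hb1, pow_add, pow_add]
      linear_combination (q : ℚ) ^ n * (q : ℚ) ^ n3 * (q : ℚ) ^ n4 * hdet
    exact_mod_cast this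
  have hg2 : (Int.gcd a2 c2 : ℤ) ∣ (q : ℤ) ^ (n + n3 + n4) := by
    rw [← hcomb]
    exact dvd_sub ((Int.gcd_dvd_left ..).mul_right _) ((Int.gcd_dvd_right ..).mul_right _)
  have hg3 : Int.gcd a2 c2 ∣ q ^ (n + n3 + n4) := by exact_mod_cast hg2
  obtain ⟨t, -, ht⟩ := (Nat.dvd_prime_pow hq).mp hg3
  have hgpos : 0 < Int.gcd a2 c2 := by rw [ht]; exact pow_pos hq.pos _
  obtain ⟨a', c', hac, ha', hc'⟩ := Int.exists_gcd_one hgpos
  have hcop' : IsCoprime a' c' := Int.isCoprime_iff_gcd_eq_one.mpr hac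
  have hN' : (N : ℤ) ∣ c' := by
    have h1 : (N : ℤ) ∣ (q : ℤ) ^ t * c' := by
      have : (q : ℤ) ^ t * c' = c2 := by rw [hc', ht]; push_cast; ring
      rw [this, hc2, mul_assoc]
      exact dvd_mul_right _ _
    exact hcop.pow_right.dvd_of_dvd_mul_left h1
  obtain ⟨γ, hγ, h0, h1⟩ := exists_mk_Gamma0 a' c' hcop' hN'
  refine ⟨(t : ℤ) - n, γ, hγ, ?_, ?_⟩
  · rw [h0, zpow_sub₀ hq0, zpow_natCast, zpow_natCast, div_mul_eq_mul_div, eq_div_iff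
      (pow_ne_zero _ hq0), hA, ha', ht]
    push_cast; ring
  · rw [h1, zpow_sub₀ hq0, zpow_natCast, zpow_natCast, div_mul_eq_mul_div, eq_div_iff
      (pow_ne_zero _ hq0), hC, hc', ht]
    push_cast; ring

/-- `g = γ h^e u(x)` -/
lemma exists_decomp {q N : ℕ} (hq : q.Prime) (hqN : ¬ q ∣ N) {g : SQ} (hg : g ∈ GO q N) :
    ∃ (e : ℤ) (γ : SL(2, ℤ)) (x : ℚ), γ ∈ Gamma0 N ∧ D q 1 x ∧
      g = io γ * hh q hq.ne_zero e * uu x := by
  have hq0 : (q : ℚ) ≠ 0 := by exact_mod_cast hq.ne_zero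
  obtain ⟨e, γ, hγ, h0, h1⟩ := exists_Rp hq hqN hg
  set k := (io γ * hh q hq.ne_zero e)⁻¹ * g with hk
  have hkm : k ∈ GO q N := mul_mem (inv_mem (mul_mem (io_mem_GO hγ) (hh_mem_GO _ _))) hg
  have e00 : (io γ * hh q hq.ne_zero e).1 0 0 = g.1 0 0 := by
    rw [(mul_entries _ _).1, h0]
    simp [hh, dg, io_apply, mul_comm]
  have e10 : (io γ * hh q hq.ne_zero e).1 1 0 = g.1 1 0 := by
    rw [(mul_entries _ _).2.2.1, h1]
    simp [hh, dg, io_apply, mul_comm]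
  have k00 : k.1 0 0 = 1 := by
    rw [hk, (mul_entries _ _).1, inv_00, inv_01, ← e00, ← e10]
    linear_combination det_eq (io γ * hh q hq.ne_zero e)
  have k10 : k.1 1 0 = 0 := by
    rw [hk, (mul_entries _ _).2.2.1, inv_10, inv_11, ← e00, ← e10]
    ring
  have k11 : k.1 1 1 = 1 := by
    have := det_eq k
    rw [k00, k10] at this
    linear_combination this
  refine ⟨e, γ, k.1 0 1, hγ, hkm.1 0 1, ?_⟩
  have : uu (k.1 0 1) = k := by
    apply SQ_ext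
    · exact k00.symm
    · rfl
    · exact k10.symm
    · exact k11.symm
  rw [this, hk]
  group

/-- the hypothesis of Ihara's lemma -/
def IharaRel (q N : ℕ) (φ φ' : SL(2, ℤ) → A) : Prop :=
  ∀ g g' : SL(2, ℤ), g' ∈ Gamma0 N → DC q g g' → φ g = φ' g'

lemma exists_g0 {q N : ℕ} (hq : q.Prime) (hqN : ¬ q ∣ N) :
    ∃ g ∈ Gamma0 N, g.1 0 0 = (q : ℤ) ∧ g.1 1 0 = (N : ℤ) :=
  exists_mk_Gamma0 _ _ (by
    rw [Nat.isCoprime_iff_coprime]
    exact (Nat.Prime.coprime_iff_not_dvd hq).mpr hqN) (dvd_refl _)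

/-- the key identity -/
lemma key_identity {q N : ℕ} (hq : q.Prime) (hqN : ¬ q ∣ N) {φ φ' : SL(2, ℤ) → A}
    (hφ : PHom N φ) (hφ' : PHom N φ') (H : IharaRel q N φ φ') {g0 : SL(2, ℤ)}
    (hg0 : g0 ∈ Gamma0 N) (h00 : g0.1 0 0 = (q : ℤ)) (h10 : g0.1 1 0 = (N : ℤ))
    {a c : ℚ} {e e' : ℤ} {g g' : SL(2, ℤ)} (h : Rp q N a c e g) (h' : Rp q N (q * a) c e' g') :
    φ g - e • (-φ' g0) = φ' g' - (e' - 1) • (-φ' g0) := by
  have hq0 : (q : ℚ) ≠ 0 := by exact_mod_cast hq.ne_zero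
  have hcop : IsCoprime (N : ℤ) (q : ℤ) := by
    rw [Nat.isCoprime_iff_coprime]
    exact ((Nat.Prime.coprime_iff_not_dvd hq).mpr hqN).symm
  by_cases hqc : (q : ℤ) ∣ g.1 1 0
  · obtain ⟨w, hw⟩ := hqc
    -- g'' = δ g δ⁻¹
    let g2 : SL(2, ℤ) := ⟨!![g.1 0 0, q * g.1 0 1; w, g.1 1 1], by
      rw [Matrix.det_fin_two_of]
      have := zdet g
      rw [hw] at this
      linear_combination this⟩
    have hg2 : g2 ∈ Gamma0 N := by
      rw [mem_Gamma0_iff_dvd]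
      have := mem_Gamma0_iff_dvd.mp h.1
      rw [hw] at this
      exact hcop.dvd_of_dvd_mul_left this
    have hDC : DC q g g2 := ⟨rfl, rfl, hw.symm, rfl⟩
    have hR : Rp q N (q * a) c (e + 1) g2 := by
      refine ⟨hg2, ?_, ?_⟩
      · rw [h.2.1, zpow_add₀ hq0, zpow_one]
        change _ = _ * ((g.1 0 0 : ℤ) : ℚ)
        ring
      · rw [h.2.2, hw, zpow_add₀ hq0, zpow_one]
        push_cast
        change _ = _ * ((w : ℤ) : ℚ)
        ring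
    obtain ⟨e1, e2, e3⟩ := h'.unique hq hR
    rw [H g g2 hg2 hDC, hφ'.eq_of_col h'.1 hg2 e2 e3, e1]
    congr 2
    ring
  · -- q ∤ c
    have hqp : Prime (q : ℤ) := Nat.prime_iff_prime_int.mp hq
    have hcqc : IsCoprime (q : ℤ) (g.1 1 0) := (Prime.coprime_iff_not_dvd hqp).mpr hqc
    have hcop2 : IsCoprime ((q : ℤ) * g.1 0 0) (g.1 1 0) :=
      IsCoprime.mul_left hcqc (col_coprime g)
    obtain ⟨g2, hg2, h20, h21⟩ := exists_mk_Gamma0 (N := N) _ _ hcop2 (mem_Gamma0_iff_dvd.mp h.1)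
    have hR : Rp q N (q * a) c e g2 := by
      refine ⟨hg2, ?_, ?_⟩
      · rw [h.2.1, h20]; push_cast; ring
      · rw [h.2.2, h21]
    obtain ⟨e1, e2, e3⟩ := h'.unique hq hR
    rw [hφ'.eq_of_col h'.1 hg2 e2 e3, e1]
    -- choose k with q ∣ c - N (d + k c)
    have hcopNc : IsCoprime ((N : ℤ) * g.1 1 0) (q : ℤ) := IsCoprime.mul_left hcop hcqc.symm
    obtain ⟨u, v, huv⟩ := hcopNc
    set k : ℤ := u * (g.1 1 0 - N * g.1 1 1) with hk
    set τ : SL(2, ℤ) := g * zu k * zl (-N) with hτ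
    have hτm : τ ∈ Gamma0 N := mul_mem (mul_mem h.1 (zu_mem _ _)) (zl_mem ⟨-1, by ring⟩)
    have hgτ : g * zu k = τ * zl N := by
      have : zl (-(N : ℤ)) * zl N = 1 := by
        apply zext <;> simp [zl]
      rw [hτ, mul_assoc, this, mul_one]
    have hτ10 : τ.1 1 0 = g.1 1 0 - N * (g.1 1 1 + k * g.1 1 0) := by
      rw [hτ, (zmul _ _).2.2.1, (zmul _ _).2.2.1, (zmul _ _).2.2.2]
      simp [zu, zl]
      ring
    have hqτ : (q : ℤ) ∣ τ.1 1 0 := by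
      rw [hτ10, hk]
      exact ⟨v * (g.1 1 0 - N * g.1 1 1), by linear_combination (-(g.1 1 0 - N * g.1 1 1)) * huv⟩
    obtain ⟨w, hw⟩ := hqτ
    let τ2 : SL(2, ℤ) := ⟨!![τ.1 0 0, q * τ.1 0 1; w, τ.1 1 1], by
      rw [Matrix.det_fin_two_of]
      have := zdet τ
      rw [hw] at this
      linear_combination this⟩
    have hτ2 : τ2 ∈ Gamma0 N := by
      rw [mem_Gamma0_iff_dvd]
      have := mem_Gamma0_iff_dvd.mp hτm
      rw [hw] at this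
      exact hcop.dvd_of_dvd_mul_left this
    have hDC : DC q τ τ2 := ⟨rfl, rfl, hw.symm, rfl⟩
    have f1 : φ g = φ τ := by
      have e4 : φ (g * zu k) = φ g := by
        rw [hφ.mul _ h.1 _ (zu_mem _ _), hφ.par _ (zu_mem _ _) (zu_trace _), add_zero]
      have e5 : φ (τ * zl N) = φ τ := by
        rw [hφ.mul _ hτm _ (zl_mem (dvd_refl _)), hφ.par _ (zl_mem (dvd_refl _)) (zl_trace _),
          add_zero]
      rw [← e4, hgτ, e5]
    have f2 : φ' g2 = φ' τ2 + φ' g0 := by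
      rw [← hφ'.mul _ hτ2 _ hg0]
      have c0 : (g * zu k).1 0 0 = g.1 0 0 := by rw [(zmul _ _).1]; simp [zu]
      have c1 : (g * zu k).1 1 0 = g.1 1 0 := by rw [(zmul _ _).2.2.1]; simp [zu]
      rw [hgτ, (zmul _ _).1] at c0
      rw [hgτ, (zmul _ _).2.2.1] at c1
      refine hφ'.eq_of_col hg2 (mul_mem hτ2 hg0) ?_ ?_
      · rw [h20, (zmul _ _).1, h00, h10, ← c0]
        change _ = τ.1 0 0 * q + (q * τ.1 0 1) * N
        simp [zl]
        ring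
      · rw [h21, (zmul _ _).2.2.1, h00, h10, ← c1]
        change _ = w * q + τ.1 1 1 * N
        simp [zl]
        rw [hw]
        ring
    rw [f1, H τ τ2 hτ2 hDC, f2, sub_smul, one_smul]
    abel

section ext

variable {q N : ℕ} {φ φ' : SL(2, ℤ) → A}

/-- the extension of `φ` -/
noncomputable def chi (q N : ℕ) (φ : SL(2, ℤ) → A) (κ : A) (g : SQ) : A :=
  fv q N φ κ (g.1 0 0) (g.1 1 0)

lemma chi_io_mul (hq : q.Prime) (hqN : ¬ q ∣ N) (hφ : PHom N φ) (κ : A) {γ : SL(2, ℤ)}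
    (hγ : γ ∈ Gamma0 N) {g : SQ} (hg : g ∈ GO q N) :
    chi q N φ κ (io γ * g) = chi q N φ κ g + φ γ := by
  obtain ⟨e, τ, h⟩ := exists_Rp hq hqN hg
  have h' : Rp q N ((io γ * g).1 0 0) ((io γ * g).1 1 0) e (γ * τ) := by
    refine ⟨mul_mem hγ h.1, ?_, ?_⟩
    · rw [(mul_entries _ _).1, (zmul _ _).1, h.2.1, h.2.2, io_apply, io_apply]
      push_cast; ring
    · rw [(mul_entries _ _).2.2.1, (zmul _ _).2.2.1, h.2.1, h.2.2, io_apply, io_apply]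
      push_cast; ring
  rw [chi, chi, fv_eq hq hφ κ h, fv_eq hq hφ κ h', hφ.mul _ hγ _ h.1]
  abel

lemma chi_uu_div_mul (hq : q.Prime) (hqN : ¬ q ∣ N) (hφ : PHom N φ) (hφ' : PHom N φ')
    (H : IharaRel q N φ φ') {g0 : SL(2, ℤ)}
    (hg0 : g0 ∈ Gamma0 N) (h00 : g0.1 0 0 = (q : ℤ)) (h10 : g0.1 1 0 = (N : ℤ)) (z : ℤ)
    {g : SQ} (hg : g ∈ GO q N) :
    chi q N φ (-φ' g0) (uu (z / q) * g) = chi q N φ (-φ' g0) g := by
  have hq0 : (q : ℚ) ≠ 0 := by exact_mod_cast hq.ne_zero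
  have hz : D q 1 ((z : ℚ) / q) := ⟨1, z, by push_cast; field_simp⟩
  have hg2 : uu (z / q) * g ∈ GO q N := mul_mem (uu_mem_GO hz) hg
  obtain ⟨e, τ, h⟩ := exists_Rp hq hqN hg
  obtain ⟨e2, τ2, h2⟩ := exists_Rp hq hqN hg2
  -- the vector `δ v`
  have hqcop : IsCoprime (N : ℤ) (q : ℤ) := by
    rw [Nat.isCoprime_iff_coprime]
    exact ((Nat.Prime.coprime_iff_not_dvd hq).mpr hqN).symm
  have hd : ∀ {k : SQ}, k ∈ GO q N → ∃ e' γ', Rp q N (q * k.1 0 0) (k.1 1 0) e' γ' := by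
    intro k hk
    obtain ⟨e1, γ1, hγ1, ha, hc⟩ := exists_Rp hq hqN hk
    by_cases hqc : (q : ℤ) ∣ γ1.1 1 0
    · obtain ⟨w, hw⟩ := hqc
      obtain ⟨γ', hγ', p0, p1⟩ := exists_mk_Gamma0 (N := N) (γ1.1 0 0) w
        ((col_coprime γ1).of_isCoprime_of_dvd_right ⟨q, by rw [hw]; ring⟩)
        (by
          have := mem_Gamma0_iff_dvd.mp hγ1
          rw [hw] at this
          exact hqcop.dvd_of_dvd_mul_left this)
      refine ⟨e1 + 1, γ', hγ', ?_, ?_⟩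
      · rw [ha, p0, zpow_add₀ hq0, zpow_one]; ring
      · rw [hc, p1, hw, zpow_add₀ hq0, zpow_one]; push_cast; ring
    · have hcqc : IsCoprime (q : ℤ) (γ1.1 1 0) :=
        (Prime.coprime_iff_not_dvd (Nat.prime_iff_prime_int.mp hq)).mpr hqc
      obtain ⟨γ', hγ', p0, p1⟩ := exists_mk_Gamma0 (N := N) _ _
        (IsCoprime.mul_left hcqc (col_coprime γ1)) (mem_Gamma0_iff_dvd.mp hγ1)
      refine ⟨e1, γ', hγ', ?_, ?_⟩
      · rw [ha, p0]; push_cast; ring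
      · rw [hc, p1]
  obtain ⟨e', τ', h'⟩ := hd hg
  have h2' : Rp q N (q * (uu (z / q) * g).1 0 0) ((uu (z / q) * g).1 1 0) e' (zu z * τ') := by
    refine ⟨mul_mem (zu_mem _ _) h'.1, ?_, ?_⟩
    · rw [(mul_entries _ _).1, (zmul _ _).1]
      have e3 : (q : ℚ) * ((uu (z / q)).1 0 0 * g.1 0 0 + (uu (z / q)).1 0 1 * g.1 1 0) =
          q * g.1 0 0 + z * g.1 1 0 := by
        simp [uu]
        field_simp
      rw [e3, h'.2.1, h'.2.2]
      simp [zu]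
      ring
    · rw [(mul_entries _ _).2.2.1, (zmul _ _).2.2.1]
      simp [uu, zu]
      exact h'.2.2
  have k1 := key_identity hq hqN hφ hφ' H hg0 h00 h10 h h'
  have k2 := key_identity hq hqN hφ hφ' H hg0 h00 h10 h2 h2'
  rw [chi, chi, fv_eq hq hφ _ h, fv_eq hq hφ _ h2, k1, k2,
    hφ'.mul _ (zu_mem _ _) _ h'.1, hφ'.par _ (zu_mem _ _) (zu_trace _), zero_add]

/-- **Extension**: a homomorphism on `{g ∈ SL₂(ℤ[1/q]) : N ∣ c}` -/
theorem exists_extension (hq : q.Prime) (hqN : ¬ q ∣ N) (hφ : PHom N φ) (hφ' : PHom N φ')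
    (H : IharaRel q N φ φ') :
    ∃ χ : SQ → A, (∀ g ∈ GO q N, ∀ h ∈ GO q N, χ (g * h) = χ g + χ h) ∧
      (∀ γ ∈ Gamma0 N, χ (io γ) = φ γ) := by
  have hq0 : (q : ℚ) ≠ 0 := by exact_mod_cast hq.ne_zero
  obtain ⟨g0, hg0, h00, h10⟩ := exists_g0 hq hqN
  set κ : A := -φ' g0 with hκ
  -- the subgroup of good elements
  let P : SQ → Prop := fun h => h ∈ GO q N ∧ ∃ C : A, ∀ g ∈ GO q N,
    chi q N φ κ (h * g) = chi q N φ κ g + C
  have Pmul : ∀ {h k}, P h → P k → P (h * k) := by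
    rintro h k ⟨h1, C, hC⟩ ⟨k1, C', hC'⟩
    refine ⟨mul_mem h1 k1, C' + C, fun g hg => ?_⟩
    rw [mul_assoc, hC _ (mul_mem k1 hg), hC' g hg, add_assoc]
  have Pinv : ∀ {h}, P h → P h⁻¹ := by
    rintro h ⟨h1, C, hC⟩
    refine ⟨inv_mem h1, -C, fun g hg => ?_⟩
    have := hC (h⁻¹ * g) (mul_mem (inv_mem h1) hg)
    rw [mul_inv_cancel_left] at this
    rw [this]
    abel
  have Pio : ∀ {γ}, γ ∈ Gamma0 N → P (io γ) := fun {γ} hγ =>
    ⟨io_mem_GO hγ, φ γ, fun g hg => chi_io_mul hq hqN hφ κ hγ hg⟩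
  have Pu : ∀ z : ℤ, P (uu (z / q)) := fun z =>
    ⟨uu_mem_GO ⟨1, z, by push_cast; field_simp⟩, 0, fun g hg => by
      rw [add_zero, hκ]
      exact chi_uu_div_mul hq hqN hφ hφ' H hg0 h00 h10 z hg⟩
  have Ph1 : P (hh q hq.ne_zero 1) := by
    have e : hh q hq.ne_zero 1 = io g0 * uu (((-g0.1 0 1 : ℤ) : ℚ) / q) * io (zl (-(q * N))) := by
      have hdet : (q : ℚ) * g0.1 1 1 - g0.1 0 1 * N = 1 := by
        have := zdet g0
        rw [h00, h10] at this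
        exact_mod_cast this
      rw [io_zl]
      apply SQ_ext
      · simp only [(mul_entries _ _).1, (mul_entries _ _).2.1, io_apply, h00]
        simp [hh, dg, uu, ll]
        field_simp
        ring_nf
        exact Or.inl trivial
      · simp only [(mul_entries _ _).1, (mul_entries _ _).2.1, io_apply, h00]
        simp [hh, dg, uu, ll]
        field_simp
        ring
      · simp only [(mul_entries _ _).2.2.1, (mul_entries _ _).2.2.2, io_apply, h10]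
        simp [hh, dg, uu, ll]
        field_simp
        linear_combination (N : ℚ) * hdet
      · simp only [(mul_entries _ _).2.2.1, (mul_entries _ _).2.2.2, io_apply, h10]
        simp [hh, dg, uu, ll]
        field_simp
        linear_combination -hdet
    rw [e]
    exact Pmul (Pmul (Pio hg0) (Pu _)) (Pio (zl_mem ⟨-q, by ring⟩))
  have Phn : ∀ n : ℕ, P (hh q hq.ne_zero n) := by
    intro n
    induction n with
    | zero =>
      rw [Nat.cast_zero, hh_zero]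
      have := Pio (one_mem (Gamma0 N))
      rwa [_root_.map_one] at this
    | succ n ih =>
      rw [Nat.cast_succ, hh_add]
      exact Pmul ih Ph1
  have Ph : ∀ n : ℤ, P (hh q hq.ne_zero n) := by
    intro n
    obtain ⟨m, rfl | rfl⟩ := n.eq_nat_or_neg
    · exact Phn m
    · rw [hh_neg]; exact Pinv (Phn m)
  have Puu : ∀ {x : ℚ}, D q 1 x → P (uu x) := by
    rintro x ⟨n, z, hz⟩
    rw [Int.cast_one, one_mul] at hz
    have e : uu x = hh q hq.ne_zero (-n) * uu (((z * q ^ (n + 1) : ℤ) : ℚ) / q) *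
        (hh q hq.ne_zero (-n))⁻¹ := by
      rw [hh, dg_conj_uu]
      congr 1
      push_cast
      rw [← hz, zpow_neg, zpow_natCast, pow_succ]
      field_simp
      ring
    rw [e]
    exact Pmul (Pmul (Ph _) (Pu _)) (Pinv (Ph _))
  have Pall : ∀ {g}, g ∈ GO q N → P g := by
    intro g hg
    obtain ⟨e, γ, x, hγ, hx, rfl⟩ := exists_decomp hq hqN hg
    exact Pmul (Pmul (Pio hγ) (Ph e)) (Puu hx)
  have hone : chi q N φ κ 1 = 0 := by
    have h : Rp q N ((1 : SQ).1 0 0) ((1 : SQ).1 1 0) 0 1 := by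
      refine ⟨one_mem _, ?_, ?_⟩ <;> simp
    rw [chi, fv_eq hq hφ κ h, hφ.map_one]
    simp
  refine ⟨chi q N φ κ, ?_, ?_⟩
  · intro g hg h hh'
    obtain ⟨-, C, hC⟩ := Pall hg
    have h1 := hC 1 (one_mem _)
    rw [mul_one, hone, zero_add] at h1
    rw [hC h hh', h1, add_comm]
  · intro γ hγ
    have := chi_io_mul hq hqN hφ κ hγ (one_mem (GO q N))
    rw [mul_one, hone, zero_add] at this
    exact this

lemma hom_one {K : Subgroup SQ} {χ : SQ → A} (hχ : ∀ g ∈ K, ∀ h ∈ K, χ (g * h) = χ g + χ h) :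
    χ 1 = 0 := by
  have := hχ 1 (one_mem _) 1 (one_mem _)
  rw [mul_one] at this
  simpa using this

lemma hom_inv {K : Subgroup SQ} {χ : SQ → A} (hχ : ∀ g ∈ K, ∀ h ∈ K, χ (g * h) = χ g + χ h)
    {g : SQ} (hg : g ∈ K) : χ g⁻¹ = -χ g := by
  have := hχ g hg g⁻¹ (inv_mem hg)
  rw [mul_inv_cancel, hom_one hχ] at this
  exact (neg_eq_of_add_eq_zero_right this.symm).symm

lemma hom_pow {K : Subgroup SQ} {χ : SQ → A} (hχ : ∀ g ∈ K, ∀ h ∈ K, χ (g * h) = χ g + χ h)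
    {g : SQ} (hg : g ∈ K) (n : ℕ) : χ (g ^ n) = n • χ g := by
  induction n with
  | zero => rw [pow_zero, hom_one hχ, zero_smul]
  | succ n ih => rw [pow_succ, hχ _ (pow_mem hg _) _ hg, ih, succ_nsmul]

lemma hom_conj {K : Subgroup SQ} {χ : SQ → A} (hχ : ∀ g ∈ K, ∀ h ∈ K, χ (g * h) = χ g + χ h)
    {g e : SQ} (hg : g ∈ K) (he : e ∈ K) : χ (e * g * e⁻¹) = χ g := by
  rw [hχ _ (mul_mem he hg) _ (inv_mem he), hχ _ he _ hg, hom_inv hχ he]
  abel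

/-- the extension vanishes on unipotent elements -/
theorem extension_unipotent (hq : q.Prime) (hqA : ∀ a : A, q • a = 0 → a = 0)
    (hφ : PHom N φ) {χ : SQ → A}
    (hχ : ∀ g ∈ GO q N, ∀ h ∈ GO q N, χ (g * h) = χ g + χ h)
    (hχφ : ∀ γ ∈ Gamma0 N, χ (io γ) = φ γ) {g : SQ} (hg : g ∈ GO q N) (ht : g.1.trace = 2) :
    χ g = 0 := by
  have hq0 : (q : ℚ) ≠ 0 := by exact_mod_cast hq.ne_zero
  have hqA' : ∀ (n : ℕ) (a : A), q ^ n • a = 0 → a = 0 := by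
    intro n
    induction n with
    | zero => intro a h; simpa using h
    | succ n ih =>
      intro a h
      rw [pow_succ', mul_smul] at h
      exact ih a (hqA _ h)
  set n : Matrix (Fin 2) (Fin 2) ℚ := g.1 - 1 with hn
  have hdet := det_eq g
  rw [Matrix.trace_fin_two] at ht
  have hnn : n * n = 0 := by
    ext i j
    fin_cases i <;> fin_cases j <;>
      simp [hn, Matrix.mul_apply, Fin.sum_univ_two] <;> grind
  have hpow : ∀ k : ℕ, (g ^ k).1 = 1 + (k : ℚ) • n := by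
    intro k
    induction k with
    | zero => simp
    | succ k ih =>
      rw [pow_succ, Matrix.SpecialLinearGroup.coe_mul, ih]
      have : g.1 = 1 + n := by rw [hn]; abel
      rw [this, mul_add, mul_one, add_mul, one_mul, smul_mul_assoc, hnn, smul_zero, add_zero]
      push_cast
      rw [add_smul, one_smul]
      abel
  -- denominators
  have hden : ∃ j : ℕ, (∀ i k, ∃ z : ℤ, (q : ℚ) ^ j * n i k = z) ∧
      ∃ z : ℤ, (q : ℚ) ^ j * n 1 0 = N * z := by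
    obtain ⟨n1, a1, ha1⟩ := hg.1 0 0
    obtain ⟨n2, c1, hc1⟩ := hg.2
    obtain ⟨n3, b1, hb1⟩ := hg.1 0 1
    obtain ⟨n4, d1, hd1⟩ := hg.1 1 1
    rw [Int.cast_one, one_mul] at ha1 hb1 hd1
    push_cast at hc1
    refine ⟨n1 + n2 + n3 + n4, ?_, ?_⟩
    · intro i k
      fin_cases i <;> fin_cases k
      · refine ⟨a1 * q ^ (n2 + n3 + n4) - q ^ (n1 + n2 + n3 + n4), ?_⟩
        simp [hn]
        rw [← ha1]; ring
      · refine ⟨b1 * q ^ (n1 + n2 + n4), ?_⟩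
        simp [hn]
        rw [← hb1]; ring
      · refine ⟨N * c1 * q ^ (n1 + n3 + n4), ?_⟩
        simp [hn]
        rw [← hc1]; ring
      · refine ⟨d1 * q ^ (n1 + n2 + n3) - q ^ (n1 + n2 + n3 + n4), ?_⟩
        simp [hn]
        rw [← hd1]; ring
    · refine ⟨c1 * q ^ (n1 + n3 + n4), ?_⟩
      simp [hn]
      rw [← mul_assoc, ← hc1]; ring
  obtain ⟨j, hj, hj'⟩ := hden
  choose z hz using hj
  obtain ⟨w, hw⟩ := hj'
  have hent : ∀ i k, (g ^ (q ^ j)).1 i k = (1 : Matrix (Fin 2) (Fin 2) ℚ) i k + z i k := by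
    intro i k
    rw [hpow, Matrix.add_apply, Matrix.smul_apply, smul_eq_mul, ← hz i k]
    push_cast
    rfl
  have e00 : (g ^ (q ^ j)).1 0 0 = 1 + z 0 0 := by rw [hent]; simp
  have e01 : (g ^ (q ^ j)).1 0 1 = z 0 1 := by rw [hent]; simp
  have e10 : (g ^ (q ^ j)).1 1 0 = z 1 0 := by rw [hent]; simp
  have e11 : (g ^ (q ^ j)).1 1 1 = 1 + z 1 1 := by rw [hent]; simp
  have hdz : (1 + z 0 0) * (1 + z 1 1) - z 0 1 * z 1 0 = 1 := by
    have := det_eq (g ^ (q ^ j))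
    rw [e00, e01, e10, e11] at this
    exact_mod_cast this
  let γ : SL(2, ℤ) := ⟨!![1 + z 0 0, z 0 1; z 1 0, 1 + z 1 1], by
    rw [Matrix.det_fin_two_of]; exact hdz⟩
  have hγ : io γ = g ^ (q ^ j) := by
    apply SQ_ext
    · rw [e00, io_apply]; simp [γ]
    · rw [e01, io_apply]; simp [γ]
    · rw [e10, io_apply]; simp [γ]
    · rw [e11, io_apply]; simp [γ]
  have hγm : γ ∈ Gamma0 N := by
    rw [mem_Gamma0_iff_dvd]
    change (N : ℤ) ∣ z 1 0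
    refine ⟨w, ?_⟩
    have := (hz 1 0).symm.trans hw
    exact_mod_cast this
  have hγt : γ.1.trace = 2 := by
    rw [Matrix.trace_fin_two]
    change (1 + z 0 0) + (1 + z 1 1) = 2
    have h3 : (z 0 0 : ℚ) + z 1 1 = 0 := by
      rw [← hz, ← hz, ← mul_add]
      simp [hn]
      right
      linarith
    have h4 : z 0 0 + z 1 1 = 0 := by exact_mod_cast h3
    linarith
  have h5 : χ (g ^ (q ^ j)) = 0 := by
    rw [← hγ, hχφ γ hγm, hφ.par γ hγm (by rw [hγt]; norm_num)]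
  rw [hom_pow hχ hg] at h5
  exact hqA' j _ h5

end ext

end Fermat.Agent.LevelRaise
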