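import Fermat.Agent.LevelRaise.Raise

/-!
# Level raising: the new character
-/

set_option autoImplicit false

open Matrix.SpecialLinearGroup
open scoped MatrixGroups
open Fermat.Agent.AL ModularCurve CongruenceSubgroup Fermat.Agent.HeckeHom Fermat.Agent.ALCoh
open ModularCurve.Period CuspForm

namespace Fermat.Agent.LevelRaise

noncomputable section

variable {N : ℕ} [NeZero N] {S : Set ℕ} {q p r r₀ : ℕ} [NeZero (N * q)]

/-- the Hecke operators killing the kernel of the two traces -/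
def killI (hq : q.Prime) {B : M2} (hB : B ∈ WS (N * q) q) :
    Ideal (heckeAlgebra (N * q) 2 ∅) where
  carrier := {t | ∀ b : LZ (N * q), trL (dvd_mul_right N q) b = 0 →
      trL (dvd_mul_right N q) (wL hq hB b) = 0 → actL (N * q) ∅ t b = 0}
  add_mem' := fun {s t} hs ht b h1 h2 => by
    rw [map_add, LinearMap.add_apply, hs b h1 h2, ht b h1 h2, add_zero]
  zero_mem' := fun b _ _ => by rw [map_zero, LinearMap.zero_apply]
  smul_mem' := fun c t ht b h1 h2 => by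
    rw [smul_eq_mul, map_mul, Module.End.mul_apply, ht b h1 h2, map_zero]

lemma mem_killI (hq : q.Prime) {B : M2} (hB : B ∈ WS (N * q) q)
    (t : heckeAlgebra (N * q) 2 ∅) : t ∈ killI hq hB ↔
      ∀ b : LZ (N * q), trL (dvd_mul_right N q) b = 0 →
      trL (dvd_mul_right N q) (wL hq hB b) = 0 → actL (N * q) ∅ t b = 0 := Iff.rfl

/-- `U_q² = 1` on the kernel of the traces -/
lemma U_sq_mem_killI (hq : q.Prime) (hqN : ¬ q ∣ N) {B : M2} (hB : B ∈ WS (N * q) q) :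
    heckeAlgebra.U (N := N * q) (k := 2) (S := ∅) hq (dvd_mul_left q N) (Set.notMem_empty _) ^ 2 - 1
      ∈ killI hq hB := by
  rw [mem_killI]
  intro b h1 h2
  have key : ∀ c : LZ (N * q), trL (dvd_mul_right N q) (wL hq hB c) = 0 →
      actL (N * q) ∅ (heckeAlgebra.U hq (dvd_mul_left q N) (Set.notMem_empty _)) c =
        - wL hq hB c := by
    intro c hc
    apply Subtype.ext
    rw [actL_U, opU_eq_neg_wL hq hB hqN c hc]
    rfl
  rw [map_sub, map_one, map_pow, sq, LinearMap.sub_apply, Module.End.mul_apply,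
    Module.End.one_apply, key b h2, map_neg, key (wL hq hB b) (by rw [wL_wL]; exact h1), wL_wL]
  abel

theorem raise (hp : p.Prime) (hp2 : p ≠ 2) (hqp : q ≠ p) (h : Aux q N r r₀)
    (hMS : ∀ l : ℕ, l.Prime → l ∣ N * q → l ∈ S)
    (ψ : haveI : Fact p.Prime := ⟨hp⟩; heckeAlgebra N 2 (S \ {q}) →+* ZMod p)
    (ε : ℤ) (hε : ε ^ 2 = 1)
    (hψq : ψ (heckeAlgebra.T h.hq h.hqN (fun h' => h'.2 rfl)) = (ε : ZMod p) * (q + 1))
    (hrS : r ∉ S)
    (hψr : ψ (heckeAlgebra.T h.hr h.hrN (notMem_diff hrS)) ^ 2 ≠ ((r : ZMod p) + 1) ^ 2) :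
    ∃ (χ : heckeAlgebra (N * q) 2 ∅ →+* integralClosure ℤ ℂ) (𝔐 : Ideal (integralClosure ℤ ℂ)),
      𝔐.IsMaximal ∧ (p : integralClosure ℤ ℂ) ∈ 𝔐 ∧
      χ (heckeAlgebra.U h.hq (dvd_mul_left q N) (Set.notMem_empty _)) ^ 2 = 1 ∧
      ∀ (l : ℕ) (hl : l.Prime) (hlN : ¬ l ∣ N) (hlM : ¬ l ∣ N * q) (hlS : l ∉ S) (n : ℤ),
        (n : ZMod p) = ψ (heckeAlgebra.T hl hlN (notMem_diff hlS)) →
        χ (heckeAlgebra.T hl hlM (Set.notMem_empty _)) - (n : integralClosure ℤ ℂ) ∈ 𝔐 := by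
  haveI : Fact p.Prime := ⟨hp⟩
  have hNS : ∀ l : ℕ, l.Prime → l ∣ N → l ∈ S := fun l hl hlN => hMS l hl (hlN.mul_right q)
  have hco : q.Coprime (N * q / q) := by
    rw [Nat.mul_div_cancel _ h.hq.pos]
    exact (Nat.Prime.coprime_iff_not_dvd h.hq).mpr h.hqN
  obtain ⟨B, hB⟩ := exists_WS (dvd_mul_left q N) hco
  let I : Ideal (heckeAlgebra (N * q) 2 ∅) := killI h.hq hB
  let f : MvPolynomial (sg S) ℤ →+* (heckeAlgebra (N * q) 2 ∅) ⧸ I :=
    (Ideal.Quotient.mk I).comp ((inclH (Set.empty_subset S)).comp (evT hMS))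
  have hf : ∀ P, f P = Ideal.Quotient.mk I (inclH (Set.empty_subset S) (evT hMS P)) :=
    fun _ => rfl
  let θ : MvPolynomial (sg S) ℤ →+* ZMod p := (ψ.comp (inclH Set.sdiff_subset)).comp (evT hNS)
  have hθ : ∀ P, θ P = ψ (inclH Set.sdiff_subset (evT hNS P)) := fun _ => rfl
  haveI hfin : Module.Finite ℤ (heckeAlgebra (N * q) 2 ∅) := Fermat.Agent.S22.result _ 2 _
  haveI : Module.Finite ℤ ((heckeAlgebra (N * q) 2 ∅) ⧸ I) :=
    Module.Finite.of_surjective (Ideal.Quotient.mk I).toAddMonoidHom.toIntLinearMap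
      Ideal.Quotient.mk_surjective
  have hint : Algebra.IsIntegral ℤ ((heckeAlgebra (N * q) 2 ∅) ⧸ I) :=
    Algebra.IsIntegral.of_finite ℤ _
  letI : Algebra (MvPolynomial (sg S) ℤ) ((heckeAlgebra (N * q) 2 ∅) ⧸ I) := f.toAlgebra
  haveI : Algebra.IsIntegral (MvPolynomial (sg S) ℤ) ((heckeAlgebra (N * q) 2 ∅) ⧸ I) := by
    constructor
    intro z
    obtain ⟨P, hPm, hP⟩ := hint.isIntegral z
    refine ⟨P.map (algebraMap ℤ (MvPolynomial (sg S) ℤ)), hPm.map _, ?_⟩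
    rw [Polynomial.eval₂_map]
    rw [← hP]
    congr 1
    exact Subsingleton.elim _ _
  have hθsurj : Function.Surjective θ := fun y => by
    obtain ⟨n, rfl⟩ := ZMod.intCast_surjective y
    exact ⟨n, map_intCast _ _⟩
  haveI hmax : (RingHom.ker θ).IsMaximal := RingHom.ker_isMaximal_of_surjective θ hθsurj
  have hker : RingHom.ker (algebraMap (MvPolynomial (sg S) ℤ) ((heckeAlgebra (N * q) 2 ∅) ⧸ I)) ≤
      RingHom.ker θ := by
    intro P hP
    have h1 : f P = 0 := hP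
    rw [hf, Ideal.Quotient.eq_zero_iff_mem] at h1
    have h2 := (mem_killI h.hq hB _).mp h1
    rw [RingHom.mem_ker, hθ]
    refine kill_imp hp hp2 hqp h hMS hNS ψ ε hε hψq hrS hψr hB P fun b hb1 hb2 => ?_
    rw [← actL_inclH (Set.empty_subset S)]
    exact h2 b hb1 hb2
  obtain ⟨𝔑', h𝔑'max, h𝔑'⟩ := Ideal.exists_ideal_over_maximal_of_isIntegral
    (S := (heckeAlgebra (N * q) 2 ∅) ⧸ I) (RingHom.ker θ) hker
  have hmem : ∀ P, inclH (Set.empty_subset S) (evT hMS P) ∈ 𝔑'.comap (Ideal.Quotient.mk I) ↔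
      θ P = 0 := by
    intro P
    rw [← RingHom.mem_ker, ← h𝔑', Ideal.mem_comap, Ideal.mem_comap]
    rfl
  haveI : (𝔑'.comap (Ideal.Quotient.mk I)).IsMaximal :=
    Ideal.comap_isMaximal_of_surjective _ Ideal.Quotient.mk_surjective
  obtain ⟨χ, 𝔐, hχ, h𝔐max, h𝔐⟩ := exists_char_of_quot I
    (fun n t hn ht b hb1 hb2 => by
      have h1 := (mem_killI h.hq hB _).mp ht b hb1 hb2
      rw [map_mul, map_intCast, ← zsmul_one, Module.End.mul_apply, LinearMap.smul_apply,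
        Module.End.one_apply] at h1
      exact (smul_eq_zero_iff_right hn).mp h1)
    (𝔑'.comap (Ideal.Quotient.mk I))
    (fun t ht => by
      rw [Ideal.mem_comap, Ideal.Quotient.eq_zero_iff_mem.mpr ht]
      exact Ideal.zero_mem _)
  have hmem2 : ∀ P, χ (inclH (Set.empty_subset S) (evT hMS P)) ∈ 𝔐 ↔ θ P = 0 := by
    intro P
    rw [← hmem, ← h𝔐, Ideal.mem_comap]
  refine ⟨χ, 𝔐, h𝔐max, ?_, ?_, ?_⟩
  · have h1 := (hmem2 ((p : ℕ) : MvPolynomial (sg S) ℤ)).mpr (by rw [map_natCast]; simp)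
    rwa [map_natCast, map_natCast, map_natCast] at h1
  · have h1 := hχ _ (U_sq_mem_killI h.hq h.hqN hB)
    rw [map_sub, map_one, map_pow, sub_eq_zero] at h1
    exact h1
  · intro l hl hlN hlM hlS n hn
    have h1 := (hmem2 (MvPolynomial.X ⟨l, hl, hlS⟩ - (n : MvPolynomial (sg S) ℤ))).mpr (by
      rw [map_sub, map_intCast, hθ, evT_X, inclH_T, hn, sub_self])
    rw [map_sub, map_sub, map_sub, map_intCast, map_intCast, map_intCast, evT_X, inclH_T] at h1
    exact h1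

end

end Fermat.Agent.LevelRaise
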