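import Fermat.Agent.LevelRaise.AuxPrime
import Fermat.Agent.LevelRaise.Raise2
import Fermat.Agent.Eigen.Character

/-!
# Level raising for elliptic curves
-/

set_option autoImplicit false

open WeierstrassCurve WeierstrassCurve.Affine WeierstrassCurve.Affine.Point
open CuspForm ModularFormClass CongruenceSubgroup

namespace Fermat.Agent.LevelRaise

/-- homomorphisms with values in the prime field -/
lemma exists_lift_zmod {T κ : Type*} [CommRing T] [Field κ] {p : ℕ} [hp : Fact p.Prime]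
    [CharP κ p] (π : T →+* κ) (h : ∀ t, ∃ n : ℤ, π t = n) :
    ∃ ψ : T →+* ZMod p, ∀ (t : T) (n : ℤ), π t = n → ψ t = n := by
  choose n hn using h
  have hinj : ∀ a b : ℤ, ((a : κ) = b) → ((a : ZMod p) = b) := by
    intro a b hab
    rw [ZMod.intCast_eq_intCast_iff_dvd_sub, ← CharP.intCast_eq_zero_iff κ p]
    push_cast
    rw [hab, sub_self]
  refine ⟨{ toFun := fun t => (n t : ZMod p)
            map_one' := ?_
            map_mul' := fun s t => ?_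
            map_zero' := ?_
            map_add' := fun s t => ?_ }, fun t m hm => ?_⟩
  · rw [hinj (n 1) 1 (by rw [← hn, map_one, Int.cast_one]), Int.cast_one]
  · rw [hinj (n (s * t)) (n s * n t) (by rw [← hn, map_mul, hn, hn, Int.cast_mul]), Int.cast_mul]
  · rw [hinj (n 0) 0 (by rw [← hn, _root_.map_zero, Int.cast_zero]), Int.cast_zero]
  · rw [hinj (n (s + t)) (n s + n t) (by rw [← hn, map_add, hn, hn, Int.cast_add]), Int.cast_add]
  · exact hinj (n t) m (by rw [← hn, hm])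

theorem main
    (E : WeierstrassCurve ℚ) [E.IsElliptic] {W : WeierstrassCurve ℤ} (hW : W.IsIntegralModelOf E)
    {p N q' : ℕ} (hp : p.Prime) (hp2 : p ≠ 2) (hN : 0 < N) (hq' : q'.Prime) (hq'N : ¬ q' ∣ N) (hq'p : q' ≠ p)
    (hirr : GaloisRepIsIrreducible (K := AlgebraicClosure ℚ) ℚ E p)
    (f : CuspForm (CongruenceSubgroup.Gamma0 N) 2) (𝔪 : Ideal (integralClosure ℤ ℂ))
    (hf : f.IsNormalizedEigenform) (hmax : 𝔪.IsMaximal) (hpm : (p : integralClosure ℤ ℂ) ∈ 𝔪)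
    (hcong : ∀ ℓ : ℕ, ℓ.Prime → W.IsGoodPrimeFor ℓ → ¬ ℓ ∣ N → ℓ ≠ p →
      ∃ a : integralClosure ℤ ℂ, (a : ℂ) = ModularFormClass.qCoeff f ℓ ∧
        a - ((W.apOfModel ℓ : ℤ) : integralClosure ℤ ℂ) ∈ 𝔪)
    (hLR : ∃ a : integralClosure ℤ ℂ, (a : ℂ) = ModularFormClass.qCoeff f q' ∧
      a ^ 2 - ((q' : integralClosure ℤ ℂ) + 1) ^ 2 ∈ 𝔪) :
    ∃ (g : CuspForm (CongruenceSubgroup.Gamma0 (N * q')) 2) (𝔪' : Ideal (integralClosure ℤ ℂ)),
      g.IsNormalizedEigenform ∧ 𝔪'.IsMaximal ∧ (p : integralClosure ℤ ℂ) ∈ 𝔪' ∧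
      (∀ ℓ : ℕ, ℓ.Prime → W.IsGoodPrimeFor ℓ → ¬ ℓ ∣ N * q' → ℓ ≠ p →
        ∃ a : integralClosure ℤ ℂ, (a : ℂ) = ModularFormClass.qCoeff g ℓ ∧
          a - ((W.apOfModel ℓ : ℤ) : integralClosure ℤ ℂ) ∈ 𝔪') ∧
      qCoeff g q' ^ 2 = 1 := by
  classical
  haveI : Fact p.Prime := ⟨hp⟩
  haveI : NeZero N := ⟨hN.ne'⟩
  haveI : NeZero (N * q') := ⟨mul_ne_zero hN.ne' hq'.ne_zero⟩
  letI : Field (integralClosure ℤ ℂ ⧸ 𝔪) := Ideal.Quotient.field 𝔪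
  haveI : CharP (integralClosure ℤ ℂ ⧸ 𝔪) p := by
    refine (CharP.charP_iff_prime_eq_zero hp).mpr ?_
    rw [← map_natCast (Ideal.Quotient.mk 𝔪), Ideal.Quotient.eq_zero_iff_mem]
    exact hpm
  have hWΔ : W.Δ ≠ 0 := by
    obtain ⟨C, hC⟩ := hW
    have h1 : (C • E).Δ ≠ 0 := by
      rw [variableChange_Δ]
      exact mul_ne_zero (pow_ne_zero _ (Units.ne_zero _)) E.isUnit_Δ.ne_zero
    rw [hC, WeierstrassCurve.map_Δ, eq_intCast] at h1
    exact_mod_cast h1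
  set S : Set ℕ := {ℓ | ℓ ∣ N * q'} ∪ {ℓ | ¬ W.IsGoodPrimeFor ℓ} ∪ {p} with hSdef
  have hSfin : S.Finite := by
    refine (Set.Finite.union ?_ (good_finite hWΔ)).union (Set.finite_singleton _)
    exact (Finset.finite_toSet (Nat.divisors (N * q'))).subset fun r hr => by
      simpa [hN.ne', hq'.ne_zero] using hr
  have hMS : ∀ l : ℕ, l.Prime → l ∣ N * q' → l ∈ S := fun l _ h => Or.inl (Or.inl h)
  have hnS : ∀ l : ℕ, l ∉ S → ¬ l ∣ N * q' ∧ W.IsGoodPrimeFor l ∧ l ≠ p := by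
    intro l hl
    refine ⟨fun h => hl (Or.inl (Or.inl h)), ?_, fun h => hl (Or.inr h)⟩
    by_contra h
    exact hl (Or.inl (Or.inr h))
  -- the auxiliary primes
  obtain ⟨r, r₀, hrS, hrgood, haux, hr⟩ := exists_aux hp hp2 hq' hN hq'N E hW hirr S hSfin
  -- the sign
  obtain ⟨ε, hε, hεa⟩ : ∃ ε : ℤ, ε ^ 2 = 1 ∧ ∃ a : integralClosure ℤ ℂ, (a : ℂ) = qCoeff f q' ∧
      Ideal.Quotient.mk 𝔪 a = ((ε * (q' + 1) : ℤ) : integralClosure ℤ ℂ ⧸ 𝔪) := by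
    obtain ⟨a, ha, ha'⟩ := hLR
    rw [← Ideal.Quotient.eq_zero_iff_mem, map_sub, map_pow, map_pow, sub_eq_zero] at ha'
    rcases sq_eq_sq_iff_eq_or_eq_neg.mp ha' with h | h
    · exact ⟨1, by norm_num, a, ha, by rw [h]; simp⟩
    · exact ⟨-1, by norm_num, a, ha, by rw [h]; simp⟩
  -- the character
  let π : heckeAlgebra N 2 (S \ {q'}) →+* (integralClosure ℤ ℂ ⧸ 𝔪) :=
    (Ideal.Quotient.mk 𝔪).comp (Eigen.eigenCharInt hf (S \ {q'}))
  have hπT : ∀ (l : ℕ) (hl : l.Prime) (hlN : ¬ l ∣ N) (hlS : l ∉ S \ {q'})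
      (a : integralClosure ℤ ℂ), (a : ℂ) = qCoeff f l →
      π (heckeAlgebra.T hl hlN hlS) = Ideal.Quotient.mk 𝔪 a := by
    intro l hl hlN hlS a ha
    change Ideal.Quotient.mk 𝔪 (Eigen.eigenCharInt hf (S \ {q'}) (heckeAlgebra.T hl hlN hlS)) = _
    congr 1
    apply Subtype.ext
    rw [Eigen.coe_eigenCharInt, Eigen.eigenChar_T, ha]
  have hπq : π (heckeAlgebra.T hq' hq'N (fun h' => h'.2 rfl)) =
      ((ε * (q' + 1) : ℤ) : integralClosure ℤ ℂ ⧸ 𝔪) := by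
    obtain ⟨a, ha, ha'⟩ := hεa
    rw [hπT q' hq' hq'N _ a ha, ha']
  have hπl : ∀ (l : ℕ) (hl : l.Prime) (hlN : ¬ l ∣ N) (hlS : l ∉ S),
      π (heckeAlgebra.T hl hlN (notMem_diff hlS)) =
        ((W.apOfModel l : ℤ) : integralClosure ℤ ℂ ⧸ 𝔪) := by
    intro l hl hlN hlS
    obtain ⟨-, h2, h3⟩ := hnS l hlS
    obtain ⟨a, ha, ha'⟩ := hcong l hl h2 hlN h3
    rw [hπT l hl hlN _ a ha]
    rw [← Ideal.Quotient.eq_zero_iff_mem, map_sub, sub_eq_zero, map_intCast] at ha'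
    exact ha'
  have hπint : ∀ t, ∃ n : ℤ, π t = n := by
    rintro ⟨t, ht⟩
    induction ht using Algebra.adjoin_induction with
    | mem x hx =>
      rcases hx with ⟨l, hl, hlN, hlS, rfl⟩ | ⟨l, hlN, hl, hlS, rfl⟩
      · by_cases hlq : l = q'
        · subst hlq
          exact ⟨_, hπq⟩
        · have hlS' : l ∉ S := fun h => hlS ⟨h, hlq⟩
          exact ⟨_, hπl l hl hlN hlS'⟩
      · exfalso
        apply hlS
        exact ⟨hMS l hl (hlN.mul_right q'), fun h => hq'N (h ▸ hlN)⟩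
    | algebraMap r =>
      refine ⟨r, ?_⟩
      have h1 : (⟨algebraMap ℤ _ r, Subalgebra.algebraMap_mem _ r⟩ :
        heckeAlgebra N 2 (S \ {q'})) = (r : heckeAlgebra N 2 (S \ {q'})) :=
        Subtype.ext (by simp)
      rw [h1, map_intCast]
    | add x y hx hy ihx ihy =>
      obtain ⟨m, hm⟩ := ihx
      obtain ⟨n, hn⟩ := ihy
      refine ⟨m + n, ?_⟩
      have h1 : (⟨x + y, Subalgebra.add_mem _ hx hy⟩ : heckeAlgebra N 2 (S \ {q'})) =
        ⟨x, hx⟩ + ⟨y, hy⟩ := rfl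
      rw [h1, map_add, hm, hn]; push_cast; rfl
    | mul x y hx hy ihx ihy =>
      obtain ⟨m, hm⟩ := ihx
      obtain ⟨n, hn⟩ := ihy
      refine ⟨m * n, ?_⟩
      have h1 : (⟨x * y, Subalgebra.mul_mem _ hx hy⟩ : heckeAlgebra N 2 (S \ {q'})) =
        ⟨x, hx⟩ * ⟨y, hy⟩ := rfl
      rw [h1, map_mul, hm, hn]; push_cast; rfl
  obtain ⟨ψ, hψ⟩ := exists_lift_zmod π hπint
  -- raise the level
  obtain ⟨χ, 𝔐, h𝔐, hp𝔐, hχU, hχT⟩ := raise hp hp2 hq'p haux hMS ψ ε hε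
    (by rw [hψ _ _ hπq]; push_cast; ring) hrS
    (by rw [hψ _ _ (hπl r haux.hr haux.hrN hrS)]; exact hr)
  obtain ⟨g, hg, hgT, hgU⟩ := exists_form_of_char
    ((algebraMap (integralClosure ℤ ℂ) ℂ).comp χ)
  refine ⟨g, 𝔐, hg, h𝔐, hp𝔐, fun l hl hgood hlM hlp => ?_, ?_⟩
  · have hlS : l ∉ S := by
      rintro ((h | h) | h)
      · exact hlM h
      · exact h hgood
      · exact hlp h
    have hlN : ¬ l ∣ N := fun h => hlM (h.mul_right q')
    refine ⟨χ (heckeAlgebra.T hl hlM (Set.notMem_empty _)), ?_, ?_⟩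
    · rw [hgT l hl hlM]; rfl
    · exact hχT l hl hlN hlM hlS _ (hψ _ _ (hπl l hl hlN hlS)).symm
  · rw [hgU q' hq' (dvd_mul_left q' N), ← map_pow]
    change algebraMap (integralClosure ℤ ℂ) ℂ (χ _) = 1
    rw [map_pow, hχU, map_one]

end Fermat.Agent.LevelRaise
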