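import Fermat.Agent.LevelRaise.Stab
import Fermat.Agent.HeckeHom.Action

set_option autoImplicit false

/-!
# Ihara's lemma
-/

open Matrix.SpecialLinearGroup CongruenceSubgroup
open scoped MatrixGroups
open ModularCurve ModularCurve.Period
open Fermat.Agent.HeckeHom

namespace Fermat.Agent.LevelRaise

variable {A : Type*} [AddCommGroup A] {q N r : ℕ}

/-- congruent to one modulo `m` -/
def Cg (m : ℤ) (g : SL(2, ℤ)) : Prop :=
  m ∣ g.1 0 0 - 1 ∧ m ∣ g.1 0 1 ∧ m ∣ g.1 1 0 ∧ m ∣ g.1 1 1 - 1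

open Classical in
/-- homomorphisms as functions -/
noncomputable def fn (φ : Additive (Gamma0 N) →+ A) (g : SL(2, ℤ)) : A :=
  if h : g ∈ Gamma0 N then φ (Additive.ofMul ⟨g, h⟩) else 0

lemma fn_of_mem (φ : Additive (Gamma0 N) →+ A) {g : SL(2, ℤ)} (h : g ∈ Gamma0 N) :
    fn φ g = φ (Additive.ofMul ⟨g, h⟩) := by
  rw [fn, dif_pos h]

lemma fn_coe (φ : Additive (Gamma0 N) →+ A) (g : Gamma0 N) :
    fn φ (g : SL(2, ℤ)) = φ (Additive.ofMul g) := fn_of_mem φ g.2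

lemma PHom_fn {φ : Additive (Gamma0 N) →+ A} (hφ : IsParabolicHom (Gamma0 N) φ) :
    PHom N (fn φ) := by
  refine ⟨fun g hg h hh => ?_, fun g hg ht => ?_⟩
  · rw [fn_of_mem φ hg, fn_of_mem φ hh, fn_of_mem φ (mul_mem hg hh), ← map_add, ← ofMul_mul]
    rfl
  · rw [fn_of_mem φ hg]
    exact hφ ⟨g, hg⟩ ht

/-- the Hecke operator on elements congruent to one -/
lemma opT_Cg (hr : r.Prime) (hrN : ¬ r ∣ N) (hr0 : (r : ℚ) ≠ 0) [NeZero N]
    (φ : Additive (Gamma0 N) →+ A) {γ : SL(2, ℤ)} (hγN : γ ∈ Gamma0 N) (hγ : Cg r γ) :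
    ∃ g : Option (ZMod r) → Gamma0 N,
      (io (g none : SL(2, ℤ)) = rci r hr0 (io γ)) ∧
      (∀ x : ZMod r, io (g (some x) : SL(2, ℤ)) =
        rc r hr0 (uu ((x.val : ℤ) : ℚ) * io γ * (uu ((x.val : ℤ) : ℚ))⁻¹)) ∧
      fn (opT N hr hrN A φ) γ = haveI : NeZero r := ⟨hr.ne_zero⟩
        ∑ x, fn φ (g x : SL(2, ℤ)) := by
  haveI : NeZero r := ⟨hr.ne_zero⟩
  obtain ⟨⟨a', ha'⟩, ⟨b', hb'⟩, ⟨c', hc'⟩, ⟨d', hd'⟩⟩ := hγ
  have hdet := zdet γ
  have hcopr : IsCoprime (N : ℤ) (r : ℤ) := by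
    rw [Nat.isCoprime_iff_coprime]
    exact ((Nat.Prime.coprime_iff_not_dvd hr).mpr hrN).symm
  have hNc : (N : ℤ) ∣ γ.1 1 0 := mem_Gamma0_iff_dvd.mp hγN
  have hNc' : (N : ℤ) ∣ c' := by
    rw [hc'] at hNc
    exact hcopr.dvd_of_dvd_mul_left hNc
  let g0 : SL(2, ℤ) := ⟨!![γ.1 0 0, r * γ.1 0 1; c', γ.1 1 1], by
    rw [Matrix.det_fin_two_of]; rw [hc'] at hdet; linear_combination hdet⟩
  have hg0 : g0 ∈ Gamma0 N := mem_Gamma0_iff_dvd.mpr hNc'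
  let B : ZMod r → ℤ := fun x => b' + x.val * (d' - a') - x.val ^ 2 * c'
  have hB : ∀ x : ZMod r, (r : ℤ) * B x =
      γ.1 0 1 + x.val * (γ.1 1 1 - γ.1 0 0) - x.val ^ 2 * γ.1 1 0 := by
    intro x
    have h1 : γ.1 1 1 = 1 + r * d' := by linear_combination hd'
    have h2 : γ.1 0 0 = 1 + r * a' := by linear_combination ha'
    rw [hb', hc', h1, h2]; ring
  let g1 : ZMod r → SL(2, ℤ) := fun x =>
    ⟨!![γ.1 0 0 + x.val * γ.1 1 0, B x; r * γ.1 1 0, γ.1 1 1 - x.val * γ.1 1 0], by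
    rw [Matrix.det_fin_two_of]
    have := hB x
    linear_combination hdet - (γ.1 1 0) * this⟩
  have hg1 : ∀ x, g1 x ∈ Gamma0 N := fun x =>
    mem_Gamma0_iff_dvd.mpr (hNc.mul_left _)
  let g : Option (ZMod r) → Gamma0 N := fun x => x.elim ⟨g0, hg0⟩ (fun x => ⟨g1 x, hg1 x⟩)
  refine ⟨g, ?_, ?_, ?_⟩
  · have hc'q : (γ.1 1 0 : ℚ) = r * c' := by exact_mod_cast hc'
    change io g0 = _
    apply SQ_ext
    · simp [g0, rci, io_apply]
    · simp [g0, rci, io_apply]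
    · simp [g0, rci, io_apply]
      rw [hc'q]; field_simp
    · simp [g0, rci, io_apply]
  · intro x
    change io (g1 x) = _
    have hBq : (B x : ℚ) = ((γ.1 0 1 : ℤ) + (x.val : ℚ) * (((γ.1 1 1 : ℤ) : ℚ) - (γ.1 0 0 : ℤ)) -
        (x.val : ℚ) ^ 2 * ((γ.1 1 0 : ℤ) : ℚ)) / r := by
      rw [eq_div_iff hr0, mul_comm]
      exact_mod_cast hB x
    rw [uu_inv]
    apply SQ_ext
    · simp only [rc, mul_entries, io_apply]
      simp [g1, uu]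
    · simp only [rc, mul_entries, io_apply]
      simp only [g1, uu, Matrix.of_apply, Matrix.cons_val', Matrix.cons_val_zero,
        Matrix.cons_val_one, Matrix.cons_val_fin_one]
      rw [hBq]
      push_cast
      field_simp
      ring
    · simp only [rc, mul_entries, io_apply]
      simp [g1, uu]
    · simp only [rc, mul_entries, io_apply]
      simp [g1, uu]
      ring
  · rw [fn_of_mem _ hγN]
    have hrel : Rel (repT r) N ⟨γ, hγN⟩ 1 g := by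
      intro x
      have hmG : ∀ h : SL(2, ℤ), ((mapGL ℝ h : GL (Fin 2) ℝ) : Matrix (Fin 2) (Fin 2) ℝ) =
          !![(h.1 0 0 : ℝ), (h.1 0 1 : ℝ); (h.1 1 0 : ℝ), (h.1 1 1 : ℝ)] := by
        intro h
        rw [mapGL_coe_matrix, Matrix.SpecialLinearGroup.map_apply_coe, RingHom.mapMatrix_apply]
        ext i j
        fin_cases i <;> fin_cases j <;> simp
      rcases x with _ | x
      · change repT r none * mapGL ℝ γ = mapGL ℝ g0 * repT r none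
        have hc'r : ((γ.1 1 0 : ℤ) : ℝ) = r * c' := by exact_mod_cast hc'
        apply Units.ext
        rw [Units.val_mul, Units.val_mul, repT_none, ModularForm.val_heckeDiagMatrix hr.ne_zero,
          hmG, hmG]
        ext i j
        fin_cases i <;> fin_cases j <;>
          simp [Matrix.mul_apply, Fin.sum_univ_two, g0]
        · ring
        · rw [hc'r]; ring
      · change repT r (some x) * mapGL ℝ γ = mapGL ℝ (g1 x) * repT r (some x)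
        have hBr : (r : ℝ) * B x = ((γ.1 0 1 : ℤ) : ℝ) +
            (x.val : ℝ) * (((γ.1 1 1 : ℤ) : ℝ) - ((γ.1 0 0 : ℤ) : ℝ)) -
            (x.val : ℝ) ^ 2 * ((γ.1 1 0 : ℤ) : ℝ) := by exact_mod_cast hB x
        apply Units.ext
        rw [Units.val_mul, Units.val_mul, repT_some, repU, ModularForm.val_heckeMatrix hr.ne_zero,
          hmG, hmG]
        ext i j
        fin_cases i <;> fin_cases j <;>
          simp [Matrix.mul_apply, Fin.sum_univ_two, g1, -ZMod.natCast_val]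
        · linear_combination -hBr
        · ring
    have := (isHeckeFam_T hr hrN).op_apply_of_rel φ hrel
    rw [opT]
    refine this.trans ?_
    refine Finset.sum_congr rfl fun x _ => ?_
    rw [fn_coe]

lemma io_mem_KO {γ : SL(2, ℤ)} (hγN : γ ∈ Gamma0 N) (hγ : Cg r γ) : io γ ∈ KO q N r := by
  refine ⟨io_mem_GO hγN, ?_⟩
  intro i j
  rw [Matrix.sub_apply, io_apply]
  fin_cases i <;> fin_cases j
  · have := D.of_dvd (q := q) hγ.1
    simpa using this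
  · have := D.of_dvd (q := q) hγ.2.1
    simpa using this
  · have := D.of_dvd (q := q) hγ.2.2.1
    simpa using this
  · have := D.of_dvd (q := q) hγ.2.2.2
    simpa using this

/-- **Claim 5** -/
lemma opT_eq_rc {r₀ : ℕ} (h : Aux q N r r₀) (hr0 : (r : ℚ) ≠ 0) [NeZero N]
    (φ : Additive (Gamma0 N) →+ A) {χ : SQ → A}
    (hχ : ∀ g ∈ GO q N, ∀ h ∈ GO q N, χ (g * h) = χ g + χ h)
    (hχ0 : ∀ g ∈ GO q N, g.1.trace = 2 → χ g = 0)
    (hχφ : ∀ γ ∈ Gamma0 N, χ (io γ) = fn φ γ) {γ : SL(2, ℤ)} (hγN : γ ∈ Gamma0 N)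
    (hγ : Cg r γ) :
    fn (opT N h.hr h.hrN A φ) γ = (r + 1) • χ (rc r hr0 (io γ)) := by
  haveI : NeZero r := ⟨h.hr.ne_zero⟩
  obtain ⟨g, h1, h2, h3⟩ := opT_Cg h.hr h.hrN hr0 φ hγN hγ
  have hK : io γ ∈ KO q N r := io_mem_KO hγN hγ
  rw [h3, Fintype.sum_option]
  have e1 : fn φ (g none : SL(2, ℤ)) = χ (rc r hr0 (io γ)) := by
    rw [← hχφ _ (g none).2, h1, rc_eq_rci h hr0 hχ hχ0 hK]
  have e2 : ∀ x : ZMod r, fn φ (g (some x) : SL(2, ℤ)) = χ (rc r hr0 (io γ)) := by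
    intro x
    rw [← hχφ _ (g (some x)).2, h2]
    exact (SB_uu h hK (D.one_int _)).2 _ (isV_rc hr0 hχ hχ0)
  rw [e1, Finset.sum_congr rfl fun x _ => e2 x, Finset.sum_const, Finset.card_univ, ZMod.card,
    add_smul, one_smul, add_comm]

/-- **Claim 6** -/
lemma opT_opT {r₀ : ℕ} (h : Aux q N r r₀) [NeZero N]
    (φ : Additive (Gamma0 N) →+ A) {χ : SQ → A}
    (hχ : ∀ g ∈ GO q N, ∀ h ∈ GO q N, χ (g * h) = χ g + χ h)
    (hχ0 : ∀ g ∈ GO q N, g.1.trace = 2 → χ g = 0)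
    (hχφ : ∀ γ ∈ Gamma0 N, χ (io γ) = fn φ γ) {γ : SL(2, ℤ)} (hγN : γ ∈ Gamma0 N)
    (hγ : Cg ((r : ℤ) ^ 2) γ) :
    fn (opT N h.hr h.hrN A (opT N h.hr h.hrN A φ)) γ = (r + 1) ^ 2 • fn φ γ := by
  haveI : NeZero r := ⟨h.hr.ne_zero⟩
  have hr0 : (r : ℚ) ≠ 0 := by exact_mod_cast h.hr.ne_zero
  have hrz : (r : ℤ) ≠ 0 := by exact_mod_cast h.hr.ne_zero
  have hγ1 : Cg r γ := by
    have hd : (r : ℤ) ∣ (r : ℤ) ^ 2 := dvd_pow_self _ two_ne_zero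
    exact ⟨hd.trans hγ.1, hd.trans hγ.2.1, hd.trans hγ.2.2.1, hd.trans hγ.2.2.2⟩
  obtain ⟨g, h1, h2, h3⟩ := opT_Cg h.hr h.hrN hr0 (opT N h.hr h.hrN A φ) hγN hγ1
  have hK : io γ ∈ KO q N r := io_mem_KO hγN hγ1
  rw [h3, Fintype.sum_option]
  -- the elements are congruent to one mod r
  have c1 : Cg r (g none : SL(2, ℤ)) := by
    have e00 := congrArg (fun t : SQ => t.1 0 0) h1
    have e01 := congrArg (fun t : SQ => t.1 0 1) h1
    have e10 := congrArg (fun t : SQ => t.1 1 0) h1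
    have e11 := congrArg (fun t : SQ => t.1 1 1) h1
    simp only [rci, io_apply, Matrix.of_apply, Matrix.cons_val', Matrix.cons_val_zero,
        Matrix.cons_val_one, Matrix.cons_val_fin_one] at e00 e01 e10 e11
    have f00 : (g none : SL(2, ℤ)).1 0 0 = γ.1 0 0 := by exact_mod_cast e00
    have f01 : (g none : SL(2, ℤ)).1 0 1 = r * γ.1 0 1 := by exact_mod_cast e01
    have f10 : (g none : SL(2, ℤ)).1 1 0 * r = γ.1 1 0 := by
      rw [eq_div_iff hr0] at e10; exact_mod_cast e10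
    have f11 : (g none : SL(2, ℤ)).1 1 1 = γ.1 1 1 := by exact_mod_cast e11
    refine ⟨f00 ▸ hγ1.1, f01 ▸ (dvd_mul_right _ _), ?_, f11 ▸ hγ1.2.2.2⟩
    obtain ⟨w, hw⟩ := hγ.2.2.1
    refine ⟨w, mul_right_cancel₀ hrz ?_⟩
    rw [f10, hw]; ring
  have c2 : ∀ x : ZMod r, Cg r (g (some x) : SL(2, ℤ)) := by
    intro x
    have h2' := h2 x
    rw [uu_inv] at h2'
    have e00 := congrArg (fun t : SQ => t.1 0 0) h2'
    have e01 := congrArg (fun t : SQ => t.1 0 1) h2'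
    have e10 := congrArg (fun t : SQ => t.1 1 0) h2'
    have e11 := congrArg (fun t : SQ => t.1 1 1) h2'
    simp only [rc, mul_entries, io_apply, uu, Matrix.of_apply, Matrix.cons_val',
        Matrix.cons_val_zero, Matrix.cons_val_one, Matrix.cons_val_fin_one] at e00 e01 e10 e11
    have f00 : (g (some x) : SL(2, ℤ)).1 0 0 = γ.1 0 0 + x.val * γ.1 1 0 := by
      have : (((g (some x) : SL(2, ℤ)).1 0 0 : ℤ) : ℚ) =
        ((γ.1 0 0 + x.val * γ.1 1 0 : ℤ) : ℚ) := by rw [e00]; push_cast; ring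
      exact_mod_cast this
    have f01 : (g (some x) : SL(2, ℤ)).1 0 1 * r =
        γ.1 0 1 + x.val * (γ.1 1 1 - γ.1 0 0) - x.val ^ 2 * γ.1 1 0 := by
      rw [eq_div_iff hr0] at e01
      have : (((g (some x) : SL(2, ℤ)).1 0 1 * r : ℤ) : ℚ) =
        ((γ.1 0 1 + x.val * (γ.1 1 1 - γ.1 0 0) - x.val ^ 2 * γ.1 1 0 : ℤ) : ℚ) := by
        push_cast at e01 ⊢
        rw [e01]; ring
      exact_mod_cast this
    have f10 : (g (some x) : SL(2, ℤ)).1 1 0 = r * γ.1 1 0 := by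
      have : (((g (some x) : SL(2, ℤ)).1 1 0 : ℤ) : ℚ) = ((r * γ.1 1 0 : ℤ) : ℚ) := by
        rw [e10]; push_cast; ring
      exact_mod_cast this
    have f11 : (g (some x) : SL(2, ℤ)).1 1 1 = γ.1 1 1 - x.val * γ.1 1 0 := by
      have : (((g (some x) : SL(2, ℤ)).1 1 1 : ℤ) : ℚ) =
        ((γ.1 1 1 - x.val * γ.1 1 0 : ℤ) : ℚ) := by rw [e11]; push_cast; ring
      exact_mod_cast this
    refine ⟨?_, ?_, f10 ▸ (dvd_mul_right _ _), ?_⟩
    · have e : (g (some x) : SL(2, ℤ)).1 0 0 - 1 = (γ.1 0 0 - 1) + x.val * γ.1 1 0 := by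
        rw [f00]; ring
      rw [e]
      exact dvd_add hγ1.1 (hγ1.2.2.1.mul_left _)
    · obtain ⟨w1, hw1⟩ := hγ.1
      obtain ⟨w2, hw2⟩ := hγ.2.1
      obtain ⟨w3, hw3⟩ := hγ.2.2.1
      obtain ⟨w4, hw4⟩ := hγ.2.2.2
      refine ⟨w2 + x.val * (w4 - w1) - x.val ^ 2 * w3, mul_right_cancel₀ hrz ?_⟩
      rw [f01]
      linear_combination hw2 + (x.val : ℤ) * (hw4 - hw1) - (x.val : ℤ) ^ 2 * hw3
    · have e : (g (some x) : SL(2, ℤ)).1 1 1 - 1 = (γ.1 1 1 - 1) - x.val * γ.1 1 0 := by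
        rw [f11]; ring
      rw [e]
      exact dvd_sub hγ1.2.2.2 (hγ1.2.2.1.mul_left _)
  have e1 : fn (opT N h.hr h.hrN A φ) (g none : SL(2, ℤ)) = (r + 1) • fn φ γ := by
    rw [opT_eq_rc h hr0 φ hχ hχ0 hχφ (g none).2 c1, h1, rc_rci, hχφ _ hγN]
  have e2 : ∀ x : ZMod r, fn (opT N h.hr h.hrN A φ) (g (some x) : SL(2, ℤ)) =
      (r + 1) • fn φ γ := by
    intro x
    rw [opT_eq_rc h hr0 φ hχ hχ0 hχφ (g (some x)).2 (c2 x),
      ← rc_eq_rci h hr0 hχ hχ0 (io_mem_KO (g (some x)).2 (c2 x)), h2, rci_rc,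
      hom_conj hχ hK.1 (uu_mem_GO (D.one_int _)), hχφ _ hγN]
  rw [e1, Finset.sum_congr rfl fun x _ => e2 x, Finset.sum_const, Finset.card_univ, ZMod.card,
    ← succ_nsmul', ← mul_smul, sq]

/-- **Claim 7** -/
lemma eq_zero_of_Cg {φ : SL(2, ℤ) → A} (hφ : PHom N φ) {p : ℕ} (hp : p.Prime) (hpN : ¬ p ∣ N)
    (n : ℕ) (h0 : ∀ γ ∈ Gamma0 N, Cg ((p : ℤ) ^ n) γ → φ γ = 0) :
    ∀ γ ∈ Gamma0 N, φ γ = 0 := by
  have hpp : Prime (p : ℤ) := Nat.prime_iff_prime_int.mp hp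
  have hcop : IsCoprime (N : ℤ) (p : ℤ) := by
    rw [Nat.isCoprime_iff_coprime]
    exact ((Nat.Prime.coprime_iff_not_dvd hp).mpr hpN).symm
  have hcopn : IsCoprime (N : ℤ) ((p : ℤ) ^ n) := hcop.pow_right
  have hu : ∀ (x : ℤ) (γ : SL(2, ℤ)), γ ∈ Gamma0 N → φ (zu x * γ) = φ γ := by
    intro x γ hγ
    rw [hφ.mul _ (zu_mem _ _) _ hγ, hφ.par _ (zu_mem _ _) (zu_trace _), zero_add]
  have hl : ∀ (x : ℤ) (γ : SL(2, ℤ)), γ ∈ Gamma0 N → φ (zl (N * x) * γ) = φ γ := by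
    intro x γ hγ
    rw [hφ.mul _ (zl_mem ⟨x, rfl⟩) _ hγ, hφ.par _ (zl_mem ⟨x, rfl⟩) (zl_trace _), zero_add]
  -- final step: a ≡ 1, c ≡ 0
  have s3 : ∀ γ ∈ Gamma0 N, (p : ℤ) ^ n ∣ γ.1 0 0 - 1 → (p : ℤ) ^ n ∣ γ.1 1 0 → φ γ = 0 := by
    intro γ hγ ha hc
    rw [← hu (-γ.1 0 1) γ hγ]
    obtain ⟨a', ha'⟩ := ha
    obtain ⟨c', hc'⟩ := hc
    have hd := zdet γ
    have hd' : γ.1 1 1 - 1 = (p : ℤ) ^ n * (c' * γ.1 0 1 - a' * γ.1 1 1) := by
      linear_combination hd - γ.1 1 1 * ha' + γ.1 0 1 * hc'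
    refine h0 _ (mul_mem (zu_mem _ _) hγ) ⟨?_, ?_, ?_, ?_⟩
    · rw [(zmul _ _).1]
      refine ⟨a' - γ.1 0 1 * c', ?_⟩
      simp [zu]
      linear_combination ha' - γ.1 0 1 * hc'
    · rw [(zmul _ _).2.1]
      refine ⟨-γ.1 0 1 * (c' * γ.1 0 1 - a' * γ.1 1 1), ?_⟩
      simp [zu]
      linear_combination -γ.1 0 1 * hd'
    · rw [(zmul _ _).2.2.1]
      refine ⟨c', ?_⟩
      simp [zu]
      exact hc'
    · rw [(zmul _ _).2.2.2]
      refine ⟨c' * γ.1 0 1 - a' * γ.1 1 1, ?_⟩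
      simp [zu]
      exact hd'
  -- a ≡ 1
  have s2 : ∀ γ ∈ Gamma0 N, (p : ℤ) ^ n ∣ γ.1 0 0 - 1 → φ γ = 0 := by
    intro γ hγ ha
    obtain ⟨u, v, huv⟩ := hcopn
    obtain ⟨a', ha'⟩ := ha
    rw [← hl (-γ.1 1 0 * u) γ hγ]
    refine s3 _ (mul_mem (zl_mem ⟨_, rfl⟩) hγ) ?_ ?_
    · rw [(zmul _ _).1]
      refine ⟨a', ?_⟩
      simp [zl]
      exact ha'
    · rw [(zmul _ _).2.2.1]
      refine ⟨v * γ.1 1 0 - N * γ.1 1 0 * u * a', ?_⟩
      simp [zl]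
      linear_combination (-(N : ℤ) * γ.1 1 0 * u) * ha' - γ.1 1 0 * huv
  -- c prime to p
  have s1 : ∀ γ ∈ Gamma0 N, ¬ (p : ℤ) ∣ γ.1 1 0 → φ γ = 0 := by
    intro γ hγ hc
    obtain ⟨u, v, huv⟩ := (((Prime.coprime_iff_not_dvd hpp).mpr hc).symm.pow_right (n := n))
    rw [← hu ((1 - γ.1 0 0) * u) γ hγ]
    refine s2 _ (mul_mem (zu_mem _ _) hγ) ?_
    rw [(zmul _ _).1]
    refine ⟨-(1 - γ.1 0 0) * v, ?_⟩
    simp [zu]
    linear_combination (1 - γ.1 0 0) * huv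
  intro γ hγ
  by_cases hc : (p : ℤ) ∣ γ.1 1 0
  · have ha : ¬ (p : ℤ) ∣ γ.1 0 0 := fun ha =>
      hpp.not_unit ((col_coprime γ).isUnit_of_dvd' ha hc)
    rw [← hl 1 γ hγ]
    refine s1 _ (mul_mem (zl_mem ⟨_, rfl⟩) hγ) ?_
    rw [(zmul _ _).2.2.1]
    simp only [zl, Matrix.of_apply, Matrix.cons_val', Matrix.cons_val_zero, Matrix.cons_val_one,
      Matrix.cons_val_fin_one, mul_one, one_mul]
    intro hd
    have h1 : (p : ℤ) ∣ N * γ.1 0 0 := by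
      have := dvd_sub hd hc
      rwa [add_sub_cancel_right] at this
    exact ha (hcop.symm.dvd_of_dvd_mul_left h1)
  · exact s1 γ hγ hc

/-- **Ihara's lemma**: if `φ` and `δ^* φ'` agree on `Γ₀(Nq)`, then `T_r² φ = (r + 1)² φ`. -/
theorem ihara {r₀ : ℕ} (h : Aux q N r r₀) [NeZero N] (hqA : ∀ a : A, q • a = 0 → a = 0)
    {φ φ' : Additive (Gamma0 N) →+ A} (hφ : IsParabolicHom (Gamma0 N) φ)
    (hφ' : IsParabolicHom (Gamma0 N) φ') (H : IharaRel q N (fn φ) (fn φ')) :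
    opT N h.hr h.hrN A (opT N h.hr h.hrN A φ) = (r + 1) ^ 2 • φ := by
  obtain ⟨χ, hχ, hχφ⟩ := exists_extension h.hq h.hqN (PHom_fn hφ) (PHom_fn hφ') H
  have hχ0 := fun g hg ht => extension_unipotent h.hq hqA (PHom_fn hφ) hχ hχφ (g := g) hg ht
  set φ₂ := opT N h.hr h.hrN A (opT N h.hr h.hrN A φ) - (r + 1) ^ 2 • φ with hφ₂
  have hpar : IsParabolicHom (Gamma0 N) φ₂ := by
    intro γ hγ
    have h1 := isParabolicHom_opT h.hr h.hrN (isParabolicHom_opT h.hr h.hrN hφ) γ hγ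
    rw [hφ₂, AddMonoidHom.sub_apply, h1, AddMonoidHom.nsmul_apply, hφ γ hγ]
    simp
  have key : ∀ γ ∈ Gamma0 N, fn φ₂ γ = 0 := by
    refine eq_zero_of_Cg (PHom_fn hpar) h.hr h.hrN 2 fun γ hγ hC => ?_
    have h1 := opT_opT h φ hχ hχ0 hχφ hγ hC
    rw [fn_of_mem _ hγ] at h1 ⊢
    rw [fn_of_mem _ hγ] at h1
    rw [hφ₂, AddMonoidHom.sub_apply, h1, AddMonoidHom.nsmul_apply, sub_self]
  have : φ₂ = 0 := by
    ext γ
    have := key (Additive.toMul γ : Gamma0 N) (Additive.toMul γ : Gamma0 N).2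
    rw [fn_coe] at this
    exact this
  exact sub_eq_zero.mp this

end Fermat.Agent.LevelRaise
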