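import Mathlib

set_option autoImplicit false

/-!
# `PSL₂(ℤ) = ℤ/2 * ℤ/3` and the integration lemma
-/

open Matrix.SpecialLinearGroup
open scoped MatrixGroups
open ModularGroup (S T)

namespace Fermat.Agent.LevelRaise

noncomputable section

/-- homomorphisms from cyclic groups -/
def zhom {G : Type*} [Group G] (n : ℕ) (g : G) (hg : g ^ n = 1) : Multiplicative (ZMod n) →* G :=
  AddMonoidHom.toMultiplicativeLeft (ZMod.lift n ⟨zmultiplesHom (Additive G) (Additive.ofMul g), by
    simp only [zmultiplesHom_apply, natCast_zsmul]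
    rw [← ofMul_pow, hg]; rfl⟩)

lemma zhom_one {G : Type*} [Group G] (n : ℕ) (g : G) (hg : g ^ n = 1) :
    zhom n g hg (Multiplicative.ofAdd 1) = g := by
  have h1 : (1 : ZMod n) = ((1 : ℤ) : ZMod n) := by simp
  simp only [zhom, AddMonoidHom.toMultiplicativeLeft, Equiv.coe_fn_mk, MonoidHom.coe_mk,
    OneHom.coe_mk, toAdd_ofAdd]
  rw [h1, ZMod.lift_coe]
  simp

/-- the element of order three -/
abbrev U : SL(2, ℤ) := T * S

/-- `±1` -/
def PM : Subgroup SL(2, ℤ) := Subgroup.zpowers (-1)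

lemma mem_PM {g : SL(2, ℤ)} : g ∈ PM ↔ g = 1 ∨ g = -1 := by
  rw [PM, Subgroup.mem_zpowers_iff]
  constructor
  · rintro ⟨k, rfl⟩
    rcases Int.even_or_odd' k with ⟨m, rfl | rfl⟩
    · left; rw [zpow_mul]; simp
    · right; rw [zpow_add, zpow_mul]; simp
  · rintro (rfl | rfl)
    · exact ⟨0, by simp⟩
    · exact ⟨1, by simp⟩

instance : PM.Normal := ⟨fun n hn g => by
  rw [mem_PM] at hn ⊢
  rcases hn with rfl | rfl
  · left; simp
  · right; simp⟩

/-- `PSL₂(ℤ)` -/
abbrev PSZ : Type := SL(2, ℤ) ⧸ PM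

lemma S_sq : (S * S : SL(2, ℤ)) = -1 := by
  ext i j; fin_cases i <;> fin_cases j <;> simp [S, Matrix.mul_apply, Fin.sum_univ_two]

lemma U_cube : (U * U * U : SL(2, ℤ)) = -1 := by
  ext i j; fin_cases i <;> fin_cases j <;>
    simp [S, T, Matrix.mul_apply, Fin.sum_univ_two]

lemma mk_neg_one : (QuotientGroup.mk (-1 : SL(2, ℤ)) : PSZ) = 1 := by
  rw [QuotientGroup.eq_one_iff, mem_PM]; right; rfl

lemma mk_neg (g : SL(2, ℤ)) : (QuotientGroup.mk (-g) : PSZ) = QuotientGroup.mk g := by
  have : -g = g * (-1) := by simp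
  rw [this, QuotientGroup.mk_mul, mk_neg_one, mul_one]

lemma mk_eq_mk {g h : SL(2, ℤ)} (e : (QuotientGroup.mk g : PSZ) = QuotientGroup.mk h) :
    g = h ∨ g = -h := by
  rw [QuotientGroup.eq, mem_PM] at e
  rcases e with e | e
  · left; rw [inv_mul_eq_one] at e; exact e
  · right
    rw [inv_mul_eq_iff_eq_mul] at e
    rw [e]; simp

/-- generators of `PSL₂(ℤ)` -/
def gen (i : Fin 2) : PSZ := if i = 0 then QuotientGroup.mk S else QuotientGroup.mk U

lemma gen_pow (i : Fin 2) : gen i ^ (i.val + 2) = 1 := by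
  fin_cases i
  · simp only [gen, Fin.zero_eta, if_true, zero_add, pow_two]
    rw [← QuotientGroup.mk_mul, S_sq, mk_neg_one]
  · simp only [gen, Fin.mk_one, one_ne_zero, if_false]
    change (QuotientGroup.mk U : PSZ) ^ 3 = 1
    rw [pow_succ, pow_two, ← QuotientGroup.mk_mul, ← QuotientGroup.mk_mul, U_cube, mk_neg_one]

/-- the factors -/
abbrev HH (i : Fin 2) : Type := Multiplicative (ZMod (i.val + 2))

/-- the homomorphisms from the factors -/
def jj (i : Fin 2) : HH i →* PSZ := zhom _ (gen i) (gen_pow i)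

/-- symmetric matrices, with the congruence action -/
def actM (g : SL(2, ℤ)) (M : ℤ × ℤ × ℤ) : ℤ × ℤ × ℤ :=
  (g.1 0 0 ^ 2 * M.1 + 2 * g.1 0 0 * g.1 0 1 * M.2.1 + g.1 0 1 ^ 2 * M.2.2,
   g.1 0 0 * g.1 1 0 * M.1 + (g.1 0 0 * g.1 1 1 + g.1 0 1 * g.1 1 0) * M.2.1 +
     g.1 0 1 * g.1 1 1 * M.2.2,
   g.1 1 0 ^ 2 * M.1 + 2 * g.1 1 0 * g.1 1 1 * M.2.1 + g.1 1 1 ^ 2 * M.2.2)

lemma actM_one (M : ℤ × ℤ × ℤ) : actM 1 M = M := by
  simp [actM]

lemma actM_mul (g h : SL(2, ℤ)) (M : ℤ × ℤ × ℤ) : actM (g * h) M = actM g (actM h M) := by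
  simp only [actM, Matrix.SpecialLinearGroup.coe_mul, Matrix.mul_apply, Fin.sum_univ_two]
  refine Prod.ext ?_ (Prod.ext ?_ ?_) <;> simp only <;> ring

lemma actM_neg (g : SL(2, ℤ)) (M : ℤ × ℤ × ℤ) : actM (-g) M = actM g M := by
  simp only [actM, Matrix.SpecialLinearGroup.coe_neg, Matrix.neg_apply]
  refine Prod.ext ?_ (Prod.ext ?_ ?_) <;> simp only <;> ring

/-- permutation action of `SL₂(ℤ)` -/
def permM : SL(2, ℤ) →* Equiv.Perm (ℤ × ℤ × ℤ) where
  toFun g :=
    { toFun := actM g
      invFun := actM g⁻¹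
      left_inv := fun M => by rw [← actM_mul, inv_mul_cancel, actM_one]
      right_inv := fun M => by rw [← actM_mul, mul_inv_cancel, actM_one] }
  map_one' := by ext1 M; exact actM_one M
  map_mul' g h := by ext1 M; exact actM_mul g h M

/-- permutation action of `PSL₂(ℤ)` -/
def permP : PSZ →* Equiv.Perm (ℤ × ℤ × ℤ) := QuotientGroup.lift PM permM (by
  intro g hg
  rw [mem_PM] at hg
  rcases hg with rfl | rfl
  · exact map_one _
  · ext1 M
    change actM (-1) M = M
    rw [actM_neg, actM_one])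

/-- rank one points off the axes, by sign -/
def XX (i : Fin 2) : Set (ℤ × ℤ × ℤ) :=
  {M | ∃ x y : ℤ, M = (x ^ 2, x * y, y ^ 2) ∧ (if i = 0 then x * y < 0 else 0 < x * y)}

lemma actM_vec (g : SL(2, ℤ)) (x y : ℤ) :
    actM g (x ^ 2, x * y, y ^ 2) = ((g.1 0 0 * x + g.1 0 1 * y) ^ 2,
      (g.1 0 0 * x + g.1 0 1 * y) * (g.1 1 0 * x + g.1 1 1 * y),
      (g.1 1 0 * x + g.1 1 1 * y) ^ 2) := by
  simp only [actM]
  refine Prod.ext ?_ (Prod.ext ?_ ?_) <;> simp only <;> ring

lemma pingpong : Pairwise fun i j : Fin 2 => ∀ h : HH i, h ≠ 1 →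
    (fun M => (permP.comp (jj i)) h M) '' XX j ⊆ XX i := by
  intro i j hij h hh
  fin_cases i <;> fin_cases j
  · exact absurd rfl hij
  · -- S
    rintro _ ⟨M, ⟨x, y, rfl, hxy⟩, rfl⟩
    have hh1 : h = Multiplicative.ofAdd 1 := by
      revert h; decide
    subst hh1
    simp only [MonoidHom.comp_apply]
    have e : jj 0 (Multiplicative.ofAdd 1) = QuotientGroup.mk S := by
      rw [jj, zhom_one]; rfl
    change permP (jj 0 (Multiplicative.ofAdd 1)) _ ∈ _
    rw [e]
    change actM S _ ∈ _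
    rw [actM_vec]
    refine ⟨_, _, rfl, ?_⟩
    simp [S] at hxy ⊢
    linarith
  · rintro _ ⟨M, ⟨x, y, rfl, hxy⟩, rfl⟩
    have e1 : jj 1 (Multiplicative.ofAdd 1) = QuotientGroup.mk U := by
      rw [jj, zhom_one]; rfl
    have e2 : jj 1 (Multiplicative.ofAdd 2) = QuotientGroup.mk (U * U) := by
      have : (Multiplicative.ofAdd 2 : HH 1) = Multiplicative.ofAdd 1 * Multiplicative.ofAdd 1 := by
        decide
      rw [this, map_mul, e1, ← QuotientGroup.mk_mul]
    have hh1 : h = Multiplicative.ofAdd 1 ∨ h = Multiplicative.ofAdd 2 := by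
      revert h; decide
    simp at hxy
    rcases hh1 with rfl | rfl
    · change permP (jj 1 (Multiplicative.ofAdd 1)) _ ∈ _
      rw [e1]
      change actM U _ ∈ _
      rw [actM_vec]
      refine ⟨_, _, rfl, ?_⟩
      simp [S, T, Matrix.mul_apply, Fin.sum_univ_two]
      nlinarith [sq_nonneg x, mul_self_nonneg x]
    · change permP (jj 1 (Multiplicative.ofAdd 2)) _ ∈ _
      rw [e2]
      change actM (U * U) _ ∈ _
      rw [actM_vec]
      refine ⟨_, _, rfl, ?_⟩
      simp [S, T, Matrix.mul_apply, Fin.sum_univ_two]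
      nlinarith [sq_nonneg y, mul_self_nonneg y]
  · exact absurd rfl hij

/-- the canonical map from the free product -/
def can : Monoid.CoprodI HH →* PSZ := Monoid.CoprodI.lift jj

lemma can_injective : Function.Injective can := by
  have h1 : Function.Injective (Monoid.CoprodI.lift (fun i => permP.comp (jj i))) := by
    refine Monoid.CoprodI.lift_injective_of_ping_pong (fun i => permP.comp (jj i)) ?_ XX ?_ ?_ ?_
    · right
      refine ⟨1, ?_⟩
      have : (3 : Cardinal) = Cardinal.mk (HH 1) := by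
        rw [Cardinal.mk_fintype]; rfl
      rw [← this]
    · intro i
      fin_cases i
      · exact ⟨_, 1, -1, rfl, by simp⟩
      · exact ⟨_, 1, 1, rfl, by simp⟩
    · intro i j hij
      rw [Function.onFun, Set.disjoint_left]
      rintro M ⟨x, y, rfl, h1⟩ ⟨x', y', h2, h3⟩
      have h4 : x * y = x' * y' := congrArg (fun t : ℤ × ℤ × ℤ => t.2.1) h2
      fin_cases i <;> fin_cases j
      · exact hij rfl
      · simp at h1 h3; linarith
      · simp at h1 h3; linarith
      · exact hij rfl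
    · intro i j hij h hh
      have := pingpong hij h hh
      exact this
  have h2 : Monoid.CoprodI.lift (fun i => permP.comp (jj i)) = permP.comp can := by
    refine Monoid.CoprodI.ext_hom _ _ fun i => MonoidHom.ext fun h => ?_
    simp [can]
  rw [h2] at h1
  exact Function.Injective.of_comp (f := permP) h1

lemma can_of_gen (i : Fin 2) : can (Monoid.CoprodI.of (Multiplicative.ofAdd (1 : ZMod (i.val + 2)))) =
    gen i := by
  rw [can, Monoid.CoprodI.lift_of, jj, zhom_one]

lemma closure_ST_eq : Subgroup.closure ({S, T} : Set SL(2, ℤ)) = ⊤ :=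
  SpecialLinearGroup.SL2Z_generators

lemma can_surjective : Function.Surjective can := by
  intro p
  obtain ⟨g, rfl⟩ := QuotientGroup.mk_surjective p
  have h1 : (QuotientGroup.mk S : PSZ) ∈ can.range := ⟨_, can_of_gen 0⟩
  have h2 : (QuotientGroup.mk U : PSZ) ∈ can.range := ⟨_, can_of_gen 1⟩
  have h3 : (QuotientGroup.mk T : PSZ) ∈ can.range := by
    have : (T : SL(2, ℤ)) = U * S⁻¹ := by simp [U]
    rw [this, QuotientGroup.mk_mul, QuotientGroup.mk_inv]
    exact mul_mem h2 (inv_mem h1)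
  have h4 : g ∈ can.range.comap (QuotientGroup.mk' PM) := by
    have : (⊤ : Subgroup SL(2, ℤ)) ≤ can.range.comap (QuotientGroup.mk' PM) := by
      rw [← closure_ST_eq, Subgroup.closure_le]
      rintro x (rfl | rfl)
      · exact h1
      · exact h3
    exact this (Subgroup.mem_top g)
  exact h4

/-- `PSL₂(ℤ)` is the free product -/
def canEquiv : Monoid.CoprodI HH ≃* PSZ := MulEquiv.ofBijective can ⟨can_injective, can_surjective⟩

section integ

variable {A : Type*} [AddCommGroup A]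

/-- shifted translation of order `2` or `3` -/
def sh (g : PSZ) (s : PSZ → A) : PSZ × A → PSZ × A := fun p => (g * p.1, p.2 + s p.1)

lemma sh_sq {g : PSZ} {s : PSZ → A} (hg : g ^ 2 = 1) (hs : ∀ p, s p + s (g * p) = 0)
    (x : PSZ × A) : sh g s (sh g s x) = x := by
  refine Prod.ext ?_ ?_
  · simp only [sh]; rw [← mul_assoc, ← pow_two, hg, one_mul]
  · simp only [sh]; rw [add_assoc, hs, add_zero]

lemma sh_cube {g : PSZ} {s : PSZ → A} (hg : g ^ 3 = 1)
    (hs : ∀ p, s p + s (g * p) + s (g * (g * p)) = 0)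
    (x : PSZ × A) : sh g s (sh g s (sh g s x)) = x := by
  refine Prod.ext ?_ ?_
  · simp only [sh]
    rw [← mul_assoc, ← mul_assoc]
    have : g * g * g = 1 := by rw [← pow_two, ← pow_succ]; exact hg
    rw [this, one_mul]
  · simp only [sh]; rw [add_assoc, add_assoc, ← add_assoc (s x.1), hs, add_zero]

/-- integration on `PSL₂(ℤ)` -/
theorem integrateP (s t : PSZ → A)
    (hs : ∀ p, s p + s (QuotientGroup.mk S * p) = 0)
    (ht : ∀ p, t p + t (QuotientGroup.mk U * p) + t (QuotientGroup.mk U * (QuotientGroup.mk U * p))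
      = 0) :
    ∃ E : PSZ → A, (∀ p, E (QuotientGroup.mk S * p) = E p + s p) ∧
      (∀ p, E (QuotientGroup.mk U * p) = E p + t p) := by
  have gS : (QuotientGroup.mk S : PSZ) ^ 2 = 1 := gen_pow 0
  have gU : (QuotientGroup.mk U : PSZ) ^ 3 = 1 := gen_pow 1
  let σS : Equiv.Perm (PSZ × A) :=
    { toFun := sh (QuotientGroup.mk S) s
      invFun := sh (QuotientGroup.mk S) s
      left_inv := fun x => sh_sq gS hs x
      right_inv := fun x => sh_sq gS hs x }
  let σU : Equiv.Perm (PSZ × A) :=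
    { toFun := sh (QuotientGroup.mk U) t
      invFun := fun x => sh (QuotientGroup.mk U) t (sh (QuotientGroup.mk U) t x)
      left_inv := fun x => sh_cube gU ht x
      right_inv := fun x => sh_cube gU ht x }
  let σ : Fin 2 → Equiv.Perm (PSZ × A) := fun i => if i = 0 then σS else σU
  have hσ : ∀ i, σ i ^ (i.val + 2) = 1 := by
    intro i
    fin_cases i
    · change σS ^ 2 = 1
      ext1 x
      rw [pow_two]
      exact sh_sq gS hs x
    · change σU ^ 3 = 1
      ext1 x
      rw [pow_succ, pow_two]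
      exact sh_cube gU ht x
  let Θ : Monoid.CoprodI HH →* Equiv.Perm (PSZ × A) :=
    Monoid.CoprodI.lift (fun i => zhom _ (σ i) (hσ i))
  have hΘgen : ∀ i, Θ (Monoid.CoprodI.of (Multiplicative.ofAdd (1 : ZMod (i.val + 2)))) = σ i := by
    intro i
    change Monoid.CoprodI.lift (fun i => zhom _ (σ i) (hσ i)) _ = _
    rw [Monoid.CoprodI.lift_of, zhom_one]
  let Φ : PSZ →* Equiv.Perm (PSZ × A) := Θ.comp canEquiv.symm.toMonoidHom
  have hsymm : ∀ i, canEquiv.symm (gen i) =
      Monoid.CoprodI.of (M := HH) (i := i) (Multiplicative.ofAdd (1 : ZMod (i.val + 2))) := by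
    intro i
    rw [MulEquiv.symm_apply_eq]
    exact (can_of_gen i).symm
  have hΦS : Φ (QuotientGroup.mk S) = σS := by
    have := hΘgen 0
    rw [← hsymm 0] at this
    exact this
  have hΦU : Φ (QuotientGroup.mk U) = σU := by
    have := hΘgen 1
    rw [← hsymm 1] at this
    exact this
  -- first component
  have hfst : ∀ (p : PSZ) (x : PSZ × A), (Φ p x).1 = p * x.1 := by
    let H : Subgroup PSZ :=
      { carrier := {p | ∀ x : PSZ × A, (Φ p x).1 = p * x.1}
        mul_mem' := by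
          intro a b ha hb x
          rw [map_mul, Equiv.Perm.mul_apply, ha, hb, mul_assoc]
        one_mem' := by intro x; rw [map_one, one_mul]; rfl
        inv_mem' := by
          intro a ha x
          have h1 := ha (Φ a⁻¹ x)
          rw [← Equiv.Perm.mul_apply, ← map_mul, mul_inv_cancel, map_one,
            Equiv.Perm.one_apply] at h1
          rw [h1, inv_mul_cancel_left] }
    have hS : (QuotientGroup.mk S : PSZ) ∈ H := by intro x; rw [hΦS]; rfl
    have hU : (QuotientGroup.mk U : PSZ) ∈ H := by intro x; rw [hΦU]; rfl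
    have hT : (QuotientGroup.mk T : PSZ) ∈ H := by
      have : (T : SL(2, ℤ)) = U * S⁻¹ := by simp [U]
      rw [this, QuotientGroup.mk_mul, QuotientGroup.mk_inv]
      exact mul_mem hU (inv_mem hS)
    intro p
    obtain ⟨g, rfl⟩ := QuotientGroup.mk_surjective p
    have : (⊤ : Subgroup SL(2, ℤ)) ≤ H.comap (QuotientGroup.mk' PM) := by
      rw [← closure_ST_eq, Subgroup.closure_le]
      rintro x (rfl | rfl)
      · exact hS
      · exact hT
    exact this (Subgroup.mem_top g)
  refine ⟨fun p => (Φ p (1, 0)).2, fun p => ?_, fun p => ?_⟩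
  · change (Φ (QuotientGroup.mk S * p) (1, 0)).2 = _
    rw [map_mul, Equiv.Perm.mul_apply, hΦS]
    change (Φ p (1, 0)).2 + s (Φ p (1, 0)).1 = _
    rw [hfst, mul_one]
  · change (Φ (QuotientGroup.mk U * p) (1, 0)).2 = _
    rw [map_mul, Equiv.Perm.mul_apply, hΦU]
    change (Φ p (1, 0)).2 + t (Φ p (1, 0)).1 = _
    rw [hfst, mul_one]

/-- **Integration lemma** -/
theorem integrate (s t : SL(2, ℤ) → A) (hs1 : ∀ y, s (-y) = s y) (ht1 : ∀ y, t (-y) = t y)
    (hs : ∀ y, s y + s (S * y) = 0) (ht : ∀ y, t y + t (U * y) + t (U * (U * y)) = 0) :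
    ∃ E : SL(2, ℤ) → A, (∀ y, E (-y) = E y) ∧ (∀ y, E (S * y) = E y + s y) ∧
      (∀ y, E (U * y) = E y + t y) := by
  have hout : ∀ (f : SL(2, ℤ) → A), (∀ y, f (-y) = f y) → ∀ y : SL(2, ℤ),
      f ((QuotientGroup.mk y : PSZ).out) = f y := by
    intro f hf y
    rcases mk_eq_mk (QuotientGroup.out_eq' (QuotientGroup.mk y : PSZ)) with h | h
    · rw [h]
    · rw [h, hf]
  obtain ⟨E, hE1, hE2⟩ := integrateP (fun p => s p.out) (fun p => t p.out)
    (by
      intro p
      obtain ⟨y, rfl⟩ := QuotientGroup.mk_surjective p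
      rw [← QuotientGroup.mk_mul, hout s hs1, hout s hs1]
      exact hs y)
    (by
      intro p
      obtain ⟨y, rfl⟩ := QuotientGroup.mk_surjective p
      rw [← QuotientGroup.mk_mul, ← QuotientGroup.mk_mul, hout t ht1, hout t ht1, hout t ht1]
      exact ht y)
  refine ⟨fun y => E (QuotientGroup.mk y), fun y => congrArg E (mk_neg y), fun y => ?_, fun y => ?_⟩
  · have := hE1 (QuotientGroup.mk y)
    rw [← QuotientGroup.mk_mul, hout s hs1] at this
    exact this
  · have := hE2 (QuotientGroup.mk y)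
    rw [← QuotientGroup.mk_mul, hout t ht1] at this
    exact this

end integ

end

end Fermat.Agent.LevelRaise
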