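import Fermat.Agent.LevelRaise.Ihara
import Fermat.Agent.LevelRaise.Adjoint2
import Fermat.Agent.LevelRaise.Abstract
import Fermat.Agent.ALCoh.Kill

/-!
# Degeneracy maps on integral lattices, the pairing, and Ihara's lemma mod `p`
-/

set_option autoImplicit false

open Matrix.SpecialLinearGroup
open scoped MatrixGroups
open Fermat.Agent.AL ModularCurve CongruenceSubgroup Fermat.Agent.HeckeHom Fermat.Agent.ALCoh
open ModularCurve.Period

namespace Fermat.Agent.LevelRaise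

noncomputable section

variable {N M q : ℕ}

/-- restriction on lattices -/
def resL (hMN : M ∣ N) : LZ M →+ LZ N where
  toFun φ := ⟨(famRes hMN).op ℤ φ.1, isParabolicHom_op _ φ.2⟩
  map_zero' := Subtype.ext (map_zero _)
  map_add' _ _ := Subtype.ext (map_add _ _ _)

/-- transfer on lattices -/
def trL (hMN : M ∣ N) [NeZero N] [NeZero M] : LZ N →+ LZ M where
  toFun φ := ⟨tr hMN ℤ φ.1, isParabolicHom_op _ φ.2⟩
  map_zero' := Subtype.ext (map_zero _)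
  map_add' _ _ := Subtype.ext (map_add _ _ _)

/-- the Atkin–Lehner involution on lattices -/
def wL (hq : q.Prime) {B : M2} (hB : B ∈ WS (M * q) q) : LZ (M * q) →+ LZ (M * q) where
  toFun φ := ⟨(famW (dvd_mul_left q M) hq.ne_zero hB).op ℤ φ.1, isParabolicHom_op _ φ.2⟩
  map_zero' := Subtype.ext (map_zero _)
  map_add' _ _ := Subtype.ext (map_add _ _ _)

lemma coe_resL (hMN : M ∣ N) (φ : LZ M) : (resL hMN φ).1 = (famRes hMN).op ℤ φ.1 := rfl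

lemma coe_trL (hMN : M ∣ N) [NeZero N] [NeZero M] (φ : LZ N) :
    (trL hMN φ).1 = tr hMN ℤ φ.1 := rfl

lemma coe_wL (hq : q.Prime) {B : M2} (hB : B ∈ WS (M * q) q) (φ : LZ (M * q)) :
    (wL hq hB φ).1 = (famW (dvd_mul_left q M) hq.ne_zero hB).op ℤ φ.1 := rfl

variable (N) in
/-- the pairing on the lattice -/
def QL [NeZero N] : LZ N →+ LZ N →+ ℤ :=
  AddMonoidHom.mk' (fun φ => AddMonoidHom.mk' (fun ψ => QP φ.1 ψ.1)
    (fun ψ ψ' => QP_add_right (neg_one_mem_GG N) φ.2 ψ.2 ψ'.2))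
    (fun φ φ' => AddMonoidHom.ext fun ψ => QP_add_left (neg_one_mem_GG N) φ.2 φ'.2 ψ.2)

lemma QL_apply [NeZero N] (φ ψ : LZ N) : QL N φ ψ = QP φ.1 ψ.1 := rfl

lemma exists_smul_of_dvd {p : ℕ} (hp : p ≠ 0) (φ : LZ N) (h : ∀ γ, (p : ℤ) ∣ φ.1 γ) :
    ∃ φ' : LZ N, φ = (p : ℤ) • φ' := by
  choose f hf using h
  have hpZ : (p : ℤ) ≠ 0 := by exact_mod_cast hp
  refine ⟨⟨AddMonoidHom.mk' f fun x y => ?_, fun γ hγ => ?_⟩, ?_⟩
  · refine mul_left_cancel₀ hpZ ?_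
    rw [← hf, map_add, mul_add, ← hf, ← hf]
  · refine mul_left_cancel₀ hpZ ?_
    rw [AddMonoidHom.mk'_apply, ← hf, φ.2 γ hγ, mul_zero]
  · apply Subtype.ext
    ext γ
    change φ.1 γ = (p : ℤ) • f γ
    rw [hf, smul_eq_mul]

lemma QL_nondeg [NeZero N] {p : ℕ} (hp : p.Prime) (hp2 : p ≠ 2) (v : LZ N)
    (h : ∀ u, (p : ℤ) ∣ QL N v u) : ∃ v' : LZ N, v = (p : ℤ) • v' :=
  exists_smul_of_dvd hp.ne_zero v
    (QP_nondeg_left (neg_one_mem_GG N) hp hp2 v.2 fun ψ hψ => h ⟨ψ, hψ⟩)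

section

variable [NeZero M] [NeZero (M * q)] (hq : q.Prime) {B : M2} (hB : B ∈ WS (M * q) q)

lemma wL_wL (φ : LZ (M * q)) : wL hq hB (wL hq hB φ) = φ := Subtype.ext (by
  rw [coe_wL, coe_wL, W_W_op (dvd_mul_left q M) hq.ne_zero hB hB])

lemma QL_wL (φ ψ : LZ (M * q)) : QL _ (wL hq hB φ) (wL hq hB ψ) = QL _ φ ψ :=
  QP_W hq hB φ.2 ψ.2

lemma QL_wL_left (φ ψ : LZ (M * q)) : QL _ (wL hq hB φ) ψ = QL _ φ (wL hq hB ψ) := by
  rw [← QL_wL hq hB, wL_wL]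

omit [NeZero M] [NeZero (M * q)] in
lemma QL_resL [NeZero M] [NeZero N] (hMN : M ∣ N) (φ : LZ M) (ψ : LZ N) :
    QL N (resL hMN φ) ψ = QL M φ (trL hMN ψ) :=
  QP_res_tr hMN φ.2 ψ.2

omit [NeZero M] in
lemma wL_resL (φ : LZ M) : (wL hq hB (resL (dvd_mul_right M q) φ)).1 =
    (famResq hq.ne_zero dvd_rfl).op ℤ φ.1 := by
  rw [coe_wL, coe_resL, W_res hq hB]

include hq in
lemma trL_resL (hqM : ¬ q ∣ M) (φ : LZ M) :
    trL (dvd_mul_right M q) (resL (dvd_mul_right M q) φ) = ((q : ℤ) + 1) • φ := Subtype.ext (by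
  rw [coe_trL, coe_resL, tr_res hq hqM]
  change (q + 1) • φ.1 = ((q : ℤ) + 1) • φ.1
  rw [← Nat.cast_succ, natCast_zsmul])

lemma trL_wL_resL (hqM : ¬ q ∣ M) (φ : LZ M) :
    (trL (dvd_mul_right M q) (wL hq hB (resL (dvd_mul_right M q) φ))).1 =
      (famT hq hqM).op ℤ φ.1 := by
  rw [coe_trL, wL_resL, tr_resq hq hqM]

/-- on the kernel of both traces, `U_q = -w_q` -/
lemma opU_eq_neg_wL (hqM : ¬ q ∣ M) (φ : LZ (M * q))
    (h : trL (dvd_mul_right M q) (wL hq hB φ) = 0) :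
    (opU (M * q) (dvd_mul_left q M) ℤ φ.1) = - (wL hq hB φ).1 := by
  have h1 := res_tr hq hqM hB (wL hq hB φ).1
  have h2 : tr (dvd_mul_right M q) ℤ (wL hq hB φ).1 = 0 := congrArg Subtype.val h
  rw [h2, map_zero, ← coe_wL hq hB, wL_wL, ← opU_eq hq (dvd_mul_left q M)] at h1
  exact (neg_eq_of_add_eq_zero_right h1.symm).symm

end

/-- **Ihara's lemma mod `p`** on lattices -/
theorem ihara_mod {r r₀ p : ℕ} [NeZero N] [NeZero (N * q)] (h : Aux q N r r₀) (hp : p.Prime)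
    (hqp : q ≠ p) {B : M2} (hB : B ∈ WS (N * q) q) (x₁ x₂ : LZ N) (b : LZ (N * q))
    (hb : resL (dvd_mul_right N q) x₁ + wL h.hq hB (resL (dvd_mul_right N q) x₂) = (p : ℤ) • b) :
    ∀ γ, (p : ℤ) ∣ (opT N h.hr h.hrN ℤ (opT N h.hr h.hrN ℤ x₁.1) - ((r : ℤ) + 1) ^ 2 • x₁.1) γ := by
  haveI : Fact p.Prime := ⟨hp⟩
  set u : ℤ →+ ZMod p := Int.castAddHom (ZMod p) with hu
  have hpar : ∀ x : LZ N, IsParabolicHom (Gamma0 N) (u.comp x.1) := fun x γ hγ => by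
    rw [AddMonoidHom.comp_apply, x.2 γ hγ, map_zero]
  have hqA : ∀ a : ZMod p, q • a = 0 → a = 0 := by
    intro a ha
    rw [nsmul_eq_mul, mul_eq_zero] at ha
    refine ha.resolve_left fun h0 => hqp ?_
    rw [ZMod.natCast_eq_zero_iff] at h0
    exact ((Nat.prime_dvd_prime_iff_eq hp h.hq).mp h0).symm
  have hrel : IharaRel q N (fn (u.comp x₁.1)) (fn (-(u.comp x₂.1))) := by
    intro g g' hg' ⟨h00, h01, h10, h11⟩
    have hgN : g ∈ Gamma0 (N * q) := by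
      rw [mem_Gamma0_iff]
      have h1 := mem_Gamma0_iff.mp hg'
      rw [← h10]
      push_cast
      rw [mul_comm]
      exact mul_dvd_mul_left _ h1
    have hg : g ∈ Gamma0 N := GG_le (dvd_mul_right N q) hgN
    rw [fn_of_mem _ hg, fn_of_mem _ hg']
    have h1 : (resL (dvd_mul_right N q) x₁).1 (Additive.ofMul ⟨g, hgN⟩) =
        x₁.1 (Additive.ofMul ⟨g, hg⟩) := by
      rw [coe_resL, Fam.op_apply_of_tr (famRes (dvd_mul_right N q)) x₁.1 ⟨g, hgN⟩ (σ := 1)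
        (g := fun _ => ⟨g, hg⟩) (fun _ => by simp)]
      simp
    have h2 : (wL h.hq hB (resL (dvd_mul_right N q) x₂)).1 (Additive.ofMul ⟨g, hgN⟩) =
        x₂.1 (Additive.ofMul ⟨g', hg'⟩) := by
      rw [wL_resL, Fam.op_apply_of_tr (famResq h.hq.ne_zero dvd_rfl) x₂.1 ⟨g, hgN⟩ (σ := 1)
        (g := fun _ => ⟨g', hg'⟩) (fun _ => ?_)]
      · simp
      · apply mat_ext <;> simp [Matrix.mul_apply, Fin.sum_univ_two, h00, h01, h11, ← h10, mul_comm]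
    have h3 := congrArg (fun x : LZ (N * q) => u (x.1 (Additive.ofMul ⟨g, hgN⟩))) hb
    simp only [AddSubmonoid.coe_add, Submodule.coe_add, AddMonoidHom.add_apply] at h3
    rw [map_add, h1, h2] at h3
    have h4 : u (((p : ℤ) • b).1 (Additive.ofMul ⟨g, hgN⟩)) = 0 := by
      change u ((p : ℤ) • (b.1 (Additive.ofMul ⟨g, hgN⟩))) = 0
      rw [map_zsmul, ← Int.cast_smul_eq_zsmul (ZMod p)]
      simp
    rw [h4] at h3
    change u _ = - (u _)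
    exact eq_neg_of_add_eq_zero_left h3
  have key := ihara h hqA (hpar x₁) (φ' := -(u.comp x₂.1)) (fun γ hγ => by
    rw [AddMonoidHom.neg_apply, hpar x₂ γ hγ, neg_zero]) hrel
  intro γ
  have h1 := DFunLike.congr_fun key γ
  rw [opT_eq, ← Fam.comp_op, ← Fam.comp_op, ← opT_eq h.hr h.hrN] at h1
  rw [← ZMod.intCast_zmod_eq_zero_iff_dvd]
  have h2 : u (opT N h.hr h.hrN ℤ (opT N h.hr h.hrN ℤ x₁.1) γ) = u ((((r : ℤ) + 1) ^ 2) • x₁.1 γ) := by
    rw [map_zsmul]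
    have h5 : (((r + 1) ^ 2 : ℕ) • (u.comp x₁.1)) γ = ((((r : ℤ) + 1) ^ 2)) • u (x₁.1 γ) := by
      rw [AddMonoidHom.nsmul_apply, ← natCast_zsmul]
      push_cast
      rfl
    rw [← h5]
    exact h1
  change u ((opT N h.hr h.hrN ℤ (opT N h.hr h.hrN ℤ x₁.1) γ) - (((r : ℤ) + 1) ^ 2) • x₁.1 γ) = 0
  rw [map_sub, h2, sub_self]

end

end Fermat.Agent.LevelRaise
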