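import Fermat.Agent.LevelRaise.SumX
import Fermat.Agent.LevelRaise.Integrate

set_option autoImplicit false

/-!
# The Poincaré pairing on parabolic homomorphisms
-/

open Matrix.SpecialLinearGroup
open scoped MatrixGroups
open ModularGroup (S T)

namespace Fermat.Agent.LevelRaise

noncomputable section

/-- parabolic homomorphisms on `Γ` as functions -/
structure PH {A : Type*} [AddCommGroup A] (Γ : Subgroup SL(2, ℤ)) (φ : SL(2, ℤ) → A) : Prop where
  mul : ∀ g ∈ Γ, ∀ h ∈ Γ, φ (g * h) = φ g + φ h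
  par : ∀ g ∈ Γ, g.1.trace ^ 2 = 4 → φ g = 0

namespace PH

variable {A : Type*} [AddCommGroup A] {Γ : Subgroup SL(2, ℤ)} {φ ψ : SL(2, ℤ) → A}

lemma map_one (hφ : PH Γ φ) : φ 1 = 0 := by
  have := hφ.mul 1 (one_mem _) 1 (one_mem _)
  rw [mul_one] at this
  simpa using this

lemma map_inv (hφ : PH Γ φ) {g : SL(2, ℤ)} (hg : g ∈ Γ) : φ g⁻¹ = -φ g := by
  have := hφ.mul g hg g⁻¹ (inv_mem hg)
  rw [mul_inv_cancel, hφ.map_one] at this
  exact (neg_eq_of_add_eq_zero_right this.symm).symm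

lemma map_pow (hφ : PH Γ φ) {g : SL(2, ℤ)} (hg : g ∈ Γ) (n : ℕ) : φ (g ^ n) = n • φ g := by
  induction n with
  | zero => rw [pow_zero, hφ.map_one, zero_smul]
  | succ n ih => rw [pow_succ, hφ.mul _ (pow_mem hg _) _ hg, ih, succ_nsmul]

lemma conj (hφ : PH Γ φ) {g h : SL(2, ℤ)} (hg : g ∈ Γ) (hh : h ∈ Γ) : φ (g * h * g⁻¹) = φ h := by
  rw [hφ.mul _ (mul_mem hg hh) _ (inv_mem hg), hφ.mul _ hg _ hh, hφ.map_inv hg]
  abel

lemma map_neg_one (hφ : PH Γ φ) (h1 : -1 ∈ Γ) : φ (-1) = 0 :=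
  hφ.par _ h1 (by simp [Matrix.trace_fin_two])

lemma mono {Γ' : Subgroup SL(2, ℤ)} (h : Γ' ≤ Γ) (hφ : PH Γ φ) : PH Γ' φ :=
  ⟨fun g hg k hk => hφ.mul g (h hg) k (h hk), fun g hg => hφ.par g (h hg)⟩

lemma comp {B : Type*} [AddCommGroup B] (u : A →+ B) (hφ : PH Γ φ) : PH Γ (fun g => u (φ g)) :=
  ⟨fun g hg h hh => by simp only [hφ.mul g hg h hh, map_add],
    fun g hg ht => by simp only [hφ.par g hg ht, map_zero]⟩

end PH

lemma trace_conj_inv (y h : SL(2, ℤ)) : (y⁻¹ * h * y).1.trace = h.1.trace := by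
  rw [Matrix.SpecialLinearGroup.coe_mul, Matrix.trace_mul_comm,
    ← Matrix.SpecialLinearGroup.coe_mul, ← mul_assoc, mul_inv_cancel, one_mul]

lemma trace_T_pow (n : ℤ) : ((T ^ n : SL(2, ℤ))).1.trace = 2 := by
  rw [ModularGroup.coe_T_zpow]; simp [Matrix.trace_fin_two]

/-- equivariant functions with invariance on the left -/
theorem exists_sec {A : Type*} [AddCommGroup A] {C Γ : Subgroup SL(2, ℤ)} {φ : SL(2, ℤ) → A}
    (hφ : ∀ g ∈ Γ, ∀ h ∈ Γ, φ (g * h) = φ g + φ h)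
    (h0 : ∀ y : SL(2, ℤ), ∀ c ∈ C, y⁻¹ * c * y ∈ Γ → φ (y⁻¹ * c * y) = 0) :
    ∃ h : SL(2, ℤ) → A, (∀ c ∈ C, ∀ y, h (c * y) = h y) ∧
      ∀ y, ∀ γ ∈ Γ, h (y * γ) = h y + φ γ := by
  let r : Setoid SL(2, ℤ) :=
    { r := fun y z => ∃ c ∈ C, ∃ γ ∈ Γ, z = c * y * γ
      iseqv :=
        { refl := fun y => ⟨1, one_mem _, 1, one_mem _, by simp⟩
          symm := by
            rintro y z ⟨c, hc, γ, hγ, rfl⟩
            exact ⟨c⁻¹, inv_mem hc, γ⁻¹, inv_mem hγ, by group⟩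
          trans := by
            rintro y z w ⟨c, hc, γ, hγ, rfl⟩ ⟨c', hc', γ', hγ', rfl⟩
            exact ⟨c' * c, mul_mem hc' hc, γ * γ', mul_mem hγ hγ', by group⟩ } }
  let rep : SL(2, ℤ) → SL(2, ℤ) := fun y => (Quotient.mk r y).out
  have hrep : ∀ y, ∃ c ∈ C, ∃ γ ∈ Γ, y = c * rep y * γ := by
    intro y
    exact (Quotient.mk_out (s := r) y : r.r (rep y) y)
  have hrep_eq : ∀ c ∈ C, ∀ y, ∀ γ ∈ Γ, rep (c * y * γ) = rep y := by
    intro c hc y γ hγ
    have : Quotient.mk r (c * y * γ) = Quotient.mk r y :=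
      (Quotient.sound (s := r) (⟨c, hc, γ, hγ, rfl⟩ : r.r y (c * y * γ))).symm
    simp only [rep, this]
  choose cc hcc gg hgg hy using hrep
  have hh1 := hφ 1 (one_mem _) 1 (one_mem _)
  have h1 : φ 1 = 0 := by
    rw [mul_one] at hh1; simpa using hh1
  have hinv : ∀ g ∈ Γ, φ g⁻¹ = -φ g := by
    intro g hg
    have := hφ g hg g⁻¹ (inv_mem hg)
    rw [mul_inv_cancel, h1] at this
    exact (neg_eq_of_add_eq_zero_right this.symm).symm
  have key : ∀ c ∈ C, ∀ y, ∀ γ ∈ Γ, φ (gg (c * y * γ)) = φ (gg y) + φ γ := by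
    intro c hc y γ hγ
    set y' := c * y * γ with hy'
    have e1 := hy y'
    rw [hrep_eq c hc y γ hγ] at e1
    have e2 : y' = c * (cc y * rep y * gg y) * γ := by rw [hy', ← hy y]
    have e3 : (rep y)⁻¹ * ((c * cc y)⁻¹ * cc y') * rep y = gg y * γ * (gg y')⁻¹ := by
      have e4 : c * (cc y * rep y * gg y) * γ = cc y' * rep y * gg y' := e2.symm.trans e1
      have e5 : cc y' * rep y = c * (cc y * rep y * gg y) * γ * (gg y')⁻¹ := by
        rw [e4]; group
      calc (rep y)⁻¹ * ((c * cc y)⁻¹ * cc y') * rep y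
          = (rep y)⁻¹ * (c * cc y)⁻¹ * (cc y' * rep y) := by group
        _ = gg y * γ * (gg y')⁻¹ := by rw [e5]; group
    have hm : gg y * γ * (gg y')⁻¹ ∈ Γ := mul_mem (mul_mem (hgg y) hγ) (inv_mem (hgg y'))
    have e6 := h0 (rep y) ((c * cc y)⁻¹ * cc y')
      (mul_mem (inv_mem (mul_mem hc (hcc y))) (hcc y')) (by rw [e3]; exact hm)
    rw [e3, hφ _ (mul_mem (hgg y) hγ) _ (inv_mem (hgg y')), hφ _ (hgg y) _ hγ,
      hinv _ (hgg y')] at e6
    exact (sub_eq_zero.mp (by rw [sub_eq_add_neg]; exact e6)).symm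
  refine ⟨fun y => φ (gg y), fun c hc y => ?_, fun y γ hγ => ?_⟩
  · have := key c hc y 1 (one_mem _)
    rw [mul_one, h1, add_zero] at this
    exact this
  · have := key 1 (one_mem _) y γ hγ
    rw [one_mul] at this
    exact this

section defs

variable {A : Type*} [AddCommGroup A] (Γ : Subgroup SL(2, ℤ))

/-- `T`-invariant primitives -/
structure IsH (φ h : SL(2, ℤ) → A) : Prop where
  left : ∀ y, h (T * y) = h y
  right : ∀ y, ∀ γ ∈ Γ, h (y * γ) = h y + φ γ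

/-- `U`-invariant primitives -/
structure IsK (ψ k : SL(2, ℤ) → A) : Prop where
  left : ∀ y, k (U * y) = k y
  right : ∀ y, ∀ γ ∈ Γ, k (y * γ) = k y + ψ γ

variable {Γ}

theorem exists_IsH {φ : SL(2, ℤ) → A} (hφ : PH Γ φ) : ∃ h, IsH Γ φ h := by
  obtain ⟨h, h1, h2⟩ := exists_sec (C := Subgroup.zpowers T) hφ.mul (by
    rintro y c hc hm
    obtain ⟨n, rfl⟩ := Subgroup.mem_zpowers_iff.mp hc
    refine hφ.par _ hm ?_
    rw [trace_conj_inv, trace_T_pow]; norm_num)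
  exact ⟨h, fun y => h1 T (Subgroup.mem_zpowers _) y, h2⟩

lemma U_pow_six : (U ^ 6 : SL(2, ℤ)) = 1 := by
  have h : (U ^ 3 : SL(2, ℤ)) = -1 := by
    rw [pow_succ, pow_two, U_cube]
  have : (U ^ 6 : SL(2, ℤ)) = (U ^ 3) ^ 2 := by rw [← pow_mul]
  rw [this, h]; simp

theorem exists_IsK (h6 : ∀ a : A, 6 • a = 0 → a = 0) {ψ : SL(2, ℤ) → A} (hψ : PH Γ ψ) :
    ∃ k, IsK Γ ψ k := by
  obtain ⟨h, h1, h2⟩ := exists_sec (C := Subgroup.zpowers U) hψ.mul (by
    rintro y c hc hm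
    obtain ⟨n, rfl⟩ := Subgroup.mem_zpowers_iff.mp hc
    apply h6
    rw [← hψ.map_pow hm, show (y⁻¹ * U ^ n * y) ^ 6 = 1 from ?_, hψ.map_one]
    have : (y⁻¹ * U ^ n * y) ^ 6 = y⁻¹ * (U ^ n) ^ 6 * y := by
      have := conj_pow (a := y⁻¹) (b := U ^ n) (i := 6)
      rwa [inv_inv] at this
    rw [this, ← zpow_natCast, ← zpow_mul, mul_comm, zpow_mul, zpow_natCast, U_pow_six, one_zpow,
      mul_one, inv_mul_cancel])
  exact ⟨h, fun y => h1 U (Subgroup.mem_zpowers _) y, h2⟩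

end defs

/-- boundary -/
def dS {A : Type*} [AddCommGroup A] (h : SL(2, ℤ) → A) (y : SL(2, ℤ)) : A := h (S * y) - h y

section props

variable {A : Type*} [AddCommGroup A] {Γ : Subgroup SL(2, ℤ)} {φ h ψ k : SL(2, ℤ) → A}

lemma neg_eq_mul (y : SL(2, ℤ)) : -y = y * (-1) := by simp

lemma SS_mul (y : SL(2, ℤ)) : S * (S * y) = -y := by rw [← mul_assoc, S_sq]; simp

lemma UUU_mul (y : SL(2, ℤ)) : U * (U * (U * y)) = -y := by
  rw [← mul_assoc, ← mul_assoc, U_cube]; simp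

lemma map_neg_of_right (h1 : -1 ∈ Γ) (hφ : φ (-1) = 0)
    (hr : ∀ y, ∀ γ ∈ Γ, h (y * γ) = h y + φ γ) (y : SL(2, ℤ)) : h (-y) = h y := by
  rw [neg_eq_mul, hr y _ h1, hφ, add_zero]

lemma dS_inv (hr : ∀ y, ∀ γ ∈ Γ, h (y * γ) = h y + φ γ) : Inv Γ (dS h) := by
  intro y γ hγ
  rw [dS, dS, ← mul_assoc, hr _ γ hγ, hr _ γ hγ]
  abel

lemma dS_S (hneg : ∀ y, h (-y) = h y) (y : SL(2, ℤ)) : dS h (S * y) = -dS h y := by
  rw [dS, dS, SS_mul, hneg]; abel

lemma dS_neg (hneg : ∀ y, h (-y) = h y) (y : SL(2, ℤ)) : dS h (-y) = dS h y := by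
  rw [dS, dS, mul_neg, hneg, hneg]

/-- for `T`-invariant functions the boundary is also the `U`-boundary -/
lemma dS_eq_dU (hT : ∀ y, h (T * y) = h y) (y : SL(2, ℤ)) : dS h y = h (U * y) - h y := by
  rw [dS, U, mul_assoc, hT]

/-- for `U`-invariant functions the boundary is also the `T`-boundary -/
lemma dS_eq_dT (hneg : ∀ y, h (-y) = h y) (hU : ∀ y, h (U * y) = h y) (y : SL(2, ℤ)) :
    dS h y = h (T * y) - h y := by
  have h1 : h (T * y) = h (S * y) := by
    have e : T * y = U * (S * (-y)) := by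
      rw [U, mul_assoc, SS_mul, neg_neg]
    rw [e, hU, mul_neg, hneg]
  rw [dS, h1]

lemma dS_sum (hneg : ∀ y, h (-y) = h y) (hT : ∀ y, h (T * y) = h y) (y : SL(2, ℤ)) :
    dS h y + dS h (U * y) + dS h (U * (U * y)) = 0 := by
  rw [dS_eq_dU hT, dS_eq_dU hT, dS_eq_dU hT, UUU_mul, hneg]; abel

end props

/-- the pairing of primitives -/
def Pair {R : Type*} [CommRing R] (Γ : Subgroup SL(2, ℤ)) (h k : SL(2, ℤ) → R) : R :=
  SX Γ (fun y => dS h y * dS k y)

section pair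

variable {R : Type*} [CommRing R] [IsAddTorsionFree R] {Γ : Subgroup SL(2, ℤ)} [Γ.FiniteIndex]
  {φ ψ h h' k k' : SL(2, ℤ) → R}

lemma eq_zero_of_nsmul {M : ℕ} (hM : 0 < M) {a : R} (h : M • a = 0) : a = 0 := by
  have := (nsmul_right_inj (M := R) hM.ne').mp (h.trans (smul_zero M).symm)
  exact this

lemma SX_mul_dS {a b : SL(2, ℤ) → R} (hb : ∀ y, b (S * y) = -b y) (ha : ∀ y, a (-y) = a y)
    (hab : Inv Γ (fun y => a y * b y)) :
    SX Γ (fun y => dS a y * b y) = - (2 * SX Γ (fun y => a y * b y)) := by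
  have e1 : SX Γ (fun y => a (S * y) * b y) = - SX Γ (fun y => a y * b y) := by
    have h1 := SX_shift hab S
    have h2 : SX Γ (fun y => a (S * y) * b y) = SX Γ (fun y => -(a (S * y) * b (S * y))) :=
      SX_congr fun y => by rw [hb]; ring
    rw [h2, SX_neg, h1]
  have e2 : SX Γ (fun y => dS a y * b y) =
      SX Γ (fun y => a (S * y) * b y) - SX Γ (fun y => a y * b y) := by
    rw [← SX_sub]
    exact SX_congr fun y => by rw [dS]; ring
  rw [e2, e1]; ring

theorem Pair_congr_left (h1 : -1 ∈ Γ) (hφ : PH Γ φ) (hψ : PH Γ ψ) (hh : IsH Γ φ h)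
    (hh' : IsH Γ φ h') (hk : IsK Γ ψ k) : Pair Γ h k = Pair Γ h' k := by
  have hkneg := map_neg_of_right h1 (hψ.map_neg_one h1) hk.right
  have hhneg := map_neg_of_right h1 (hφ.map_neg_one h1) hh.right
  have hhneg' := map_neg_of_right h1 (hφ.map_neg_one h1) hh'.right
  set d : SL(2, ℤ) → R := fun y => h y - h' y with hd
  have hdinv : Inv Γ d := by
    intro y γ hγ
    simp only [hd, hh.right y γ hγ, hh'.right y γ hγ]; ring
  have hdT : ∀ y, d (T * y) = d y := by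
    intro y; simp only [hd, hh.left, hh'.left]
  have hdneg : ∀ y, d (-y) = d y := by
    intro y; simp only [hd, hhneg, hhneg']
  have hkinv := dS_inv hk.right
  have hdk : Inv Γ (fun y => d y * dS k y) := by
    intro y γ hγ
    simp only [hdinv y γ hγ, hkinv y γ hγ]
  have e1 : Pair Γ h k - Pair Γ h' k = SX Γ (fun y => dS d y * dS k y) := by
    rw [Pair, Pair, ← SX_sub]
    refine SX_congr fun y => ?_
    simp only [dS, hd]; ring
  have e2 : SX Γ (fun y => d y * dS k y) = 0 := by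
    obtain ⟨M, hM, hMy⟩ := exists_uniform_pow Γ
    -- telescoping for `V y = d y * k y` does not apply directly; use sums along `T`
    have hpow : ∀ n : ℕ, ∀ y, d (T ^ n * y) = d y := by
      intro n
      induction n with
      | zero => intro y; simp
      | succ n ih => intro y; rw [pow_succ', mul_assoc, hdT, ih]
    have hsum : ∀ n : ℕ, n • SX Γ (fun y => d y * dS k y) =
        SX Γ (fun y => d y * (k (T ^ n * y) - k y)) := by
      intro n
      induction n with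
      | zero => simp [SX]
      | succ n ih =>
        rw [succ_nsmul, ih]
        have h2 := SX_shift hdk (T ^ n)
        rw [← h2, ← SX_add]
        refine SX_congr fun y => ?_
        rw [hpow n y, dS_eq_dT hkneg hk.left, pow_succ']
        simp only [mul_assoc]
        ring
    apply eq_zero_of_nsmul hM
    rw [hsum M]
    have h3 : ∀ y, d y * (k (T ^ M * y) - k y) = 0 := by
      intro y
      have e3 : T ^ M * y = y * (y⁻¹ * T ^ M * y) := by group
      have e4 : ψ (y⁻¹ * T ^ M * y) = 0 := by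
        refine hψ.par _ (hMy T y) ?_
        rw [trace_conj_inv, ← zpow_natCast, trace_T_pow]; norm_num
      rw [e3, hk.right y _ (hMy T y), e4]; ring
    rw [SX_congr h3]
    simp [SX]
  rw [SX_mul_dS (fun y => dS_S hkneg y) hdneg hdk, e2, mul_zero, neg_zero] at e1
  exact sub_eq_zero.mp e1

theorem Pair_congr_right (h1 : -1 ∈ Γ) (hφ : PH Γ φ) (hψ : PH Γ ψ) (hh : IsH Γ φ h)
    (hk : IsK Γ ψ k) (hk' : IsK Γ ψ k') : Pair Γ h k = Pair Γ h k' := by
  have hhneg := map_neg_of_right h1 (hφ.map_neg_one h1) hh.right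
  have hkneg := map_neg_of_right h1 (hψ.map_neg_one h1) hk.right
  have hkneg' := map_neg_of_right h1 (hψ.map_neg_one h1) hk'.right
  set d : SL(2, ℤ) → R := fun y => k y - k' y with hd
  have hdinv : Inv Γ d := by
    intro y γ hγ
    simp only [hd, hk.right y γ hγ, hk'.right y γ hγ]; ring
  have hdU : ∀ y, d (U * y) = d y := by
    intro y; simp only [hd, hk.left, hk'.left]
  have hdneg : ∀ y, d (-y) = d y := by
    intro y; simp only [hd, hkneg, hkneg']
  have hhinv := dS_inv hh.right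
  have hdh : Inv Γ (fun y => d y * dS h y) := by
    intro y γ hγ
    simp only [hdinv y γ hγ, hhinv y γ hγ]
  have e1 : Pair Γ h k - Pair Γ h k' = SX Γ (fun y => dS d y * dS h y) := by
    rw [Pair, Pair, ← SX_sub]
    refine SX_congr fun y => ?_
    simp only [dS, hd]; ring
  have e2 : SX Γ (fun y => d y * dS h y) = 0 := by
    have h3 := SX_shift hdh U
    have h4 := SX_shift hdh (U * U)
    have h5 : 3 • SX Γ (fun y => d y * dS h y) = 0 := by
      have : 3 • SX Γ (fun y => d y * dS h y) = SX Γ (fun y => d y * dS h y) +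
          SX Γ (fun y => d (U * y) * dS h (U * y)) +
          SX Γ (fun y => d (U * U * y) * dS h (U * U * y)) := by
        rw [h3, h4]; simp only [succ_nsmul, zero_nsmul, zero_add]
      rw [this, ← SX_add, ← SX_add]
      have h6 : ∀ y, d y * dS h y + d (U * y) * dS h (U * y) +
          d (U * U * y) * dS h (U * U * y) = 0 := by
        intro y
        rw [mul_assoc U U y, hdU, hdU, hdU]
        linear_combination (d y) * dS_sum hhneg hh.left y
      rw [SX_congr h6]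
      simp [SX]
    exact eq_zero_of_nsmul (by norm_num) h5
  rw [SX_mul_dS (fun y => dS_S hhneg y) hdneg hdh, e2, mul_zero, neg_zero] at e1
  exact sub_eq_zero.mp e1

end pair

open Classical in
/-- a chosen `T`-invariant primitive -/
def hc {A : Type*} [AddCommGroup A] (Γ : Subgroup SL(2, ℤ)) (φ : SL(2, ℤ) → A) : SL(2, ℤ) → A :=
  if h : ∃ h, IsH Γ φ h then h.choose else 0

open Classical in
/-- a chosen `U`-invariant primitive -/
def kc {A : Type*} [AddCommGroup A] (Γ : Subgroup SL(2, ℤ)) (ψ : SL(2, ℤ) → A) : SL(2, ℤ) → A :=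
  if h : ∃ k, IsK Γ ψ k then h.choose else 0

lemma hc_spec {A : Type*} [AddCommGroup A] {Γ : Subgroup SL(2, ℤ)} {φ : SL(2, ℤ) → A}
    (hφ : PH Γ φ) : IsH Γ φ (hc Γ φ) := by
  rw [hc, dif_pos (exists_IsH hφ)]
  exact (exists_IsH hφ).choose_spec

lemma six_torsion {A : Type*} [AddCommGroup A] [IsAddTorsionFree A] (a : A) (h : 6 • a = 0) :
    a = 0 :=
  (nsmul_right_inj (M := A) (by norm_num : (6 : ℕ) ≠ 0)).mp (h.trans (smul_zero 6).symm)

lemma kc_spec {A : Type*} [AddCommGroup A] [IsAddTorsionFree A] {Γ : Subgroup SL(2, ℤ)}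
    {ψ : SL(2, ℤ) → A} (hψ : PH Γ ψ) : IsK Γ ψ (kc Γ ψ) := by
  rw [kc, dif_pos (exists_IsK six_torsion hψ)]
  exact (exists_IsK six_torsion hψ).choose_spec

/-- **the Poincaré pairing** -/
def PP {R : Type*} [CommRing R] (Γ : Subgroup SL(2, ℤ)) (φ ψ : SL(2, ℤ) → R) : R :=
  Pair Γ (hc Γ φ) (kc Γ ψ)

section PPlemmas

variable {R : Type*} [CommRing R] [IsAddTorsionFree R] {Γ : Subgroup SL(2, ℤ)} [Γ.FiniteIndex]
  {φ ψ h k : SL(2, ℤ) → R}

theorem PP_eq (h1 : -1 ∈ Γ) (hφ : PH Γ φ) (hψ : PH Γ ψ) (hh : IsH Γ φ h) (hk : IsK Γ ψ k) :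
    PP Γ φ ψ = Pair Γ h k := by
  rw [PP, Pair_congr_left h1 hφ hψ (hc_spec hφ) hh (kc_spec hψ),
    Pair_congr_right h1 hφ hψ hh (kc_spec hψ) hk]

end PPlemmas

end

end Fermat.Agent.LevelRaise
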