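import Mathlib

/-!
# A group theoretic lemma

An irreducible representation over `𝔽_p` (`p` odd) of dimension at least two in which every
element `g` satisfies `(g - ε) (g - ε χ(g)) = 0` with `ε = ±1`, `χ` a character with values in
`𝔽_pˣ`, does not exist.
-/

set_option autoImplicit false

open scoped LinearAlgebra.Projectivization

namespace Fermat.Agent.LevelRaise

variable {p : ℕ} [hp : Fact p.Prime] {G V : Type*} [Group G] [AddCommGroup V] [Module (ZMod p) V]
  [DistribMulAction G V] [SMulCommClass G (ZMod p) V]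

lemma pow_smul_of_unip {g : G} {ε : ZMod p} (hε : ε ^ 2 = 1)
    (h : ∀ v : V, g • g • v - (2 * ε) • g • v + v = 0) (v : V) (n : ℕ) :
    g ^ n • v = ε ^ n • v + (n * ε ^ (n + 1)) • (g • v - ε • v) := by
  have hw : g • (g • v - ε • v) = ε • (g • v - ε • v) := by
    have h1 := h v
    have h2 : g • g • v = (2 * ε) • g • v - v := by
      rw [← sub_eq_zero, ← h1]; abel
    rw [smul_sub, smul_comm g ε v, h2, smul_sub, smul_smul, ← sq, hε, one_smul, two_mul, add_smul]
    abel
  induction n with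
  | zero => simp
  | succ n ih =>
    rw [pow_succ', mul_smul, ih, smul_add, smul_comm g, smul_comm g _ (g • v - ε • v), hw]
    have h3 : g • v = ε • v + (g • v - ε • v) := by abel
    conv_lhs => rw [h3]
    have h4 : ε ^ (n + 1 + 1) = ε ^ n := by
      rw [pow_add, pow_add, mul_assoc, ← pow_add, hε, mul_one]
    rw [h4, pow_succ]
    have h5 : ε ^ n * ε * ε = ε ^ n := by rw [mul_assoc, ← sq, hε, mul_one]
    push_cast
    have h6 : (n * (ε ^ n * ε)) • ε • (g • v - ε • v) = (n * ε ^ n) • (g • v - ε • v) := by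
      rw [smul_smul, mul_assoc, h5]
    have h7 : ε • v + (g • v - ε • v) - ε • v = g • v - ε • v := by abel
    rw [h7, h6, smul_add, smul_smul, add_mul, one_mul, add_smul]
    abel

/-- a common eigenline -/
lemma exists_fixed_line [Finite V] [Nontrivial V]
    (h : ∀ g : G, ∃ ε : ZMod p, ε ^ 2 = 1 ∧ ∀ v : V, g • g • v - (2 * ε) • g • v + v = 0) :
    ∃ v : V, v ≠ 0 ∧ ∀ g : G, ∃ c : ZMod p, g • v = c • v := by
  classical
  let f := MulAction.toPermHom G (ℙ (ZMod p) V)
  haveI : Finite (ℙ (ZMod p) V) := inferInstance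
  have hpg : IsPGroup p f.range := by
    rintro ⟨_, g, rfl⟩
    refine ⟨1, ?_⟩
    obtain ⟨ε, hε, hg⟩ := h g
    apply Subtype.ext
    apply Equiv.ext
    intro x
    change (f g ^ p ^ 1) x = x
    rw [pow_one, ← map_pow]
    change g ^ p • x = x
    induction x using Projectivization.ind with
    | h v hv =>
      rw [Projectivization.smul_mk, Projectivization.mk_eq_mk_iff']
      refine ⟨ε ^ p, ?_⟩
      rw [pow_smul_of_unip hε hg v p]
      simp
  have hcard : ¬ p ∣ Nat.card (ℙ (ZMod p) V) := by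
    intro hdvd
    have h1 := Projectivization.card' (ZMod p) V
    rw [Nat.card_zmod] at h1
    have h2 : p ∣ Nat.card V := by
      haveI : Module.Finite (ZMod p) V := Module.Finite.of_finite
      rw [Module.natCard_eq_pow_finrank (K := ZMod p) (V := V), Nat.card_zmod]
      exact dvd_pow_self p (Module.finrank_pos.ne')
    rw [h1] at h2
    have h3 : p ∣ 1 := (Nat.dvd_add_right (hdvd.mul_right _)).mp h2
    exact hp.out.one_lt.ne' (Nat.dvd_one.mp h3)
  obtain ⟨x, hx⟩ := hpg.nonempty_fixed_point_of_prime_not_dvd_card (ℙ (ZMod p) V) hcard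
  induction x using Projectivization.ind with
  | h v hv =>
    refine ⟨v, hv, fun g => ?_⟩
    have h1 : g • (Projectivization.mk (ZMod p) v hv) = Projectivization.mk (ZMod p) v hv :=
      hx ⟨f g, g, rfl⟩
    rw [Projectivization.smul_mk, Projectivization.mk_eq_mk_iff'] at h1
    obtain ⟨a, ha⟩ := h1
    exact ⟨a, ha.symm⟩

open Polynomial in
/-- powers of an element satisfying the split quadratic relation -/
lemma rel_pow {g : G} {ε c : ZMod p} (hε : ε ^ 2 = 1)
    (h : ∀ v : V, g • g • v - (ε * (1 + c)) • g • v + c • v = 0) (n : ℕ) (v : V) :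
    g ^ n • g ^ n • v - (ε ^ n * (1 + c ^ n)) • g ^ n • v + c ^ n • v = 0 := by
  let T : Module.End (ZMod p) V := DistribMulAction.toLinearMap (ZMod p) V g
  have hT : ∀ v, T v = g • v := fun _ => rfl
  have hTn : ∀ (n : ℕ) (v : V), (T ^ n) v = g ^ n • v := by
    intro n
    induction n with
    | zero => intro v; simp
    | succ n ih => intro v; rw [pow_succ', Module.End.mul_apply, ih, hT, pow_succ', mul_smul]
  have h1 : aeval T ((X - C ε) * (X - C (ε * c))) = 0 := by
    refine LinearMap.ext fun v => ?_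
    have h2 : ((X - C ε) * (X - C (ε * c)) : (ZMod p)[X]) =
        X ^ 2 - C (ε * (1 + c)) * X + C c := by
      have h3 : (C ε : (ZMod p)[X]) * C (ε * c) = C c := by
        rw [← C_mul, ← mul_assoc, ← sq, hε, one_mul]
      have h4 : (C (ε * (1 + c)) : (ZMod p)[X]) = C ε + C (ε * c) := by
        rw [← C_add]; congr 1; ring
      rw [h4, ← h3]; ring
    rw [h2, map_add, map_sub, map_mul, map_pow, aeval_X, aeval_C, aeval_C, LinearMap.add_apply,
      LinearMap.sub_apply, Module.End.mul_apply, hTn, Module.algebraMap_end_apply,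
      Module.algebraMap_end_apply, hT, sq, mul_smul]
    exact h v
  have h2 : ((X - C ε) * (X - C (ε * c)) : (ZMod p)[X]) ∣
      (X ^ n - C ε ^ n) * (X ^ n - C (ε * c) ^ n) :=
    mul_dvd_mul (sub_dvd_pow_sub_pow _ _ _) (sub_dvd_pow_sub_pow _ _ _)
  obtain ⟨R, hR⟩ := h2
  have h3 : aeval T ((X ^ n - C ε ^ n) * (X ^ n - C (ε * c) ^ n)) = 0 := by
    rw [hR, map_mul, h1, zero_mul]
  have h4 : ((X ^ n - C ε ^ n) * (X ^ n - C (ε * c) ^ n) : (ZMod p)[X]) =
      X ^ n * X ^ n - C (ε ^ n * (1 + c ^ n)) * X ^ n + C (c ^ n) := by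
    have h5 : (C ε : (ZMod p)[X]) ^ n * C (ε * c) ^ n = C (c ^ n) := by
      rw [← C_pow, ← C_pow, ← C_mul, ← mul_pow, ← mul_assoc, ← sq, hε, one_mul]
    have h6 : (C (ε ^ n * (1 + c ^ n)) : (ZMod p)[X]) = C ε ^ n + C (ε * c) ^ n := by
      rw [← C_pow, ← C_pow, ← C_add]; congr 1; rw [mul_pow]; ring
    rw [h6, ← h5]; ring
  rw [h4, map_add, map_sub, map_mul, map_mul, map_pow, aeval_X, aeval_C, aeval_C] at h3
  have h5 := congrArg (fun f : Module.End (ZMod p) V => f v) h3
  simp only [LinearMap.add_apply, LinearMap.sub_apply, Module.End.mul_apply,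
    Module.algebraMap_end_apply, LinearMap.zero_apply, hTn] at h5
  exact h5

/-- **The group theoretic lemma.** -/
theorem false_of_split [Finite V] (hV : p < Nat.card V)
    (hirr : ∀ N : Submodule (ZMod p) V, (∀ g : G, ∀ x ∈ N, g • x ∈ N) → N = ⊥ ∨ N = ⊤)
    (χ : G →* (ZMod p)ˣ)
    (H : ∀ g : G, ∃ ε : ZMod p, ε ^ 2 = 1 ∧
      ∀ v : V, g • g • v - (ε * (1 + χ g)) • g • v + (χ g : ZMod p) • v = 0) : False := by
  classical
  choose ε hε hg using H
  haveI : Nontrivial V := by
    rw [← Finite.one_lt_card_iff_nontrivial]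
    exact hp.out.one_lt.trans hV
  have hker : ∀ g : G, χ g = 1 → ∀ v : V, g • g • v - (2 * ε g) • g • v + v = 0 := by
    intro g hg1 v
    have h1 := hg g v
    rw [hg1, Units.val_one, one_smul, one_add_one_eq_two, mul_comm (ε g)] at h1
    exact h1
  have huniq : ∀ g : G, χ g = 1 → ∀ v : V, v ≠ 0 → ∀ c : ZMod p, g • v = c • v → c = ε g := by
    intro g hg1 v hv c hc
    have h1 := hker g hg1 v
    rw [hc, smul_comm g c v, hc, smul_smul, smul_smul, ← sub_smul] at h1
    have h2 : (c * c - 2 * ε g * c + 1) • v = 0 := by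
      rw [add_smul, one_smul]; exact h1
    have h3 := (smul_eq_zero.mp h2).resolve_right hv
    have h4 : (c - ε g) ^ 2 = 0 := by linear_combination h3 + hε g
    exact sub_eq_zero.mp (pow_eq_zero_iff (two_ne_zero) |>.mp h4)
  obtain ⟨v₀, hv₀, hv₀'⟩ := exists_fixed_line (p := p) (G := χ.ker) (V := V)
    (fun g => ⟨ε g, hε g, fun v => hker g g.2 v⟩)
  -- the isotypic part
  let W : Submodule (ZMod p) V :=
    { carrier := {v | ∀ g : G, χ g = 1 → g • v = ε g • v}
      add_mem' := fun {a b} ha hb g hg1 => by rw [smul_add, smul_add, ha g hg1, hb g hg1]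
      zero_mem' := fun g _ => by rw [smul_zero, smul_zero]
      smul_mem' := fun c v hv g hg1 => by rw [smul_comm g c v, hv g hg1, smul_comm] }
  have hW : W = ⊤ := by
    refine (hirr W fun h v hv g hg1 => ?_).resolve_left fun h0 => ?_
    · by_cases hv0 : v = 0
      · rw [hv0, smul_zero, smul_zero, smul_zero]
      · have h1 : χ (h⁻¹ * g * h) = 1 := by
          rw [map_mul, map_mul, hg1, map_inv, mul_one, inv_mul_cancel]
        have h2 : g • h • v = ε (h⁻¹ * g * h) • h • v := by
          have h3 := hv _ h1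
          rw [← smul_comm h (ε (h⁻¹ * g * h)) v, ← h3, smul_smul, smul_smul]
          congr 1
          group
        rw [huniq g hg1 (h • v) ((smul_ne_zero_iff_ne h).mpr hv0) _ h2] at h2
        exact h2
    · apply hv₀
      have h1 : v₀ ∈ W := by
        intro g hg1
        obtain ⟨c, hc⟩ := hv₀' ⟨g, hg1⟩
        have hc' : g • v₀ = c • v₀ := hc
        rw [huniq g hg1 v₀ hv₀ c hc'] at hc'
        exact hc'
      rw [h0] at h1
      exact (Submodule.mem_bot _).mp h1
  have hscal : ∀ g : G, χ g = 1 → ∀ v : V, g • v = ε g • v := by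
    intro g hg1 v
    have : v ∈ W := by rw [hW]; trivial
    exact this g hg1
  -- a generator modulo the kernel
  obtain ⟨⟨_, g₀, rfl⟩, hgen⟩ := IsCyclic.exists_generator (α := χ.range)
  obtain ⟨v₁, hv₁, c₁, hc₁⟩ : ∃ v : V, v ≠ 0 ∧ ∃ c : ZMod p, g₀ • v = c • v := by
    by_cases h : g₀ • v₀ - (ε g₀ * χ g₀) • v₀ = 0
    · exact ⟨v₀, hv₀, _, sub_eq_zero.mp h⟩
    · refine ⟨_, h, ε g₀, ?_⟩
      have h1 := hg g₀ v₀
      have h2 : g₀ • g₀ • v₀ = (ε g₀ * (1 + χ g₀)) • g₀ • v₀ - (χ g₀ : ZMod p) • v₀ := by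
        rw [← sub_eq_zero, ← h1]; abel
      rw [smul_sub, smul_comm g₀ (ε g₀ * (χ g₀ : ZMod p)) v₀, h2, smul_sub, smul_smul, mul_add,
        mul_one, add_smul]
      have h3 : ε g₀ * (ε g₀ * (χ g₀ : ZMod p)) = χ g₀ := by
        rw [← mul_assoc, ← sq, hε, one_mul]
      rw [h3]
      abel
  let T : Subgroup G :=
    { carrier := {g | ∃ c : (ZMod p)ˣ, g • v₁ = (c : ZMod p) • v₁}
      mul_mem' := by
        rintro a b ⟨c, hc⟩ ⟨d, hd⟩
        exact ⟨c * d, by rw [mul_smul, hd, smul_comm, hc, smul_smul, Units.val_mul, mul_comm]⟩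
      one_mem' := ⟨1, by simp⟩
      inv_mem' := by
        rintro a ⟨c, hc⟩
        refine ⟨c⁻¹, ?_⟩
        rw [inv_smul_eq_iff, smul_comm, hc, smul_smul, ← Units.val_mul, inv_mul_cancel,
          Units.val_one, one_smul] }
  have hT : ∀ g : G, g ∈ T := by
    have h0 : g₀ ∈ T := by
      have hc0 : c₁ ≠ 0 := by
        rintro rfl
        rw [zero_smul, smul_eq_zero_iff_eq] at hc₁
        exact hv₁ hc₁
      exact ⟨Units.mk0 c₁ hc0, hc₁⟩
    have h1 : ∀ g : G, χ g = 1 → g ∈ T := by
      intro g hg1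
      have he : ε g ≠ 0 := by
        intro h
        have := hε g
        rw [h] at this
        simp at this
      exact ⟨Units.mk0 (ε g) he, hscal g hg1 v₁⟩
    intro g
    obtain ⟨k, hk⟩ := Subgroup.mem_zpowers_iff.mp (hgen ⟨χ g, g, rfl⟩)
    have hk' : χ g₀ ^ k = χ g := congrArg Subtype.val hk
    have h2 : g = g₀ ^ k * (g₀ ^ (-k) * g) := by group
    rw [h2]
    refine T.mul_mem (T.zpow_mem h0 k) (h1 _ ?_)
    rw [map_mul, map_zpow, ← hk', ← zpow_add, neg_add_cancel, zpow_zero]
  have hL : (Submodule.span (ZMod p) {v₁}) = ⊤ := by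
    refine (hirr _ fun g x hx => ?_).resolve_left fun h => ?_
    · obtain ⟨c, rfl⟩ := Submodule.mem_span_singleton.mp hx
      obtain ⟨d, hd⟩ := hT g
      rw [smul_comm, hd]
      exact Submodule.smul_mem _ _ (Submodule.smul_mem _ _ (Submodule.mem_span_singleton_self _))
    · rw [Submodule.span_singleton_eq_bot] at h
      exact hv₁ h
  have hsurj : Function.Surjective (fun c : ZMod p => c • v₁) := by
    intro v
    have : v ∈ Submodule.span (ZMod p) {v₁} := by rw [hL]; trivial
    exact Submodule.mem_span_singleton.mp this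
  have := Nat.card_le_card_of_surjective _ hsurj
  rw [Nat.card_zmod] at this
  omega

end Fermat.Agent.LevelRaise
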