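import Mathlib

set_option autoImplicit false

/-!
# Sums over cosets
-/

namespace Fermat.Agent.LevelRaise

noncomputable section

section generic

variable {H : Type*} [Group H] {R : Type*} [AddCommGroup R]

/-- right invariance -/
def Inv (K : Subgroup H) (f : H → R) : Prop := ∀ y, ∀ g ∈ K, f (y * g) = f y

/-- sum over left cosets -/
def SX (K : Subgroup H) (f : H → R) : R := ∑ᶠ x : H ⧸ K, f x.out

lemma Inv.out {K : Subgroup H} {f : H → R} (hf : Inv K f) (y : H) :
    f ((QuotientGroup.mk y : H ⧸ K).out) = f y := by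
  obtain ⟨g, hg⟩ := QuotientGroup.mk_out_eq_mul K y
  rw [hg, hf y g g.2]

lemma Inv.out_eq {K : Subgroup H} {f : H → R} (hf : Inv K f) (x : H ⧸ K) (y : H)
    (h : QuotientGroup.mk y = x) : f x.out = f y := by
  rw [← h, hf.out]

lemma Inv.mono {K L : Subgroup H} (h : K ≤ L) {f : H → R} (hf : Inv L f) : Inv K f :=
  fun y g hg => hf y g (h hg)

variable {K : Subgroup H} [K.FiniteIndex]

lemma SX_add (f g : H → R) : SX K (fun y => f y + g y) = SX K f + SX K g :=
  finsum_add_distrib (Set.toFinite _) (Set.toFinite _)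

lemma SX_neg (f : H → R) : SX K (fun y => - f y) = - SX K f := by
  have := finsum_neg_distrib (fun x : H ⧸ K => f x.out)
  exact this

lemma SX_sub (f g : H → R) : SX K (fun y => f y - g y) = SX K f - SX K g := by
  simp only [sub_eq_add_neg]
  rw [SX_add, SX_neg]

lemma SX_sum {ι : Type*} (s : Finset ι) (f : ι → H → R) :
    SX K (fun y => ∑ i ∈ s, f i y) = ∑ i ∈ s, SX K (f i) := by
  classical
  induction s using Finset.induction_on with
  | empty => simp [SX]
  | insert a s ha ih =>
    simp only [Finset.sum_insert ha]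
    rw [SX_add, ih]

lemma SX_nsmul (n : ℕ) (f : H → R) : SX K (fun y => n • f y) = n • SX K f := by
  induction n with
  | zero => simp [SX]
  | succ n ih => simp only [succ_nsmul]; rw [SX_add, ih]

lemma SX_congr {f g : H → R} (h : ∀ y, f y = g y) : SX K f = SX K g := by
  rw [SX, SX]; congr 1; funext x; exact h _

lemma SX_shift {f : H → R} (hf : Inv K f) (g : H) : SX K (fun y => f (g * y)) = SX K f := by
  have h0 := finsum_comp_equiv (MulAction.toPerm g : Equiv.Perm (H ⧸ K))
    (f := fun x => f x.out)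
  rw [SX, SX, ← h0]
  congr 1
  funext x
  refine (hf.out_eq _ _ ?_).symm
  have h1 : (QuotientGroup.mk (g * x.out) : H ⧸ K) = g • QuotientGroup.mk x.out := rfl
  rw [h1, QuotientGroup.out_eq']
  rfl

lemma SX_map {R' : Type*} [AddCommGroup R'] (u : R →+ R') (f : H → R) :
    u (SX K f) = SX K (fun y => u (f y)) :=
  u.map_finsum (Set.toFinite _)

/-- isomorphism invariance -/
lemma SX_iso {H' : Type*} [Group H'] {K' : Subgroup H'} (e : H ≃* H')
    (he : ∀ g, g ∈ K ↔ e g ∈ K') {f' : H' → R} (hf' : Inv K' f') :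
    SX K (fun y => f' (e y)) = SX K' f' := by
  have hq : ∀ a b : H, (QuotientGroup.leftRel K) a b ↔ (QuotientGroup.leftRel K') (e a) (e b) := by
    intro a b
    rw [QuotientGroup.leftRel_apply, QuotientGroup.leftRel_apply, he, map_mul, map_inv]
  let E : H ⧸ K ≃ H' ⧸ K' := Quotient.congr e.toEquiv hq
  rw [SX, SX, ← finsum_comp_equiv E]
  congr 1
  funext x
  refine (hf'.out_eq _ _ ?_).symm
  conv_rhs => rw [← QuotientGroup.out_eq' x]
  rfl

/-- sums in stages -/
lemma SX_tower {L : Subgroup H} (hKL : K ≤ L) {f : H → R} (hf : Inv K f) :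
    SX K f = SX L (fun r => SX (K.subgroupOf L) (fun s => f (r * (s : H)))) := by
  let e := Subgroup.quotientEquivProdOfLE' hKL (Quotient.out : H ⧸ L → H) Quotient.out_eq'
  have : L.FiniteIndex := Subgroup.finiteIndex_of_le hKL
  have hfin : Finite (H ⧸ L) := inferInstance
  have hfin2 : Finite (L ⧸ K.subgroupOf L) := inferInstance
  rw [SX, ← finsum_comp_equiv e.symm]
  have h1 : ∀ p : (H ⧸ L) × (L ⧸ K.subgroupOf L), f (e.symm p).out =
      f (p.1.out * (p.2.out : H)) := by
    rintro ⟨a, b⟩
    refine hf.out_eq _ _ ?_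
    have : b = QuotientGroup.mk b.out := (QuotientGroup.out_eq' b).symm
    conv_rhs => rw [this]
    rfl
  have h2 := finsum_curry (fun p : (H ⧸ L) × (L ⧸ K.subgroupOf L) => f (e.symm p).out)
    (Set.toFinite _)
  rw [h2]
  rw [SX]
  congr 1
  funext a
  rw [SX]
  congr 1
  funext b
  exact h1 (a, b)

lemma SX_subgroupOf_inv {L : Subgroup H} {f : H → R} (hf : Inv K f) (r : H) :
    Inv (K.subgroupOf L) (fun s : L => f (r * (s : H))) := by
  intro y g hg
  simp only [Subgroup.coe_mul, ← mul_assoc]
  exact hf _ _ (Subgroup.mem_subgroupOf.mp hg)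

/-- the inner sum is invariant -/
lemma SX_inner_inv {L : Subgroup H} {f : H → R} (hf : Inv K f) :
    Inv L (fun r => SX (K.subgroupOf L) (fun s => f (r * (s : H)))) := by
  intro y g hg
  change SX (K.subgroupOf L) (fun s => f (y * g * (s : H))) =
    SX (K.subgroupOf L) (fun s => f (y * (s : H)))
  have := SX_shift (SX_subgroupOf_inv (L := L) hf y) ⟨g, hg⟩
  rw [← this]
  refine SX_congr fun s => ?_
  simp only [Subgroup.coe_mul, mul_assoc]

end generic

section telescoping

variable {H : Type*} [Group H] {R : Type*} [AddCommGroup R] {K : Subgroup H} [K.FiniteIndex]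

/-- a uniform exponent -/
lemma exists_uniform_pow (K : Subgroup H) [K.FiniteIndex] :
    ∃ M : ℕ, 0 < M ∧ ∀ t y : H, y⁻¹ * t ^ M * y ∈ K := by
  refine ⟨K.normalCore.index, Nat.pos_of_ne_zero Subgroup.FiniteIndex.index_ne_zero, ?_⟩
  intro t y
  have h1 : t ^ K.normalCore.index ∈ K.normalCore := Subgroup.pow_index_mem K.normalCore t
  have h2 := K.normalCore_normal.conj_mem _ h1 y⁻¹
  rw [inv_inv] at h2
  exact K.normalCore_le h2

/-- telescoping along a cyclic group -/
lemma SX_telescope (t : H) {V : H → R} (hv : Inv K (fun y => V (t * y) - V y)) (M : ℕ) :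
    M • SX K (fun y => V (t * y) - V y) = SX K (fun y => V (t ^ M * y) - V y) := by
  induction M with
  | zero => simp [SX]
  | succ M ih =>
    rw [succ_nsmul, ih]
    have h1 : SX K (fun y => V (t ^ (M + 1) * y) - V (t ^ M * y)) =
        SX K (fun y => V (t * y) - V y) := by
      rw [← SX_shift hv (t ^ M)]
      refine SX_congr fun y => ?_
      simp only [pow_succ', mul_assoc]
    rw [← h1, ← SX_add]
    refine SX_congr fun y => ?_
    abel

end telescoping

end

end Fermat.Agent.LevelRaise
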